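/-
S55 / Global / H3 (package CORE-H3 = U1, owner helper12): the ABSTRACT theorem (pure algebra,
explicit multiplicative cochains).

Setting: `π : Γ ↠ G` groups (`N = ker π`); `G`-modules `A → J → C` and `Γ`-modules `A' → J' → C'`
(`q ∘ ι = 1`, `q'` surjective) with compatible coefficient maps `jA, jJ, jC`
(`jC` injective onto the `N`-invariants).  Hypotheses:
 (h1) `H¹(N, C') = 1`;
 (h2) `[Z²(G,C) : B²(G,C)] ≤ |G|`;
 (h3) a cocycle `a ∈ Z²(Γ, J')` whose image `ā` in `C'` restricts trivially to `N` and has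
      order divisible by `|G|` in `H²(Γ, C')`;
 (split) a `ker q'`-valued `2`-cochain whose coboundary is `ι' ∘ φ` exhibits `φ` as a `3`-coboundary.
Conclusion: if `ι ∘ f = d² b` for a `2`-cochain `b : G² → J` then the inflation of `f` to `Γ` is a
`3`-coboundary with values in `A'`.
-/
import Fermat.Agent.S55.CohomOrder
import Fermat.Agent.S55.Alg.CohomDefs3

set_option autoImplicit false

namespace Fermat.Agent.S55

open groupCohomology

/-! ## the coboundary `d² : C²(G,X) → C³(G,X)` as a group homomorphism -/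

section D2

variable {G : Type} [Group G] {X : Type} [CommGroup X] [MulDistribMulAction G X]

/-- `(d² c)(g,h,k) = g • c(h,k) / c(gh,k) * c(g,hk) / c(g,h)` as a monoid hom. -/
def h3D2 : (G × G → X) →* (G × G × G → X) where
  toFun c := fun p =>
    p.1 • c (p.2.1, p.2.2) / c (p.1 * p.2.1, p.2.2) * c (p.1, p.2.1 * p.2.2) / c (p.1, p.2.1)
  map_one' := by
    funext p
    simp
  map_mul' c c' := by
    funext p
    simp only [Pi.mul_apply, smul_mul', div_eq_mul_inv, mul_inv]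
    ac_rfl

theorem h3D2_apply (c : G × G → X) (g h k : G) :
    h3D2 c (g, h, k) = g • c (h, k) / c (g * h, k) * c (g, h * k) / c (g, h) := rfl

theorem h3_isMulCocycle₂_iff (c : G × G → X) : IsMulCocycle₂ c ↔ h3D2 c = 1 := by
  constructor
  · intro hc
    funext ⟨g, h, k⟩
    rw [h3D2_apply, Pi.one_apply, div_eq_one, div_mul_eq_mul_div, div_eq_iff_eq_mul, ← hc g h k,
      mul_comm]
  · intro hc g h k
    have := congrFun hc (g, h, k)
    rw [h3D2_apply, Pi.one_apply, div_eq_one, div_mul_eq_mul_div, div_eq_iff_eq_mul] at this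
    rw [this, mul_comm]

theorem h3_isMulCoboundary₃_iff (f : G × G × G → X) :
    IsMulCoboundary₃ f ↔ ∃ c : G × G → X, h3D2 c = f := by
  constructor
  · rintro ⟨c, hc⟩
    exact ⟨c, funext fun ⟨g, h, k⟩ => hc g h k⟩
  · rintro ⟨c, rfl⟩
    exact ⟨c, fun g h k => rfl⟩

theorem h3D2_cohordD (x : G → X) : h3D2 (cohordD x) = 1 :=
  (h3_isMulCocycle₂_iff _).1 (cohordD_coc x)

end D2

/-! ## counting in the cyclic group `Z / B` -/

section Count

/-- If `[Z : B] ≤ n` and `c₀ ∈ Z` has order divisible by `n` modulo `B`, then `Z / B` is generated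
by `c₀`. -/
theorem h3_exists_pow_div_mem {A : Type*} [CommGroup A] (B Z : Subgroup A) (n : ℕ)
    (h0 : B.relIndex Z ≠ 0) (hle : B.relIndex Z ≤ n) (c₀ : A) (hc₀ : c₀ ∈ Z)
    (hord : ∀ m : ℕ, c₀ ^ m ∈ B → n ∣ m) (z : A) (hz : z ∈ Z) : ∃ m : ℕ, z / c₀ ^ m ∈ B := by
  have hcard : Nat.card (Z ⧸ B.subgroupOf Z) = B.relIndex Z := (Subgroup.index_eq_card _).symm
  have hfin : Finite (Z ⧸ B.subgroupOf Z) := Nat.finite_of_card_ne_zero (by rw [hcard]; exact h0)
  set x : Z ⧸ B.subgroupOf Z := ((⟨c₀, hc₀⟩ : Z) : Z ⧸ B.subgroupOf Z) with hx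
  have hpow : ∀ m : ℕ, x ^ m = 1 → n ∣ m := by
    intro m hm
    apply hord m
    rw [hx, ← QuotientGroup.mk_pow, QuotientGroup.eq_one_iff, Subgroup.mem_subgroupOf] at hm
    exact hm
  have ho : orderOf x = Nat.card (Z ⧸ B.subgroupOf Z) := by
    have h1 : n ∣ orderOf x := hpow _ (pow_orderOf_eq_one x)
    have h2 : 0 < orderOf x := orderOf_pos x
    have h3 : orderOf x ≤ Nat.card (Z ⧸ B.subgroupOf Z) := orderOf_le_card
    have h4 := Nat.le_of_dvd h2 h1
    omega
  have htop : Subgroup.zpowers x = ⊤ := by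
    apply Subgroup.eq_top_of_card_eq
    rw [Nat.card_zpowers, ho]
  have hy : ((⟨z, hz⟩ : Z) : Z ⧸ B.subgroupOf Z) ∈ Submonoid.powers x := by
    rw [mem_powers_iff_mem_zpowers, htop]
    exact Subgroup.mem_top _
  obtain ⟨m, hm⟩ := hy
  refine ⟨m, ?_⟩
  have h5 : ((⟨z, hz⟩ : Z) : Z ⧸ B.subgroupOf Z) = ((⟨c₀, hc₀⟩ ^ m : Z) : Z ⧸ B.subgroupOf Z) := by
    rw [QuotientGroup.mk_pow]
    exact hm.symm
  rw [QuotientGroup.eq_iff_div_mem, Subgroup.mem_subgroupOf] at h5
  simpa using h5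

end Count

/-! ## the abstract theorem -/

section Abstract

variable {Γ G : Type} [Group Γ] [Group G]
  {A J C A' J' C' : Type} [CommGroup A] [CommGroup J] [CommGroup C]
  [CommGroup A'] [CommGroup J'] [CommGroup C']
  [MulDistribMulAction G J] [MulDistribMulAction G C]
  [MulDistribMulAction Γ A'] [MulDistribMulAction Γ J'] [MulDistribMulAction Γ C']

/-- `d²` commutes with pull-back along `(π, j)` for equivariant `j`. -/
theorem h3D2_pullCochain₂ {X Y : Type} [CommGroup X] [CommGroup Y] [MulDistribMulAction G X]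
    [MulDistribMulAction Γ Y] (π : Γ →* G) (j : X →* Y)
    (hj : ∀ (γ : Γ) (x : X), j (π γ • x) = γ • j x) (c : G × G → X) :
    h3D2 (pullCochain₂ π j c) = pullCochain₃ π j (h3D2 c) := by
  funext ⟨g, h, k⟩
  simp only [h3D2_apply, pullCochain₂, pullCochain₃, map_mul, map_div, hj]

/-- A retraction `r` defined on `ker q'` (a plain function, multiplicative and equivariant on
`ker q'`) commutes with `d²` on `ker q'`-valued cochains. -/
theorem h3D2_retraction (q' : J' →* C')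
    (hq' : ∀ (γ : Γ) (x : J'), q' (γ • x) = γ • q' x) (r : J' → A')
    (hrmul : ∀ x y : J', q' x = 1 → q' y = 1 → r (x * y) = r x * r y)
    (hrsmul : ∀ (γ : Γ) (x : J'), q' x = 1 → r (γ • x) = γ • r x)
    (β : Γ × Γ → J') (hβ1 : ∀ p, q' (β p) = 1) (g h k : Γ) :
    r (h3D2 β (g, h, k)) = h3D2 (fun p => r (β p)) (g, h, k) := by
  have hr1 : r 1 = 1 := by
    have := hrmul 1 1 (map_one q') (map_one q')
    rw [mul_one] at this
    exact (mul_eq_left.1 this.symm)
  have hrinv : ∀ x : J', q' x = 1 → r x⁻¹ = (r x)⁻¹ := by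
    intro x hx
    have h1 : q' x⁻¹ = 1 := by rw [map_inv, hx, inv_one]
    have := hrmul x x⁻¹ hx h1
    rw [mul_inv_cancel, hr1] at this
    exact (eq_inv_of_mul_eq_one_right this.symm)
  have hrdiv : ∀ x y : J', q' x = 1 → q' y = 1 → r (x / y) = r x / r y := by
    intro x y hx hy
    rw [div_eq_mul_inv, div_eq_mul_inv, hrmul x y⁻¹ hx (by rw [map_inv, hy, inv_one]), hrinv y hy]
  have hsm : ∀ (γ : Γ) (x : J'), q' x = 1 → q' (γ • x) = 1 := by
    intro γ x hx
    rw [hq', hx, smul_one]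
  have k1 : q' (g • β (h, k) / β (g * h, k)) = 1 := by
    rw [map_div, hsm g _ (hβ1 _), hβ1, div_one]
  have k2 : q' (g • β (h, k) / β (g * h, k) * β (g, h * k)) = 1 := by
    rw [map_mul, k1, hβ1, mul_one]
  rw [h3D2_apply, h3D2_apply, hrdiv _ _ k2 (hβ1 _), hrmul _ _ k1 (hβ1 _),
    hrdiv _ _ (hsm g _ (hβ1 _)) (hβ1 _), hrsmul g _ (hβ1 _)]

/-- **The abstract theorem of CORE-H3.**  `q : J → C`, `q' : J' → C'` are the class maps, `r`, `r'`
retractions onto `A`, `A'` defined on `ker q`, `ker q'`; `f = r ∘ d² b` for a `2`-cochain `b` of `G`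
with values in `J` whose image in `C` is a cocycle.  Then the inflation of `f` to `Γ` is a
`3`-coboundary with values in `A'`. -/
theorem h3_abstract
    (π : Γ →* G) (hπ : Function.Surjective π)
    (q : J →* C) (q' : J' →* C') (jA : A →* A') (jJ : J →* J') (jC : C →* C')
    (hq : ∀ (g : G) (x : J), q (g • x) = g • q x)
    (hq' : ∀ (γ : Γ) (x : J'), q' (γ • x) = γ • q' x) (hq'surj : Function.Surjective q')
    (hjJ : ∀ (γ : Γ) (x : J), jJ (π γ • x) = γ • jJ x)
    (hjC : ∀ (γ : Γ) (x : C), jC (π γ • x) = γ • jC x)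
    (hjCq : ∀ x : J, jC (q x) = q' (jJ x))
    (hjCinj : Function.Injective jC)
    (hjCfix : ∀ x : C', (∀ n ∈ π.ker, n • x = x) → ∃ y : C, jC y = x)
    (h90 : ∀ u : π.ker → C', IsMulCocycle₁ u → IsMulCoboundary₁ u)
    (hidx0 : (cohordB2 G C).relIndex (cohordZ2 G C) ≠ 0)
    (hidx : (cohordB2 G C).relIndex (cohordZ2 G C) ≤ Nat.card G)
    (a : Γ × Γ → J') (ha : IsMulCocycle₂ a)
    (hares : IsMulCoboundary₂ (fun p : π.ker × π.ker => q' (a ((p.1 : Γ), (p.2 : Γ)))))
    (haord : ∀ m : ℕ, IsMulCoboundary₂ (fun p : Γ × Γ => q' (a p) ^ m) → Nat.card G ∣ m)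
    (r : J → A) (r' : J' → A')
    (hr'mul : ∀ x y : J', q' x = 1 → q' y = 1 → r' (x * y) = r' x * r' y)
    (hr'smul : ∀ (γ : Γ) (x : J'), q' x = 1 → r' (γ • x) = γ • r' x)
    (hrr' : ∀ x : J, q x = 1 → r' (jJ x) = jA (r x))
    (f : G × G × G → A) (b : G × G → J)
    (hbq : ∀ g h k : G, q (h3D2 b (g, h, k)) = 1)
    (hbr : ∀ g h k : G, r (h3D2 b (g, h, k)) = f (g, h, k)) :
    IsMulCoboundary₃ (pullCochain₃ π jA f) := by
  -- Step 1: `b̄ = q ∘ b` is a cocycle
  have hbbar : IsMulCocycle₂ (fun p => q (b p)) := by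
    rw [h3_isMulCocycle₂_iff]
    funext ⟨g, h, k⟩
    have := hbq g h k
    simp only [h3D2_apply, map_mul, map_div, hq] at this
    exact this
  -- Step 2: `ā = q' ∘ a` is a cocycle
  set c : Γ × Γ → C' := fun p => q' (a p) with hc
  have hccoc : IsMulCocycle₂ c := by
    intro g h k
    have := congrArg q' (ha g h k)
    simpa only [map_mul, hq'] using this
  -- Step 3: `ā` is cohomologous to an inflated cocycle
  obtain ⟨c₀, hc₀, hcob⟩ :=
    exists_pullCochain₂_of_restrict π hπ jC hjCinj hjC hjCfix h90 c hccoc hares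
  have hpullpow : ∀ m : ℕ, pullCochain₂ π jC (c₀ ^ m) = pullCochain₂ π jC c₀ ^ m := by
    intro m
    funext p
    simp [pullCochain₂]
  -- Step 4: the order of `c₀`
  have hord : ∀ m : ℕ, c₀ ^ m ∈ cohordB2 G C → Nat.card G ∣ m := by
    intro m hm
    apply haord m
    have h1 : IsMulCoboundary₂ (pullCochain₂ π jC (c₀ ^ m)) :=
      pullCochain₂_isMulCoboundary₂ π jC hjC _ hm
    have h2 : IsMulCoboundary₂ ((c / pullCochain₂ π jC c₀) ^ m) := cohord_cob_pow hcob m
    have h3 := cohord_cob_mul h2 h1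
    rw [hpullpow, div_pow, div_mul_cancel] at h3
    exact h3
  -- Step 5: `b̄ ~ c₀ ^ m`
  obtain ⟨m, hm⟩ := h3_exists_pow_div_mem (cohordB2 G C) (cohordZ2 G C) (Nat.card G) hidx0 hidx
    c₀ hc₀ hord (fun p => q (b p)) hbbar
  -- Step 6: inflate
  have h6 : IsMulCoboundary₂ (pullCochain₂ π jC (fun p => q (b p)) / c ^ m) := by
    have h1 : IsMulCoboundary₂ (pullCochain₂ π jC ((fun p => q (b p)) / c₀ ^ m)) :=
      pullCochain₂_isMulCoboundary₂ π jC hjC _ hm
    have h2 : IsMulCoboundary₂ ((c / pullCochain₂ π jC c₀) ^ m) := cohord_cob_pow hcob m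
    have h3 := cohord_cob_div h1 h2
    have h4 : pullCochain₂ π jC ((fun p => q (b p)) / c₀ ^ m) =
        pullCochain₂ π jC (fun p => q (b p)) / pullCochain₂ π jC c₀ ^ m := by
      rw [← hpullpow]
      funext p
      simp [pullCochain₂]
    rw [h4, div_pow, div_div_div_cancel_right] at h3
    exact h3
  obtain ⟨h', hh'⟩ := h6
  -- Step 7: lift and define `β`
  choose ht hht using fun γ : Γ => hq'surj (h' γ)
  set B : Γ × Γ → J' := pullCochain₂ π jJ b with hB
  set β : Γ × Γ → J' := B / (a ^ m * cohordD ht) with hβ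
  have hβ1 : ∀ p, q' (β p) = 1 := by
    rintro ⟨g, h⟩
    have e := hh' g h
    simp only [Pi.div_apply, Pi.pow_apply, pullCochain₂, hc] at e
    simp only [hβ, hB, Pi.div_apply, Pi.mul_apply, Pi.pow_apply, cohordD, pullCochain₂, map_div,
      map_mul, map_pow, hq', hht, ← hjCq]
    rw [div_eq_one, e, mul_comm, div_mul_cancel]
  -- Step 8: `d² β = inf (d² b)`
  have hβ2 : h3D2 β = pullCochain₃ π jJ (h3D2 b) := by
    rw [hβ, map_div, map_mul, map_pow, (h3_isMulCocycle₂_iff a).1 ha, h3D2_cohordD, one_pow,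
      mul_one, div_one, hB, h3D2_pullCochain₂ π jJ hjJ]
  -- Step 9: apply the retraction
  refine (h3_isMulCoboundary₃_iff _).2 ⟨fun p => r' (β p), ?_⟩
  funext ⟨g, h, k⟩
  rw [← h3D2_retraction q' hq' r' hr'mul hr'smul β hβ1 g h k, hβ2]
  show r' (jJ (h3D2 b (π g, π h, π k))) = jA (f (π g, π h, π k))
  rw [hrr' _ (hbq _ _ _), hbr]

end Abstract

end Fermat.Agent.S55
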