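/-
S55 / Global / H3: SHORTCUT INSTANCES for the action of `Gal(L_j/K_j)` on `(L_j)ˣ`
(`L_j = lgField q j`).  The default instance search for
`SMul (lgField q j ≃ₐ[lgField q (j.comp (algebraMap K L))] lgField q j) (lgField q j)ˣ`
exceeds the default `synthInstance.maxHeartbeats` as soon as a few more `MulDistribMulAction`
instances on units are in scope (e.g. `Global/Defs.lean`).  These shortcuts are definitionally equal
(at reducible + instances transparency) to the instances found by the slow default search.
-/
import Fermat.Agent.S55.LG.Defs

set_option autoImplicit false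

noncomputable section

namespace Fermat.Agent.S55

/-- the generic action of `Gal(L/K)` on `Lˣ` (found quickly for variable fields). -/
@[reducible] def h3UnitsAction (K L : Type*) [Field K] [Field L] [Algebra K L] :
    MulDistribMulAction (L ≃ₐ[K] L) Lˣ := inferInstance

variable {K L : Type*} [Field K] [NumberField K] [Field L] [NumberField L] [Algebra K L]

instance (priority := high) h3LocalAction (q : ℕ) [Fact q.Prime] (j : L →+* PadicAlgCl q) :
    MulDistribMulAction (lgField q j ≃ₐ[lgField q (j.comp (algebraMap K L))] lgField q j)
      (lgField q j)ˣ :=
  h3UnitsAction _ _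

instance (priority := high) h3LocalSMul (q : ℕ) [Fact q.Prime] (j : L →+* PadicAlgCl q) :
    SMul (lgField q j ≃ₐ[lgField q (j.comp (algebraMap K L))] lgField q j) (lgField q j)ˣ :=
  (h3LocalAction q j).toMulAction.toSMul

end Fermat.Agent.S55
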