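/-
S55 / Global / H3 (package CORE-H3 = U1, owner helper12): DEFINITIONS (no sorry).

* `h3QuotAction P hP` : the action of `G` on `X ⧸ P` for a `G`-stable subgroup `P`.
* `glExtJ T F M`, `glExtI F M`, `glExt T F M` : extension of `T`-ideles / ideals / truncated ideles
  along a field extension `F → M`.
* `h3Pr T q j` : the projection `J_T(F) = (F ⊗ A_T)ˣ → (F_j)ˣ` at a `q`-adic embedding `j` of `F`,
  `q ∈ T`, `x ⊗ a ↦ j(x) · a_q`.
* `h3Retr T F` : the retraction `GlIdele T F → Fˣ` of `glDiag` (junk `1` off the diagonal).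
* `h3Fix M E` : the subgroup of `Gal(M/K)` fixing the intermediate field `E`.
-/
import Fermat.Agent.S55.Global.Defs
import Fermat.Agent.S55.Global.TowerDefs
import Fermat.Agent.S55.Global.Recip.Defs
import Fermat.Agent.S55.Global.H3.LocalInst
import Fermat.Agent.S55.CohomOrder
import Fermat.Agent.S14.AmbigClasses

set_option autoImplicit false

noncomputable section

namespace Fermat.Agent.S55

open scoped TensorProduct NumberField nonZeroDivisors
open NumberField IsDedekindDomain

/-! ## The action on a quotient by a stable subgroup -/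

section QuotAction

variable {G X : Type*} [Group G] [CommGroup X] [MulDistribMulAction G X] (P : Subgroup X)
  (hP : ∀ (g : G) (x : X), x ∈ P → g • x ∈ P)

/-- The endomorphism of `X ⧸ P` induced by `g`, for a `G`-stable subgroup `P`. -/
def h3QuotMap (g : G) : X ⧸ P →* X ⧸ P :=
  QuotientGroup.map P P (MulDistribMulAction.toMonoidHom X g) (fun x hx => hP g x hx)

theorem h3QuotMap_mk (g : G) (x : X) : h3QuotMap P hP g (x : X ⧸ P) = ((g • x : X) : X ⧸ P) := rfl

/-- The action of `G` on `X ⧸ P` for a `G`-stable subgroup `P` (a `def`; register instances for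
concrete `P`). -/
@[reducible] def h3QuotAction : MulDistribMulAction G (X ⧸ P) where
  smul g y := h3QuotMap P hP g y
  one_smul y := by
    induction y using QuotientGroup.induction_on with | _ x => ?_
    show h3QuotMap P hP 1 (x : X ⧸ P) = _
    rw [h3QuotMap_mk, one_smul]
  mul_smul g h y := by
    induction y using QuotientGroup.induction_on with | _ x => ?_
    show h3QuotMap P hP (g * h) (x : X ⧸ P) = h3QuotMap P hP g (h3QuotMap P hP h (x : X ⧸ P))
    rw [h3QuotMap_mk, h3QuotMap_mk, h3QuotMap_mk, mul_smul]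
  smul_mul g y z := map_mul (h3QuotMap P hP g) y z
  smul_one g := map_one (h3QuotMap P hP g)

end QuotAction

/-! ## Extension maps along `F → M` -/

section Ext

variable (T : Finset Nat.Primes) (F M : Type) [Field F] [NumberField F] [Field M] [NumberField M]
  [Algebra F M]

/-- `F ⊗ A_T → M ⊗ A_T`. -/
def glExtFS : GlFS T F →ₐ[ℚ] GlFS T M :=
  Algebra.TensorProduct.map (algebraMap F M).toRatAlgHom (AlgHom.id ℚ (GlAS T))

@[simp] lemma glExtFS_tmul (x : F) (a : GlAS T) :
    glExtFS T F M (x ⊗ₜ[ℚ] a) = algebraMap F M x ⊗ₜ[ℚ] a := rfl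

/-- `J_T(F) → J_T(M)`. -/
def glExtJ : GlJ T F →* GlJ T M := Units.map (glExtFS T F M : GlFS T F →* GlFS T M)

/-- `I(F) → I(M)`, extension of fractional ideals. -/
def glExtI : GlI F →* GlI M := Fermat.Agent.S14.extFrac F M

/-- `J_T(F) × I(F) → J_T(M) × I(M)`. -/
def glExt : GlIdele T F →* GlIdele T M := (glExtJ T F M).prodMap (glExtI F M)

lemma glExt_fst (x : GlIdele T F) : (glExt T F M x).1 = glExtJ T F M x.1 := rfl

lemma glExt_snd (x : GlIdele T F) : (glExt T F M x).2 = glExtI F M x.2 := rfl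

end Ext

/-! ## Local projections -/

section Pr

variable (T : Finset Nat.Primes) {F : Type} [Field F] [NumberField F]

/-- the ring hom `F ⊗ A_T → F_j`, `x ⊗ a ↦ j(x) · a_q`, for `q ∈ T` and a `q`-adic embedding `j`. -/
def h3PrAlg (q : T) (j : F →+* PadicAlgCl ((q : Nat.Primes) : ℕ)) :
    GlFS T F →ₐ[ℚ] lgField ((q : Nat.Primes) : ℕ) j :=
  Algebra.TensorProduct.productMap (lgEmb ((q : Nat.Primes) : ℕ) j).toRatAlgHom
    ((algebraMap ℚ_[((q : Nat.Primes) : ℕ)] (lgField ((q : Nat.Primes) : ℕ) j)).toRatAlgHom.comp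
      (GlAS.proj T q))

lemma h3PrAlg_tmul (q : T) (j : F →+* PadicAlgCl ((q : Nat.Primes) : ℕ)) (x : F) (a : GlAS T) :
    h3PrAlg T q j (x ⊗ₜ[ℚ] a) =
      lgEmb ((q : Nat.Primes) : ℕ) j x *
        algebraMap ℚ_[((q : Nat.Primes) : ℕ)] (lgField ((q : Nat.Primes) : ℕ) j) (a q) := by
  rw [h3PrAlg, Algebra.TensorProduct.productMap_apply_tmul]
  rfl

/-- the projection `J_T(F) → (F_j)ˣ`. -/
def h3Pr (q : T) (j : F →+* PadicAlgCl ((q : Nat.Primes) : ℕ)) :
    GlJ T F →* (lgField ((q : Nat.Primes) : ℕ) j)ˣ :=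
  Units.map (h3PrAlg T q j : GlFS T F →* lgField ((q : Nat.Primes) : ℕ) j)

lemma h3Pr_glDiagJ (q : T) (j : F →+* PadicAlgCl ((q : Nat.Primes) : ℕ)) (x : Fˣ) :
    h3Pr T q j (glDiagJ T F x) = Units.map (lgEmb ((q : Nat.Primes) : ℕ) j : F →* _) x := by
  apply Units.ext
  show h3PrAlg T q j (algebraMap F (GlFS T F) (x : F)) = lgEmb ((q : Nat.Primes) : ℕ) j (x : F)
  rw [Algebra.TensorProduct.algebraMap_apply, h3PrAlg_tmul]
  have h1 : (1 : GlAS T) q = 1 := rfl
  rw [h1, map_one, mul_one]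
  rfl

end Pr

section Loc

variable (T : Finset Nat.Primes) {K F : Type} [Field K] [NumberField K] [Field F] [NumberField F]
  [Algebra K F]

/-- Localisation of a `2`-cochain of `Gal(F/K)` with values in `J_T(F)` at the `q`-adic embedding
`j` of `F` (`q ∈ T`): a `2`-cochain of `Gal(F_j/K_j)` with values in `F_jˣ`. -/
def h3Loc (q : T) (j : F →+* PadicAlgCl ((q : Nat.Primes) : ℕ))
    (c : (F ≃ₐ[K] F) × (F ≃ₐ[K] F) → GlJ T F) :
    (lgField ((q : Nat.Primes) : ℕ) j ≃ₐ[lgField ((q : Nat.Primes) : ℕ) (j.comp (algebraMap K F))]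
        lgField ((q : Nat.Primes) : ℕ) j) ×
      (lgField ((q : Nat.Primes) : ℕ) j ≃ₐ[lgField ((q : Nat.Primes) : ℕ) (j.comp (algebraMap K F))]
        lgField ((q : Nat.Primes) : ℕ) j) → (lgField ((q : Nat.Primes) : ℕ) j)ˣ :=
  pullCochain₂ (geRes (K := K) (Kv := lgField ((q : Nat.Primes) : ℕ) (j.comp (algebraMap K F)))
    (lgEmb ((q : Nat.Primes) : ℕ) j)) (h3Pr T q j) c

/-- the localisation of a diagonal cochain is helper6's `geLocLG`. -/
lemma h3Loc_glDiagJ (q : T) (j : F →+* PadicAlgCl ((q : Nat.Primes) : ℕ))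
    (c : (F ≃ₐ[K] F) × (F ≃ₐ[K] F) → Fˣ) :
    h3Loc T q j (fun p => glDiagJ T F (c p)) = geLocLG ((q : Nat.Primes) : ℕ) j c := by
  funext p
  simp only [h3Loc, pullCochain₂, h3Pr_glDiagJ]
  rfl

end Loc

/-! ## The retraction of the diagonal -/

section Retr

variable (T : Finset Nat.Primes) (F : Type) [Field F] [NumberField F]

open Classical in
/-- The retraction `J_T(F) × I(F) → Fˣ` of `glDiag`: the `a` with `a ⊗ 1 = x.1` (junk `1`). -/
def h3Retr (x : GlIdele T F) : Fˣ :=
  if h : ∃ a : Fˣ, glDiagJ T F a = x.1 then h.choose else 1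

end Retr

/-! ## Subgroups of the Galois group attached to intermediate fields -/

section Fix

variable {K : Type} (M E : Type) [Field K] [Field M] [Field E] [Algebra K M] [Algebra K E]
  [Algebra E M] [IsScalarTower K E M]

/-- the subgroup `Gal(M/E) ≤ Gal(M/K)` of automorphisms fixing the intermediate field `E`. -/
def h3Fix : Subgroup (M ≃ₐ[K] M) where
  carrier := {σ | ∀ x : E, σ (algebraMap E M x) = algebraMap E M x}
  mul_mem' := by
    intro σ τ hσ hτ x
    rw [AlgEquiv.mul_apply, hτ x, hσ x]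
  one_mem' := fun x => rfl
  inv_mem' := by
    intro σ hσ x
    have h1 := hσ x
    calc σ⁻¹ (algebraMap E M x) = σ⁻¹ (σ (algebraMap E M x)) := by rw [h1]
      _ = (σ⁻¹ * σ) (algebraMap E M x) := rfl
      _ = algebraMap E M x := by rw [inv_mul_cancel]; rfl

omit [Algebra K E] [IsScalarTower K E M] in
lemma mem_h3Fix (σ : M ≃ₐ[K] M) :
    σ ∈ h3Fix (K := K) M E ↔ ∀ x : E, σ (algebraMap E M x) = algebraMap E M x := Iff.rfl

/-- `Gal(M/E) → Gal(M/K)`. -/
def h3ResScalars : (M ≃ₐ[E] M) →* (M ≃ₐ[K] M) where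
  toFun σ := σ.restrictScalars K
  map_one' := rfl
  map_mul' _ _ := rfl

lemma h3ResScalars_apply (σ : M ≃ₐ[E] M) (x : M) : h3ResScalars (K := K) M E σ x = σ x := rfl

end Fix

/-! ## The special idele cocycle -/

section Special

variable (T : Finset Nat.Primes) (K L M : Type) [Field K] [NumberField K] [Field L] [NumberField L]
  [Field M] [NumberField M] [Algebra K L] [Algebra L M] [Algebra K M] [IsScalarTower K L M]
  [Normal K L]

/-- The special cocycle: the inflation to `Gal(M/K)` of the cyclic cocycle `cyc(σ, α)` of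
`Gal(L/K) = ⟨σ⟩` attached to the extension `α` of an idele `α₀ ∈ J_T(K)` (trivial ideal part). -/
def h3Special (σ : L ≃ₐ[K] L) (α₀ : GlJ T K) : (M ≃ₐ[K] M) × (M ≃ₐ[K] M) → GlIdele T M :=
  pullCochain₂ (AlgEquiv.restrictNormalHom L : (M ≃ₐ[K] M) →* (L ≃ₐ[K] L)) (glExt T L M)
    (cycCocycle σ (glExt T K L (α₀, 1)))

end Special

end Fermat.Agent.S55
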