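/-
S55 / Global / H3, leaf H3-IDL (helper20): `Global/H3/Ideal.lean` — toolkit for the ideal component
`GlI F` of the truncated ideles: Galois action, extension maps, invariant ideals, the permutation
module.  Proves the statements of `IdealSpec.lean` (origin/helper12 91b57d7) VERBATIM, sections
A (Galois action), B (extension maps), C (invariants / permutation module).  Section D
(`glExtI_normDiv`, `glExtI_exists_norm`) is helper3's.

Uses helper11's `GK/Capitulation.lean` (`gkc_count_extendedHom`: `ord_w(I 𝓞_M) = e(w) ord_v(I)`).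
Helper names are prefixed `h3idl`.
-/
import Fermat.Agent.S55.Global.H3.Defs
import Fermat.Agent.S14.DivClass
import Fermat.Agent.S55.GK.Capitulation

set_option autoImplicit false
set_option linter.unusedSectionVars false
set_option linter.unusedVariables false

noncomputable section

namespace Fermat.Agent.S55

open scoped NumberField nonZeroDivisors TensorProduct
open NumberField IsDedekindDomain groupCohomology

section Toolkit

variable {K F : Type*} [Field K] [NumberField K] [Field F] [NumberField F] [Algebra K F]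

/-- the prime `σ(w)`. -/
def h3idlPrime (σ : F ≃ₐ[K] F) (w : HeightOneSpectrum (𝓞 F)) : HeightOneSpectrum (𝓞 F) :=
  HeightOneSpectrum.equivOfRingEquiv (Fermat.Agent.S14.intAut σ) w

theorem h3idlPrime_asIdeal (σ : F ≃ₐ[K] F) (w : HeightOneSpectrum (𝓞 F)) :
    (h3idlPrime σ w).asIdeal = w.asIdeal.map (Fermat.Agent.S14.intAut σ) :=
  Ideal.comap_symm _

theorem h3idlPrime_injective (σ : F ≃ₐ[K] F) : Function.Injective (h3idlPrime (K := K) σ) :=
  (HeightOneSpectrum.equivOfRingEquiv (Fermat.Agent.S14.intAut σ)).injective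

theorem h3idlPrime_surjective (σ : F ≃ₐ[K] F) : Function.Surjective (h3idlPrime (K := K) σ) :=
  (HeightOneSpectrum.equivOfRingEquiv (Fermat.Agent.S14.intAut σ)).surjective

theorem h3idl_map_ne_bot (σ : F ≃ₐ[K] F) (J : Ideal (𝓞 F)) (hJ : J ≠ ⊥) :
    J.map (Fermat.Agent.S14.intAut σ) ≠ ⊥ := by
  rw [Ne, Ideal.map_eq_bot_iff_of_injective (Fermat.Agent.S14.intAut σ).injective]
  exact hJ

/-- `ord_{σ w}(σ J) = ord_w(J)` for a nonzero integral ideal. -/
theorem h3idl_count_map (σ : F ≃ₐ[K] F) (J : Ideal (𝓞 F)) (hJ : J ≠ 0)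
    (w : HeightOneSpectrum (𝓞 F)) :
    FractionalIdeal.count F (h3idlPrime σ w)
      ((J.map (Fermat.Agent.S14.intAut σ) : Ideal (𝓞 F)) :
        FractionalIdeal (𝓞 F)⁰ F) =
      FractionalIdeal.count F w (J : FractionalIdeal (𝓞 F)⁰ F) := by
  classical
  induction J using UniqueFactorizationMonoid.induction_on_prime with
  | h₁ => exact absurd rfl hJ
  | h₂ I hu =>
    rw [Ideal.isUnit_iff] at hu
    subst hu
    rw [Ideal.map_top, FractionalIdeal.coeIdeal_top, FractionalIdeal.count_one,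
      FractionalIdeal.count_one]
  | h₃ J P hJ0 hP ih =>
    have hP0 : P ≠ ⊥ := hP.ne_zero
    have hPp : P.IsPrime := Ideal.isPrime_of_prime hP
    let u : HeightOneSpectrum (𝓞 F) := ⟨P, hPp, hP0⟩
    have hJ' : ((J : Ideal (𝓞 F)) : FractionalIdeal (𝓞 F)⁰ F) ≠ 0 :=
      FractionalIdeal.coeIdeal_ne_zero.mpr hJ0
    have hP' : ((P : Ideal (𝓞 F)) : FractionalIdeal (𝓞 F)⁰ F) ≠ 0 :=
      FractionalIdeal.coeIdeal_ne_zero.mpr hP0
    have hmJ : (((J.map (Fermat.Agent.S14.intAut σ) : Ideal (𝓞 F))) :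
        FractionalIdeal (𝓞 F)⁰ F) ≠ 0 :=
      FractionalIdeal.coeIdeal_ne_zero.mpr (h3idl_map_ne_bot σ J hJ0)
    have hmP : (((P.map (Fermat.Agent.S14.intAut σ) : Ideal (𝓞 F))) :
        FractionalIdeal (𝓞 F)⁰ F) ≠ 0 :=
      FractionalIdeal.coeIdeal_ne_zero.mpr (h3idl_map_ne_bot σ P hP0)
    rw [Ideal.map_mul, FractionalIdeal.coeIdeal_mul, FractionalIdeal.coeIdeal_mul,
      FractionalIdeal.count_mul F _ hmP hmJ, FractionalIdeal.count_mul F _ hP' hJ', ih hJ0]
    congr 1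
    have h1 : P.map (Fermat.Agent.S14.intAut σ) = (h3idlPrime σ u).asIdeal :=
      (h3idlPrime_asIdeal σ u).symm
    rw [h1]
    show FractionalIdeal.count F (h3idlPrime σ w) ((h3idlPrime σ u).asIdeal : FractionalIdeal _ F) =
      FractionalIdeal.count F w (u.asIdeal : FractionalIdeal _ F)
    rw [FractionalIdeal.count_maximal, FractionalIdeal.count_maximal]
    by_cases huw : u = w
    · rw [if_pos huw, if_pos (by rw [huw])]
    · rw [if_neg huw, if_neg (fun h => huw (h3idlPrime_injective σ h))]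

/-- `ord_{σ w}(σ I) = ord_w(I)` for a nonzero fractional ideal. -/
theorem h3idl_count_fracAut (σ : F ≃ₐ[K] F) (I : FractionalIdeal (𝓞 F)⁰ F) (hI : I ≠ 0)
    (w : HeightOneSpectrum (𝓞 F)) :
    FractionalIdeal.count F (h3idlPrime σ w)
      (FractionalIdeal.ringEquivOfRingEquiv F F (Fermat.Agent.S14.intAut σ) I) =
      FractionalIdeal.count F w I := by
  have hden : (I.den : 𝓞 F) ≠ 0 := nonZeroDivisors.coe_ne_zero I.den
  have hnum : I.num ≠ 0 := fun h => hI (FractionalIdeal.num_eq_zero_iff.mp h)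
  have hspan : (Ideal.span {(I.den : 𝓞 F)} : Ideal (𝓞 F)) ≠ 0 := by simp [hden]
  have hD : ((Ideal.span {(I.den : 𝓞 F)} : Ideal (𝓞 F)) : FractionalIdeal (𝓞 F)⁰ F) ≠ 0 :=
    FractionalIdeal.coeIdeal_ne_zero.mpr hspan
  have key : ((Ideal.span {(I.den : 𝓞 F)} : Ideal (𝓞 F)) : FractionalIdeal (𝓞 F)⁰ F) * I =
      (I.num : FractionalIdeal (𝓞 F)⁰ F) := by
    rw [FractionalIdeal.coeIdeal_span_singleton]
    exact FractionalIdeal.den_mul_self_eq_num' (𝓞 F)⁰ F I
  have h1 := congrArg (FractionalIdeal.count F w) key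
  rw [FractionalIdeal.count_mul F _ hD hI] at h1
  have key2 := congrArg (FractionalIdeal.ringEquivOfRingEquiv F F (Fermat.Agent.S14.intAut σ)) key
  rw [map_mul, Fermat.Agent.S14.fracAut_coeIdeal_aux, Fermat.Agent.S14.fracAut_coeIdeal_aux]
    at key2
  have hσI : FractionalIdeal.ringEquivOfRingEquiv F F (Fermat.Agent.S14.intAut σ) I ≠ 0 := by
    intro h
    exact hI ((map_eq_zero_iff _ (RingEquiv.injective _)).1 h)
  have h2 := congrArg (FractionalIdeal.count F (h3idlPrime σ w)) key2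
  rw [FractionalIdeal.count_mul F _
    (FractionalIdeal.coeIdeal_ne_zero.mpr (h3idl_map_ne_bot σ _ hspan)) hσI,
    h3idl_count_map σ _ hspan w, h3idl_count_map σ _ hnum w, ← h1] at h2
  exact add_left_cancel h2

theorem h3idl_natCast_mem_prime (σ : F ≃ₐ[K] F) (w : HeightOneSpectrum (𝓞 F)) (n : ℕ) :
    ((n : ℕ) : 𝓞 F) ∈ (h3idlPrime σ w).asIdeal ↔ ((n : ℕ) : 𝓞 F) ∈ w.asIdeal := by
  rw [h3idlPrime_asIdeal]
  have h : ((n : ℕ) : 𝓞 F) = Fermat.Agent.S14.intAut σ ((n : ℕ) : 𝓞 F) := (map_natCast _ n).symm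
  conv_lhs => rw [h]
  exact Ideal.apply_mem_of_equiv_iff

theorem h3idl_glAbove_prime (T : Finset Nat.Primes) (σ : F ≃ₐ[K] F)
    (w : HeightOneSpectrum (𝓞 F)) : GlAbove T F (h3idlPrime σ w) ↔ GlAbove T F w := by
  unfold GlAbove
  constructor
  · rintro ⟨q, hq, h⟩
    exact ⟨q, hq, (h3idl_natCast_mem_prime σ w _).1 h⟩
  · rintro ⟨q, hq, h⟩
    exact ⟨q, hq, (h3idl_natCast_mem_prime σ w _).2 h⟩

/-- `ord_{σ w}(σ • I) = ord_w(I)`. -/
theorem h3idl_count_smul (σ : F ≃ₐ[K] F) (I : GlI F) (w : HeightOneSpectrum (𝓞 F)) :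
    FractionalIdeal.count F (h3idlPrime σ w) ((σ • I : GlI F) : FractionalIdeal (𝓞 F)⁰ F) =
      FractionalIdeal.count F w (I : FractionalIdeal (𝓞 F)⁰ F) :=
  h3idl_count_fracAut σ _ (Units.ne_zero I) w

end Toolkit

section A

variable (T : Finset Nat.Primes) {K F : Type} [Field K] [NumberField K] [Field F] [NumberField F]
  [Algebra K F]

theorem glDiagJ_smul (σ : F ≃ₐ[K] F) (a : Fˣ) : σ • glDiagJ T F a = glDiagJ T F (σ • a) := by
  apply Units.ext
  show glFSAut T σ (algebraMap F (GlFS T F) (a : F)) = algebraMap F (GlFS T F) ((σ • a : Fˣ) : F)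
  rw [Algebra.TensorProduct.algebraMap_apply, Algebra.TensorProduct.algebraMap_apply, glFSAut_tmul]
  rfl

theorem glDiagI_smul (σ : F ≃ₐ[K] F) (a : Fˣ) : σ • glDiagI F a = glDiagI F (σ • a) := by
  show Fermat.Agent.S14.fracAut σ (toPrincipalIdeal (𝓞 F) F a) = toPrincipalIdeal (𝓞 F) F (σ • a)
  rw [Fermat.Agent.S14.fracAut_toPrincipalIdeal]
  rfl

theorem glDiag_smul (σ : F ≃ₐ[K] F) (a : Fˣ) : σ • glDiag T F a = glDiag T F (σ • a) := by
  show (σ • glDiagJ T F a, σ • glDiagI F a) = (glDiagJ T F (σ • a), glDiagI F (σ • a))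
  rw [glDiagJ_smul, glDiagI_smul]

/-- `count_v (σ I) = count_{σ⁻¹ v} I`, in the form: the ideals supported above `T` are stable. -/
theorem glIdealsOn_smul_mem (σ : F ≃ₐ[K] F) {I : GlI F} (hI : I ∈ glIdealsOn T F) :
    σ • I ∈ glIdealsOn T F := by
  intro v hv
  obtain ⟨w, rfl⟩ := h3idlPrime_surjective σ v
  rw [h3idl_count_smul]
  exact hI w (fun h => hv ((h3idl_glAbove_prime T σ w).2 h))

theorem glPrinc_smul_mem (σ : F ≃ₐ[K] F) (x : GlIdele T F) (hx : x ∈ glPrinc T F) :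
    σ • x ∈ glPrinc T F := by
  unfold glPrinc at hx ⊢
  rw [Subgroup.mem_sup] at hx ⊢
  obtain ⟨y, ⟨a, rfl⟩, z, hz, rfl⟩ := hx
  refine ⟨σ • glDiag T F a, ⟨σ • a, (glDiag_smul T σ a).symm⟩, σ • z, ?_, (smul_mul' σ _ _).symm⟩
  rw [Subgroup.mem_prod] at hz ⊢
  refine ⟨?_, glIdealsOn_smul_mem T σ hz.2⟩
  have h1 : z.1 = 1 := Subgroup.mem_bot.1 hz.1
  show σ • z.1 ∈ (⊥ : Subgroup (GlJ T F))
  rw [h1, smul_one]
  exact Subgroup.one_mem _

/-- elements of `glPrinc`: `x = diag(a) · (1, I)` with `I` supported above `T`. -/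
theorem mem_glPrinc_iff (x : GlIdele T F) :
    x ∈ glPrinc T F ↔ ∃ (a : Fˣ) (I : GlI F), I ∈ glIdealsOn T F ∧ x = glDiag T F a * (1, I) := by
  unfold glPrinc
  rw [Subgroup.mem_sup]
  constructor
  · rintro ⟨y, ⟨a, rfl⟩, z, hz, rfl⟩
    rw [Subgroup.mem_prod] at hz
    refine ⟨a, z.2, hz.2, ?_⟩
    have h1 : z.1 = 1 := Subgroup.mem_bot.1 hz.1
    rw [← h1]
  · rintro ⟨a, I, hI, rfl⟩
    refine ⟨glDiag T F a, ⟨a, rfl⟩, (1, I), ?_, rfl⟩
    rw [Subgroup.mem_prod]
    exact ⟨Subgroup.one_mem _, hI⟩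

/-- the diagonal embedding into `J_T(F)` is injective for `T ≠ ∅`. -/
theorem glDiagJ_injective (hT : T.Nonempty) : Function.Injective (glDiagJ T F) := by
  haveI : Nonempty T := hT.to_subtype
  haveI : Nontrivial (GlAS T) :=
    inferInstanceAs (Nontrivial (∀ q : T, ℚ_[((q : Nat.Primes) : ℕ)]))
  have h1 : Function.Injective (algebraMap ℚ (GlAS T)) := (algebraMap ℚ (GlAS T)).injective
  have h2 : Function.Injective (Algebra.TensorProduct.includeLeft : F →ₐ[ℚ] F ⊗[ℚ] GlAS T) :=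
    Algebra.TensorProduct.includeLeft_injective (S := ℚ) h1
  intro a b hab
  apply Units.ext
  apply h2
  have := congrArg (fun u : GlJ T F => (u : GlFS T F)) hab
  exact this

end A

section ToolkitB

variable {F M : Type} [Field F] [NumberField F] [Field M] [NumberField M] [Algebra F M]

/-- two monoid homs on the invertible fractional ideals agree iff they agree on principal and on
integral ideals. -/
theorem h3idl_hom_ext {X : Type*} [Group X] (f g : GlI F →* X)
    (hp : ∀ y : Fˣ, f (toPrincipalIdeal (𝓞 F) F y) = g (toPrincipalIdeal (𝓞 F) F y))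
    (hi : ∀ A : (Ideal (𝓞 F))⁰, f (FractionalIdeal.mk0 F A) = g (FractionalIdeal.mk0 F A)) :
    f = g := by
  ext b
  obtain ⟨y, A, hyA⟩ := Fermat.Agent.S14.exists_toPrincipalIdeal_mul_eq_mk0 b
  have hb : b = (toPrincipalIdeal (𝓞 F) F y)⁻¹ * FractionalIdeal.mk0 F A := by
    rw [← hyA, inv_mul_cancel_left]
  rw [hb, map_mul, map_mul, map_inv, map_inv, hp, hi]

theorem h3idl_placeBelow_primeAbove (v : HeightOneSpectrum (𝓞 F)) :
    ∃ w : HeightOneSpectrum (𝓞 M), Fermat.Agent.S14.placeBelow F M w = v := by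
  refine ⟨⟨Fermat.Agent.S14.primeAbove F M v, inferInstance,
    Fermat.Agent.S14.primeAbove_ne_bot F M v⟩, ?_⟩
  apply HeightOneSpectrum.ext
  show (Fermat.Agent.S14.primeAbove F M v).under (𝓞 F) = v.asIdeal
  exact (Ideal.LiesOver.over (P := Fermat.Agent.S14.primeAbove F M v) (p := v.asIdeal)).symm

theorem h3idl_glAbove_placeBelow (T : Finset Nat.Primes) (w : HeightOneSpectrum (𝓞 M)) :
    GlAbove T F (Fermat.Agent.S14.placeBelow F M w) ↔ GlAbove T M w := by
  unfold GlAbove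
  have key : ∀ n : ℕ, ((n : ℕ) : 𝓞 F) ∈ (Fermat.Agent.S14.placeBelow F M w).asIdeal ↔
      ((n : ℕ) : 𝓞 M) ∈ w.asIdeal := by
    intro n
    show ((n : ℕ) : 𝓞 F) ∈ w.asIdeal.under (𝓞 F) ↔ _
    rw [Ideal.under_def, Ideal.mem_comap, map_natCast]
  constructor
  · rintro ⟨q, hq, h⟩
    exact ⟨q, hq, (key _).1 h⟩
  · rintro ⟨q, hq, h⟩
    exact ⟨q, hq, (key _).2 h⟩

theorem h3idl_gkcE_ne_zero (w : HeightOneSpectrum (𝓞 M)) : gkcE F w ≠ 0 := by
  unfold gkcE
  rw [Ne, gkc_count_coe_eq_zero_iff _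
    (gkc_map_ne_bot _ (Fermat.Agent.S14.placeBelow F M w).ne_bot) w, not_not]
  exact Ideal.map_comap_le

/-- `ord_w(ext I) = e(w) · ord_v(I)`, `e(w) ≠ 0`. -/
theorem h3idl_count_ext (I : GlI F) (w : HeightOneSpectrum (𝓞 M)) :
    FractionalIdeal.count M w ((Fermat.Agent.S14.extFrac F M I : GlI M) :
      FractionalIdeal (𝓞 M)⁰ M) =
      gkcE F w * FractionalIdeal.count F (Fermat.Agent.S14.placeBelow F M w)
        (I : FractionalIdeal (𝓞 F)⁰ F) :=
  gkc_count_extendedHom _ (Units.ne_zero I) w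

end ToolkitB

section B

variable (T : Finset Nat.Primes) {K : Type} (F M : Type) [Field K] [NumberField K] [Field F]
  [NumberField F] [Field M] [NumberField M] [Algebra F M]

theorem glExtI_mem_glIdealsOn_iff (I : GlI F) :
    glExtI F M I ∈ glIdealsOn T M ↔ I ∈ glIdealsOn T F := by
  constructor
  · intro h v hv
    obtain ⟨w, rfl⟩ := h3idl_placeBelow_primeAbove (M := M) v
    have h1 := h w (fun hw => hv ((h3idl_glAbove_placeBelow T w).2 hw))
    have h2 := h3idl_count_ext I w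
    rw [show (Fermat.Agent.S14.extFrac F M I) = glExtI F M I from rfl, h1] at h2
    exact (mul_eq_zero.1 h2.symm).resolve_left (h3idl_gkcE_ne_zero w)
  · intro h w hw
    show FractionalIdeal.count M w ((Fermat.Agent.S14.extFrac F M I : GlI M) :
      FractionalIdeal (𝓞 M)⁰ M) = 0
    rw [h3idl_count_ext, h _ (fun hv => hw ((h3idl_glAbove_placeBelow T w).1 hv)), mul_zero]

theorem glExtI_glDiagI (a : Fˣ) :
    glExtI F M (glDiagI F a) = glDiagI M (Units.map (algebraMap F M : F →* M) a) :=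
  Fermat.Agent.S14.extFrac_toPrincipalIdeal a

theorem glExtJ_glDiagJ (a : Fˣ) :
    glExtJ T F M (glDiagJ T F a) = glDiagJ T M (Units.map (algebraMap F M : F →* M) a) := by
  apply Units.ext
  show glExtFS T F M (algebraMap F (GlFS T F) (a : F)) =
    algebraMap M (GlFS T M) (algebraMap F M (a : F))
  rw [Algebra.TensorProduct.algebraMap_apply, Algebra.TensorProduct.algebraMap_apply,
    glExtFS_tmul]
  rfl

theorem glExt_glDiag (a : Fˣ) :
    glExt T F M (glDiag T F a) = glDiag T M (Units.map (algebraMap F M : F →* M) a) := by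
  show (glExtJ T F M (glDiagJ T F a), glExtI F M (glDiagI F a)) = _
  rw [glExtJ_glDiagJ, glExtI_glDiagI]
  rfl

theorem glExtI_injective : Function.Injective (glExtI F M) := by
  intro I J h
  apply Units.ext
  apply FractionalIdeal.extendedHom_injective (𝓞 F) F M (𝓞 M)
  have := congrArg (fun u : GlI M => (u : FractionalIdeal (𝓞 M)⁰ M)) h
  exact this

theorem glExtFS_injective : Function.Injective (glExtFS T F M) := by
  have h1 : Function.Injective ((algebraMap F M).toRatAlgHom.toLinearMap) :=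
    (algebraMap F M).injective
  have h2 := Module.Flat.rTensor_preserves_injective_linearMap (M := GlAS T) _ h1
  have h3 : ∀ x, glExtFS T F M x =
      LinearMap.rTensor (GlAS T) ((algebraMap F M).toRatAlgHom.toLinearMap) x := by
    intro x
    induction x using TensorProduct.induction_on with
    | zero => rw [map_zero, map_zero]
    | tmul a b => rfl
    | add x y hx hy => rw [map_add, map_add, hx, hy]
  intro x y hxy
  apply h2
  rw [← h3, ← h3, hxy]

theorem glExtJ_injective : Function.Injective (glExtJ T F M) :=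
  Units.map_injective (f := (glExtFS T F M : GlFS T F →* GlFS T M)) (glExtFS_injective T F M)

theorem glExt_mem_glPrinc (x : GlIdele T F) (hx : x ∈ glPrinc T F) :
    glExt T F M x ∈ glPrinc T M := by
  rw [mem_glPrinc_iff] at hx ⊢
  obtain ⟨a, I, hI, rfl⟩ := hx
  refine ⟨Units.map (algebraMap F M : F →* M) a, glExtI F M I,
    (glExtI_mem_glIdealsOn_iff T F M I).2 hI, ?_⟩
  rw [map_mul, glExt_glDiag]
  congr 1
  show (glExtJ T F M 1, glExtI F M I) = (1, glExtI F M I)
  rw [map_one]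

/-- transitivity of extension. -/
theorem glExt_glExt (E : Type) [Field E] [NumberField E] [Algebra F E] [Algebra E M]
    [IsScalarTower F E M] (x : GlIdele T F) : glExt T E M (glExt T F E x) = glExt T F M x := by
  have hJ : ∀ y : GlJ T F, glExtJ T E M (glExtJ T F E y) = glExtJ T F M y := by
    intro y
    apply Units.ext
    show glExtFS T E M (glExtFS T F E (y : GlFS T F)) = glExtFS T F M (y : GlFS T F)
    have h : (glExtFS T E M).comp (glExtFS T F E) = glExtFS T F M := by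
      apply Algebra.TensorProduct.ext'
      intro a b
      show algebraMap E M (algebraMap F E a) ⊗ₜ[ℚ] b = algebraMap F M a ⊗ₜ[ℚ] b
      rw [← IsScalarTower.algebraMap_apply]
    exact congrArg (fun φ : GlFS T F →ₐ[ℚ] GlFS T M => φ (y : GlFS T F)) h
  have hI : (glExtI E M).comp (glExtI F E) = glExtI F M := by
    apply h3idl_hom_ext
    · intro y
      show Fermat.Agent.S14.extFrac E M (Fermat.Agent.S14.extFrac F E (toPrincipalIdeal (𝓞 F) F y)) =
        Fermat.Agent.S14.extFrac F M (toPrincipalIdeal (𝓞 F) F y)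
      rw [Fermat.Agent.S14.extFrac_toPrincipalIdeal, Fermat.Agent.S14.extFrac_toPrincipalIdeal,
        Fermat.Agent.S14.extFrac_toPrincipalIdeal]
      congr 1
      apply Units.ext
      show algebraMap E M (algebraMap F E (y : F)) = algebraMap F M (y : F)
      rw [← IsScalarTower.algebraMap_apply]
    · intro A
      apply Units.ext
      show FractionalIdeal.extendedHom M (𝓞 M) (FractionalIdeal.extendedHom E (𝓞 E)
        ((FractionalIdeal.mk0 F A : GlI F) : FractionalIdeal (𝓞 F)⁰ F)) =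
        FractionalIdeal.extendedHom M (𝓞 M)
          ((FractionalIdeal.mk0 F A : GlI F) : FractionalIdeal (𝓞 F)⁰ F)
      rw [FractionalIdeal.coe_mk0, FractionalIdeal.extendedHom_coeIdeal_eq_map,
        FractionalIdeal.extendedHom_coeIdeal_eq_map, FractionalIdeal.extendedHom_coeIdeal_eq_map,
        Ideal.map_map, ← IsScalarTower.algebraMap_eq]
  show (glExtJ T E M (glExtJ T F E x.1), glExtI E M (glExtI F E x.2)) =
    (glExtJ T F M x.1, glExtI F M x.2)
  rw [hJ]
  have := congrArg (fun φ : GlI F →* GlI M => φ x.2) hI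
  exact congrArg (Prod.mk _) this

/-- `ext ∘ τ = σ ∘ ext` on fractional ideals when `alg ∘ τ = σ ∘ alg`. -/
theorem h3idl_ext_fracAut {K₁ K₂ : Type} [Field K₁] [NumberField K₁] [Field K₂] [NumberField K₂]
    [Algebra K₁ F] [Algebra K₂ M] (τ : F ≃ₐ[K₁] F) (σ : M ≃ₐ[K₂] M)
    (h : ∀ a : F, algebraMap F M (τ a) = σ (algebraMap F M a)) (I : GlI F) :
    glExtI F M (Fermat.Agent.S14.fracAut τ I) = Fermat.Agent.S14.fracAut σ (glExtI F M I) := by
  have hring : (algebraMap (𝓞 F) (𝓞 M)).comp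
      ((Fermat.Agent.S14.intAut τ : 𝓞 F ≃+* 𝓞 F) : 𝓞 F →+* 𝓞 F) =
      ((Fermat.Agent.S14.intAut σ : 𝓞 M ≃+* 𝓞 M) : 𝓞 M →+* 𝓞 M).comp
        (algebraMap (𝓞 F) (𝓞 M)) := by
    ext a
    show algebraMap (𝓞 M) M (algebraMap (𝓞 F) (𝓞 M) (Fermat.Agent.S14.intAut τ a)) =
      algebraMap (𝓞 M) M (Fermat.Agent.S14.intAut σ (algebraMap (𝓞 F) (𝓞 M) a))
    rw [Fermat.Agent.S14.algebraMap_intAut, ← IsScalarTower.algebraMap_apply,
      IsScalarTower.algebraMap_apply (𝓞 F) F M, Fermat.Agent.S14.algebraMap_intAut, h,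
      ← IsScalarTower.algebraMap_apply, ← IsScalarTower.algebraMap_apply]
  have hhom : (glExtI F M).comp (Fermat.Agent.S14.fracAut τ) =
      (Fermat.Agent.S14.fracAut σ).comp (glExtI F M) := by
    apply h3idl_hom_ext
    · intro y
      show Fermat.Agent.S14.extFrac F M (Fermat.Agent.S14.fracAut τ (toPrincipalIdeal (𝓞 F) F y)) =
        Fermat.Agent.S14.fracAut σ (Fermat.Agent.S14.extFrac F M (toPrincipalIdeal (𝓞 F) F y))
      rw [Fermat.Agent.S14.fracAut_toPrincipalIdeal, Fermat.Agent.S14.extFrac_toPrincipalIdeal,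
        Fermat.Agent.S14.extFrac_toPrincipalIdeal, Fermat.Agent.S14.fracAut_toPrincipalIdeal]
      congr 1
      apply Units.ext
      exact h (y : F)
    · intro A
      apply Units.ext
      show FractionalIdeal.extendedHom M (𝓞 M)
          (FractionalIdeal.ringEquivOfRingEquiv F F (Fermat.Agent.S14.intAut τ)
            ((FractionalIdeal.mk0 F A : GlI F) : FractionalIdeal (𝓞 F)⁰ F)) =
        FractionalIdeal.ringEquivOfRingEquiv M M (Fermat.Agent.S14.intAut σ)
          (FractionalIdeal.extendedHom M (𝓞 M)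
            ((FractionalIdeal.mk0 F A : GlI F) : FractionalIdeal (𝓞 F)⁰ F))
      rw [FractionalIdeal.coe_mk0, Fermat.Agent.S14.fracAut_coeIdeal_aux,
        FractionalIdeal.extendedHom_coeIdeal_eq_map, FractionalIdeal.extendedHom_coeIdeal_eq_map,
        Fermat.Agent.S14.fracAut_coeIdeal_aux]
      congr 1
      show Ideal.map (algebraMap (𝓞 F) (𝓞 M))
          (Ideal.map ((Fermat.Agent.S14.intAut τ : 𝓞 F ≃+* 𝓞 F) : 𝓞 F →+* 𝓞 F) (A : Ideal (𝓞 F))) =
        Ideal.map ((Fermat.Agent.S14.intAut σ : 𝓞 M ≃+* 𝓞 M) : 𝓞 M →+* 𝓞 M)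
          (Ideal.map (algebraMap (𝓞 F) (𝓞 M)) (A : Ideal (𝓞 F)))
      rw [Ideal.map_map, Ideal.map_map, hring]
  exact congrArg (fun φ : GlI F →* GlI M => φ I) hhom

/-- `ext ∘ τ = σ ∘ ext` on `T`-ideles when `alg ∘ τ = σ ∘ alg`. -/
theorem h3idl_ext_glFSAut {K₁ K₂ : Type} [Field K₁] [NumberField K₁] [Field K₂] [NumberField K₂]
    [Algebra K₁ F] [Algebra K₂ M] (τ : F ≃ₐ[K₁] F) (σ : M ≃ₐ[K₂] M)
    (h : ∀ a : F, algebraMap F M (τ a) = σ (algebraMap F M a)) (y : GlJ T F) :
    glExtJ T F M (τ • y) = σ • glExtJ T F M y := by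
  apply Units.ext
  show glExtFS T F M (glFSAut T τ (y : GlFS T F)) = glFSAut T σ (glExtFS T F M (y : GlFS T F))
  have hh : (glExtFS T F M).comp (glFSAut T τ) = (glFSAut T σ).comp (glExtFS T F M) := by
    apply Algebra.TensorProduct.ext'
    intro a b
    show algebraMap F M (τ a) ⊗ₜ[ℚ] b = σ (algebraMap F M a) ⊗ₜ[ℚ] b
    rw [h]
  exact congrArg (fun φ : GlFS T F →ₐ[ℚ] GlFS T M => φ (y : GlFS T F)) hh

/-- equivariance: `ext (σ|_F • x) = σ • ext x` for `σ ∈ Gal(M/K)`, `F/K` normal. -/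
theorem glExt_smul [Algebra K F] [Algebra K M] [IsScalarTower K F M] [Normal K F]
    (σ : M ≃ₐ[K] M) (x : GlIdele T F) :
    glExt T F M (AlgEquiv.restrictNormalHom F σ • x) = σ • glExt T F M x := by
  have h : ∀ a : F, algebraMap F M (AlgEquiv.restrictNormalHom F σ a) = σ (algebraMap F M a) :=
    fun a => AlgEquiv.restrictNormal_commutes σ F a
  show (glExtJ T F M (AlgEquiv.restrictNormalHom F σ • x.1),
      glExtI F M (Fermat.Agent.S14.fracAut (AlgEquiv.restrictNormalHom F σ) x.2)) =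
    (σ • glExtJ T F M x.1, Fermat.Agent.S14.fracAut σ (glExtI F M x.2))
  rw [h3idl_ext_glFSAut T F M _ σ h, h3idl_ext_fracAut F M _ σ h]

/-- equivariance in `Gal(M/F)`-form: extended elements are fixed. -/
theorem glExt_smul_eq (σ : M ≃ₐ[F] M) (x : GlIdele T F) :
    σ • glExt T F M x = glExt T F M x := by
  have h : ∀ a : F, algebraMap F M ((1 : F ≃ₐ[F] F) a) = σ (algebraMap F M a) :=
    fun a => (σ.commutes a).symm
  show (σ • glExtJ T F M x.1, Fermat.Agent.S14.fracAut σ (glExtI F M x.2)) =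
    (glExtJ T F M x.1, glExtI F M x.2)
  rw [← h3idl_ext_glFSAut T F M (1 : F ≃ₐ[F] F) σ h, ← h3idl_ext_fracAut F M (1 : F ≃ₐ[F] F) σ h,
    one_smul, Fermat.Agent.S14.fracAut_one]

end B
end Fermat.Agent.S55
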