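/-
S55 / Global / H3: the `T`-idele class group `GlC T F` as a Galois module, the class map `glMk`,
the extension map `glExtC`.  (No sorry of its own; uses the stability lemmas of `IdealSpec`.)
-/
import Fermat.Agent.S55.Global.H3.IdealBSpec

set_option autoImplicit false

noncomputable section

namespace Fermat.Agent.S55

open scoped NumberField nonZeroDivisors
open NumberField IsDedekindDomain

section Action

variable (T : Finset Nat.Primes) {K F : Type} [Field K] [NumberField K] [Field F] [NumberField F]
  [Algebra K F]

/-- `Gal(F/K)` acts on the `T`-idele class group. -/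
instance glCAction : MulDistribMulAction (F ≃ₐ[K] F) (GlC T F) :=
  h3QuotAction (glPrinc T F) (fun σ x hx => glPrinc_smul_mem T σ x hx)

variable (F) in
/-- the class map `J_T(F) × I(F) → C_T(F)`. -/
def glMk : GlIdele T F →* GlC T F := QuotientGroup.mk' (glPrinc T F)

theorem glMk_surjective : Function.Surjective (glMk T F) := QuotientGroup.mk'_surjective _

theorem glMk_eq_one_iff (x : GlIdele T F) : glMk T F x = 1 ↔ x ∈ glPrinc T F :=
  QuotientGroup.eq_one_iff x

theorem glMk_smul (σ : F ≃ₐ[K] F) (x : GlIdele T F) : glMk T F (σ • x) = σ • glMk T F x := rfl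

theorem glMk_glDiag (a : Fˣ) : glMk T F (glDiag T F a) = 1 := by
  rw [glMk_eq_one_iff]
  exact Subgroup.mem_sup_left ⟨a, rfl⟩

end Action

section Ext

variable (T : Finset Nat.Primes) (F M : Type) [Field F] [NumberField F] [Field M] [NumberField M]
  [Algebra F M]

/-- `C_T(F) → C_T(M)`. -/
def glExtC : GlC T F →* GlC T M :=
  QuotientGroup.map (glPrinc T F) (glPrinc T M) (glExt T F M)
    (fun x hx => glExt_mem_glPrinc T F M x hx)

theorem glExtC_glMk (x : GlIdele T F) : glExtC T F M (glMk T F x) = glMk T M (glExt T F M x) := rfl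

variable {K : Type} [Field K] [NumberField K] [Algebra K F] [Algebra K M] [IsScalarTower K F M]
  [Normal K F]

theorem glExtC_smul (σ : M ≃ₐ[K] M) (x : GlC T F) :
    glExtC T F M (AlgEquiv.restrictNormalHom F σ • x) = σ • glExtC T F M x := by
  obtain ⟨y, rfl⟩ := glMk_surjective T x
  rw [← glMk_smul, glExtC_glMk, glExtC_glMk, ← glMk_smul, glExt_smul]

end Ext

end Fermat.Agent.S55
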