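/-
S55 / Global / H3 (CORE-H3 = U1), leaf H3-IDL-C: invariant ideals / ideles, the permutation module
`I(M)` (statements of `IdealCSpec.lean` verbatim).

Route: dictionary `GlI M ≃ Div M` (`h3cIdl`, `h3cDiv`), under which `σ ∈ Gal(M/E)` acts by permuting
the places (`h3cPerm`); `H¹` of a permutation module vanishes (`h3c_perm_h1`, elementary);
invariants of `M ⊗_ℚ A` through a `ℚ`-basis of `A`.
-/
import Fermat.Agent.S55.Global.H3.Defs
import Fermat.Agent.S55.GK.Capitulation
import Fermat.Agent.S14.DivClass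
import Fermat.Agent.S14.InvariantIdeal

set_option autoImplicit false
set_option linter.unusedSectionVars false
set_option linter.unusedVariables false
set_option linter.style.haveILetI false

noncomputable section

namespace Fermat.Agent.S55

open scoped NumberField nonZeroDivisors TensorProduct
open NumberField IsDedekindDomain groupCohomology Fermat.Agent.S14

/-! ## The dictionary `GlI M ≃ Div M` -/

section Dict

variable {M : Type} [Field M] [NumberField M]

/-- the invertible ideal of a divisor -/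
def h3cIdl (D : S14.Div M) : GlI M := Additive.toMul (divUnit M D)

/-- the divisor of an invertible ideal -/
def h3cDiv (I : GlI M) : S14.Div M := divOfIdeal M (I : FractionalIdeal (𝓞 M)⁰ M)

theorem h3cIdl_zero : h3cIdl (0 : S14.Div M) = 1 := by
  simp [h3cIdl]

theorem h3cIdl_add (D D' : S14.Div M) : h3cIdl (D + D') = h3cIdl D * h3cIdl D' := by
  simp [h3cIdl]

theorem h3cIdl_neg (D : S14.Div M) : h3cIdl (-D) = (h3cIdl D)⁻¹ := by
  simp [h3cIdl]

theorem h3cIdl_sub (D D' : S14.Div M) : h3cIdl (D - D') = h3cIdl D / h3cIdl D' := by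
  rw [sub_eq_add_neg, h3cIdl_add, h3cIdl_neg, div_eq_mul_inv]

theorem coe_h3cIdl (D : S14.Div M) :
    ((h3cIdl D : GlI M) : FractionalIdeal (𝓞 M)⁰ M) = divIdeal M D := rfl

theorem count_h3cIdl (v : HeightOneSpectrum (𝓞 M)) (D : S14.Div M) :
    FractionalIdeal.count M v ((h3cIdl D : GlI M) : FractionalIdeal (𝓞 M)⁰ M) = D v :=
  count_divIdeal M v D

theorem h3cIdl_h3cDiv (I : GlI M) : h3cIdl (h3cDiv I) = I :=
  Units.ext (divIdeal_divOfIdeal M (Units.ne_zero I))

theorem h3cDiv_h3cIdl (D : S14.Div M) : h3cDiv (h3cIdl D) = D :=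
  divOfIdeal_divIdeal M D

theorem h3cDiv_apply (I : GlI M) (v : HeightOneSpectrum (𝓞 M)) :
    h3cDiv I v = FractionalIdeal.count M v (I : FractionalIdeal (𝓞 M)⁰ M) := rfl

theorem h3cIdl_injective : Function.Injective (h3cIdl (M := M)) := fun D D' h => by
  rw [← h3cDiv_h3cIdl D, h, h3cDiv_h3cIdl]

theorem h3cDiv_mul (I J : GlI M) : h3cDiv (I * J) = h3cDiv I + h3cDiv J := by
  apply h3cIdl_injective
  rw [h3cIdl_add, h3cIdl_h3cDiv, h3cIdl_h3cDiv, h3cIdl_h3cDiv]

theorem h3cIdl_mem_glIdealsOn_iff (T : Finset Nat.Primes) (D : S14.Div M) :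
    h3cIdl D ∈ glIdealsOn T M ↔ ∀ v : HeightOneSpectrum (𝓞 M), ¬ GlAbove T M v → D v = 0 := by
  constructor
  · intro h v hv
    rw [← count_h3cIdl v D]
    exact h v hv
  · intro h v hv
    rw [count_h3cIdl v D]
    exact h v hv

theorem mem_glIdealsOn_iff_h3cDiv (T : Finset Nat.Primes) (I : GlI M) :
    I ∈ glIdealsOn T M ↔ ∀ v : HeightOneSpectrum (𝓞 M), ¬ GlAbove T M v → h3cDiv I v = 0 :=
  Iff.rfl

end Dict

/-! ## The Galois action on the places -/

section Perm

variable {E M : Type} [Field E] [NumberField E] [Field M] [NumberField M] [Algebra E M]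

/-- the permutation of the places of `M` induced by `σ`. -/
def h3cPerm (σ : M ≃ₐ[E] M) : HeightOneSpectrum (𝓞 M) ≃ HeightOneSpectrum (𝓞 M) :=
  HeightOneSpectrum.equivOfRingEquiv (intAut σ)

theorem h3cPerm_asIdeal (σ : M ≃ₐ[E] M) (v : HeightOneSpectrum (𝓞 M)) :
    (h3cPerm σ v).asIdeal = v.asIdeal.map (intAut σ) :=
  Ideal.comap_symm (intAut σ)

theorem h3cPerm_one (v : HeightOneSpectrum (𝓞 M)) : h3cPerm (1 : M ≃ₐ[E] M) v = v := by
  apply HeightOneSpectrum.ext
  rw [h3cPerm_asIdeal, intAut_one]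
  exact Ideal.map_id _

theorem h3cPerm_mul (σ τ : M ≃ₐ[E] M) (v : HeightOneSpectrum (𝓞 M)) :
    h3cPerm (σ * τ) v = h3cPerm σ (h3cPerm τ v) := by
  apply HeightOneSpectrum.ext
  rw [h3cPerm_asIdeal, h3cPerm_asIdeal, h3cPerm_asIdeal, intAut_mul]
  exact (Ideal.map_map ((intAut τ : 𝓞 M ≃+* 𝓞 M) : 𝓞 M →+* 𝓞 M)
    ((intAut σ : 𝓞 M ≃+* 𝓞 M) : 𝓞 M →+* 𝓞 M)).symm

/-- the action of `Gal(M/E)` on the places of `M` (not an instance). -/
@[reducible] def h3cPlaceAction : MulAction (M ≃ₐ[E] M) (HeightOneSpectrum (𝓞 M)) where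
  smul σ v := h3cPerm σ v
  one_smul v := h3cPerm_one v
  mul_smul σ τ v := h3cPerm_mul σ τ v

theorem mem_h3cPerm_iff (σ : M ≃ₐ[E] M) (v : HeightOneSpectrum (𝓞 M)) (x : 𝓞 M) :
    intAut σ x ∈ (h3cPerm σ v).asIdeal ↔ x ∈ v.asIdeal := by
  rw [h3cPerm_asIdeal]
  exact Ideal.apply_mem_of_equiv_iff (f := intAut σ)

theorem glAbove_h3cPerm_iff (T : Finset Nat.Primes) (σ : M ≃ₐ[E] M)
    (v : HeightOneSpectrum (𝓞 M)) : GlAbove T M (h3cPerm σ v) ↔ GlAbove T M v := by
  unfold GlAbove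
  refine exists_congr fun q => and_congr_right fun _ => ?_
  have h : intAut σ (((q : Nat.Primes) : ℕ) : 𝓞 M) = (((q : Nat.Primes) : ℕ) : 𝓞 M) :=
    map_natCast (intAut σ) _
  conv_lhs => rw [← h]
  exact mem_h3cPerm_iff σ v _

theorem placeBelow_h3cPerm (σ : M ≃ₐ[E] M) (v : HeightOneSpectrum (𝓞 M)) :
    placeBelow E M (h3cPerm σ v) = placeBelow E M v := by
  apply HeightOneSpectrum.ext
  ext a
  show algebraMap (𝓞 E) (𝓞 M) a ∈ (h3cPerm σ v).asIdeal ↔ algebraMap (𝓞 E) (𝓞 M) a ∈ v.asIdeal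
  rw [← intAut_algebraMap σ a, mem_h3cPerm_iff, intAut_algebraMap]

/-- the action on ideals corresponds to the permutation of the places. -/
theorem smul_h3cIdl (σ : M ≃ₐ[E] M) (D : S14.Div M) :
    σ • h3cIdl D = h3cIdl (D.mapDomain (h3cPerm σ)) := by
  rw [glI_smul_def]
  induction D using Finsupp.induction_linear with
  | zero => simp [h3cIdl_zero]
  | add D D' h h' => rw [h3cIdl_add, map_mul, h, h', Finsupp.mapDomain_add, h3cIdl_add]
  | single v n =>
    rw [Finsupp.mapDomain_single]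
    unfold h3cIdl
    rw [divUnit_single, divUnit_single, toMul_zsmul, toMul_zsmul, map_zpow, toMul_ofMul,
      toMul_ofMul]
    congr 1
    exact fracAut_mk0 σ _ _ (h3cPerm_asIdeal σ v)

theorem h3cDiv_smul (σ : M ≃ₐ[E] M) (I : GlI M) :
    h3cDiv (σ • I) = (h3cDiv I).mapDomain (h3cPerm σ) := by
  conv_lhs => rw [← h3cIdl_h3cDiv I, smul_h3cIdl, h3cDiv_h3cIdl]

theorem mapDomain_h3cPerm_apply (σ : M ≃ₐ[E] M) (D : S14.Div M) (v : HeightOneSpectrum (𝓞 M)) :
    D.mapDomain (h3cPerm σ) v = D ((h3cPerm σ).symm v) :=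
  Finsupp.mapDomain_equiv_apply (f := h3cPerm σ) D v

theorem mapDomain_h3cPerm_apply' (σ : M ≃ₐ[E] M) (D : S14.Div M) (v : HeightOneSpectrum (𝓞 M)) :
    D.mapDomain (h3cPerm σ) (h3cPerm σ v) = D v := by
  rw [mapDomain_h3cPerm_apply, Equiv.symm_apply_apply]

end Perm

/-! ## `H¹` of a permutation module vanishes -/

section PermH1

variable {H X : Type*} [Group H] [Finite H] [MulAction H X]

theorem h3c_mapDomain_smul_apply (g : H) (f : X →₀ ℤ) (x : X) :
    f.mapDomain (g • ·) x = f (g⁻¹ • x) :=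
  Finsupp.mapDomain_equiv_apply (f := MulAction.toPerm g) f x

/-- A `1`-cocycle of a finite group `H` with values in the permutation module `ℤ[X]` is a
coboundary `g ↦ g • D - D`; moreover `D` vanishes at the points where the cocycle vanishes. -/
theorem h3c_perm_h1 (u : H → X →₀ ℤ)
    (hu : ∀ g h, u (g * h) = (u h).mapDomain (g • ·) + u g) :
    ∃ D : X →₀ ℤ, (∀ g, D.mapDomain (g • ·) - D = u g) ∧ ∀ x, (∀ g, u g x = 0) → D x = 0 := by
  classical
  have hpt : ∀ g h x, u (g * h) x = u h (g⁻¹ • x) + u g x := by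
    intro g h x
    rw [hu, Finsupp.add_apply, h3c_mapDomain_smul_apply]
  have hu1 : ∀ x, u 1 x = 0 := by
    intro x
    have h := hpt 1 1 x
    rw [mul_one, inv_one, one_smul] at h
    linarith
  have hstab : ∀ (x : X) (h : H), h • x = x → u h x = 0 := by
    intro x h hx
    have hinv : h⁻¹ • x = x := by rw [inv_smul_eq_iff, hx]
    have hpow : ∀ k : ℕ, u (h ^ k) x = k * u h x := by
      intro k
      induction k with
      | zero => simp [hu1]
      | succ k ih =>
        rw [pow_succ', hpt, hinv, ih]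
        push_cast
        ring
    have h1 := hpow (orderOf h)
    rw [pow_orderOf_eq_one, hu1] at h1
    have hpos : (0 : ℤ) < orderOf h := by exact_mod_cast orderOf_pos h
    rcases mul_eq_zero.mp h1.symm with h2 | h2
    · omega
    · exact h2
  let rep : X → X := fun x => (Quotient.mk (MulAction.orbitRel H X) x).out
  have hrep : ∀ x, ∃ s : H, s • x = rep x := by
    intro x
    have h1 : (MulAction.orbitRel H X) (rep x) x := Quotient.exact (Quotient.out_eq _)
    exact MulAction.orbitRel_apply.mp h1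
  choose s hs using hrep
  have hrep_smul : ∀ (g : H) (x : X), rep (g • x) = rep x := by
    intro g x
    show (Quotient.mk (MulAction.orbitRel H X) (g • x)).out =
      (Quotient.mk (MulAction.orbitRel H X) x).out
    congr 1
    exact Quotient.sound (MulAction.orbitRel_apply.mpr ⟨g, rfl⟩)
  have hindep : ∀ (x : X) (a b : H), a • x = rep x → b • x = rep x →
      u a (rep x) = u b (rep x) := by
    intro x a b ha hb
    have hfix : (b * a⁻¹) • rep x = rep x := by
      conv_lhs => rw [← ha]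
      rw [mul_smul, inv_smul_smul, hb]
    have h1 := hpt (b * a⁻¹) a (rep x)
    rw [inv_mul_cancel_right] at h1
    have h2 : (b * a⁻¹)⁻¹ • rep x = rep x := by rw [inv_smul_eq_iff, hfix]
    rw [h1, h2, hstab _ _ hfix, add_zero]
  set Dfun : X → ℤ := fun x => u (s x) (rep x) with hDfun
  have hfin : (Function.support Dfun).Finite := by
    have hsub : Function.support Dfun ⊆
        ⋃ (g : H), ⋃ (h : H), (fun x => g • x) '' ((u h).support : Set X) := by
      intro x hx
      rw [Function.mem_support] at hx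
      refine Set.mem_iUnion.mpr ⟨(s x)⁻¹, Set.mem_iUnion.mpr ⟨s x, rep x, ?_, ?_⟩⟩
      · exact Finset.mem_coe.mpr (Finsupp.mem_support_iff.mpr hx)
      · show (s x)⁻¹ • rep x = x
        rw [inv_smul_eq_iff, hs]
    exact (Set.finite_iUnion fun g => Set.finite_iUnion fun h =>
      (Finset.finite_toSet _).image _).subset hsub
  refine ⟨Finsupp.ofSupportFinite Dfun hfin, ?_, ?_⟩
  · intro g
    ext x
    rw [Finsupp.sub_apply, h3c_mapDomain_smul_apply]
    show Dfun (g⁻¹ • x) - Dfun x = u g x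
    set y := g⁻¹ • x with hy
    have hry : rep y = rep x := hrep_smul g⁻¹ x
    have h1 : (s y * g⁻¹) • x = rep x := by rw [mul_smul, ← hy, hs, hry]
    have h2 : u (s x) (rep x) = u (s y * g⁻¹) (rep x) := hindep x _ _ (hs x) h1
    have h3 := hpt (s y) g⁻¹ (rep x)
    have h4 : (s y)⁻¹ • rep x = y := by rw [inv_smul_eq_iff, hs, hry]
    rw [h4] at h3
    have h5 := hpt g g⁻¹ x
    rw [mul_inv_cancel, hu1, ← hy] at h5
    show u (s y) (rep y) - u (s x) (rep x) = u g x
    rw [h2, h3, hry]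
    linarith
  · intro x hx
    show u (s x) (rep x) = 0
    have h1 := hpt (s x)⁻¹ (s x) x
    rw [inv_mul_cancel, hu1, inv_inv, hs] at h1
    have h2 := hx (s x)⁻¹
    linarith

end PermH1

/-! ## The statements -/

section C

variable (T : Finset Nat.Primes) {E M : Type} [Field E] [NumberField E] [Field M] [NumberField M]
  [Algebra E M] [IsGalois E M]

/-- `H¹(H, I(M)) = 1`, with control of the support. -/
theorem h3c_h90 (H : Subgroup (M ≃ₐ[E] M)) (u : H → GlI M) (hu : IsMulCocycle₁ u) :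
    ∃ I : GlI M, (∀ h : H, h • I / I = u h) ∧
      ∀ v : HeightOneSpectrum (𝓞 M), (∀ h : H, h3cDiv (u h) v = 0) → h3cDiv I v = 0 := by
  letI : MulAction (M ≃ₐ[E] M) (HeightOneSpectrum (𝓞 M)) := h3cPlaceAction
  have hcoc : ∀ g h : H, h3cDiv (u (g * h)) =
      (h3cDiv (u h)).mapDomain (g • ·) + h3cDiv (u g) := by
    intro g h
    rw [hu g h, h3cDiv_mul, Subgroup.smul_def, h3cDiv_smul]
    rfl
  obtain ⟨D, hD, hD0⟩ := h3c_perm_h1 (fun g : H => h3cDiv (u g)) hcoc
  refine ⟨h3cIdl D, fun h => ?_, fun v hv => ?_⟩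
  · rw [Subgroup.smul_def, smul_h3cIdl, ← h3cIdl_sub, ← h3cIdl_h3cDiv (u h)]
    congr 1
    exact hD h
  · rw [h3cDiv_h3cIdl]
    exact hD0 v hv

theorem glI_h90 (H : Subgroup (M ≃ₐ[E] M)) (u : H → GlI M) (hu : IsMulCocycle₁ u) :
    IsMulCoboundary₁ u := by
  obtain ⟨I, hI, -⟩ := h3c_h90 H u hu
  exact ⟨I, hI⟩

theorem glIdealsOn_h90 (H : Subgroup (M ≃ₐ[E] M)) (u : H → GlI M) (hu : IsMulCocycle₁ u)
    (hT : ∀ h, u h ∈ glIdealsOn T M) :
    ∃ I ∈ glIdealsOn T M, ∀ h : H, h • I / I = u h := by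
  obtain ⟨I, hI, hI0⟩ := h3c_h90 H u hu
  refine ⟨I, fun v hv => ?_, hI⟩
  exact hI0 v fun h => hT h v hv

theorem h3cDiv_one : h3cDiv (1 : GlI M) = 0 := by
  apply h3cIdl_injective
  rw [h3cIdl_h3cDiv, h3cIdl_zero]

open scoped Classical in
/-- the `T`-part of an ideal -/
def h3cTPart : GlI M →* GlI M where
  toFun I := h3cIdl ((h3cDiv I).filter (GlAbove T M))
  map_one' := by rw [h3cDiv_one, Finsupp.filter_zero, h3cIdl_zero]
  map_mul' I J := by rw [h3cDiv_mul, Finsupp.filter_add, h3cIdl_add]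

open scoped Classical in
theorem h3cTPart_apply (I : GlI M) :
    h3cTPart T I = h3cIdl ((h3cDiv I).filter (GlAbove T M)) := rfl

open scoped Classical in
theorem h3c_filter_mapDomain (σ : M ≃ₐ[E] M) (D : S14.Div M) :
    (D.mapDomain (h3cPerm σ)).filter (GlAbove T M) =
      (D.filter (GlAbove T M)).mapDomain (h3cPerm σ) := by
  classical
  ext v
  rw [mapDomain_h3cPerm_apply]
  by_cases hv : GlAbove T M v
  · have hv' : GlAbove T M ((h3cPerm σ).symm v) := by
      rw [← glAbove_h3cPerm_iff T σ, Equiv.apply_symm_apply]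
      exact hv
    rw [Finsupp.filter_apply_pos _ _ hv, Finsupp.filter_apply_pos _ _ hv',
      mapDomain_h3cPerm_apply]
  · have hv' : ¬ GlAbove T M ((h3cPerm σ).symm v) := by
      rw [← glAbove_h3cPerm_iff T σ, Equiv.apply_symm_apply]
      exact hv
    rw [Finsupp.filter_apply_neg _ _ hv, Finsupp.filter_apply_neg _ _ hv']

/-- splitting `I(M) = I_T(M) × I^T(M)` compatible with the Galois action: the `T`-part. -/
theorem glI_exists_split :
    ∃ e : GlI M →* GlI M, (∀ I, e I ∈ glIdealsOn T M) ∧ (∀ I ∈ glIdealsOn T M, e I = I) ∧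
      (∀ (σ : M ≃ₐ[E] M) (I : GlI M), e (σ • I) = σ • e I) ∧
      (∀ I : GlI M, ∀ v : HeightOneSpectrum (𝓞 M), GlAbove T M v →
        FractionalIdeal.count M v ((I / e I : GlI M) : FractionalIdeal (𝓞 M)⁰ M) = 0) := by
  classical
  refine ⟨h3cTPart T, fun I => ?_, fun I hI => ?_, fun σ I => ?_, fun I v hv => ?_⟩
  · rw [h3cTPart_apply, h3cIdl_mem_glIdealsOn_iff]
    intro v hv
    exact Finsupp.filter_apply_neg _ _ hv
  · rw [h3cTPart_apply]
    have h : (h3cDiv I).filter (GlAbove T M) = h3cDiv I := by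
      rw [Finsupp.filter_eq_self_iff]
      intro v hv
      by_contra hcon
      exact hv (hI v hcon)
    rw [h, h3cIdl_h3cDiv]
  · rw [h3cTPart_apply, h3cTPart_apply, h3cDiv_smul, h3c_filter_mapDomain, smul_h3cIdl]
  · have h : I / h3cTPart T I = h3cIdl (h3cDiv I - (h3cDiv I).filter (GlAbove T M)) := by
      rw [h3cIdl_sub, h3cIdl_h3cDiv, h3cTPart_apply]
    rw [h, count_h3cIdl, Finsupp.sub_apply, Finsupp.filter_apply_pos _ _ hv, sub_self]

end C

/-! ## Invariant ideals -/

section C1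

variable (T : Finset Nat.Primes) {E M : Type} [Field E] [NumberField E] [Field M] [NumberField M]
  [Algebra E M]

variable (E M) in
/-- the chosen place of `M` above a place of `E` -/
def h3cAbove (w : HeightOneSpectrum (𝓞 E)) : HeightOneSpectrum (𝓞 M) :=
  ⟨primeAbove E M w, inferInstance, primeAbove_ne_bot E M w⟩

theorem h3c_placeBelow_above (w : HeightOneSpectrum (𝓞 E)) :
    placeBelow E M (h3cAbove E M w) = w := by
  apply HeightOneSpectrum.ext
  exact (Ideal.LiesOver.over (P := primeAbove E M w) (p := w.asIdeal)).symm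

theorem h3c_glAbove_placeBelow_iff (v : HeightOneSpectrum (𝓞 M)) :
    GlAbove T E (placeBelow E M v) ↔ GlAbove T M v := by
  unfold GlAbove
  refine exists_congr fun q => and_congr_right fun _ => ?_
  show algebraMap (𝓞 E) (𝓞 M) (((q : Nat.Primes) : ℕ) : 𝓞 E) ∈ v.asIdeal ↔ _
  rw [map_natCast]

/-- the ramification index (as a count) is one at an unramified place -/
theorem h3c_gkcE_eq_one_of_unram (v : HeightOneSpectrum (𝓞 M))
    (h : Algebra.IsUnramifiedAt (𝓞 E) v.asIdeal) : gkcE E v = 1 := by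
  have hmap : (placeBelow E M v).asIdeal.map (algebraMap (𝓞 E) (𝓞 M)) ≠ ⊥ :=
    gkc_map_ne_bot _ (placeBelow E M v).ne_bot
  have hlo : v.asIdeal.LiesOver (placeBelow E M v).asIdeal := ⟨rfl⟩
  unfold gkcE
  rw [FractionalIdeal.count_coe M v hmap,
    Ideal.count_associates_factors_eq hmap v.isPrime v.ne_bot,
    ← Ideal.IsDedekindDomain.ramificationIdx_eq_normalizedFactors_count
      (placeBelow E M v).asIdeal v.asIdeal hmap,
    Ideal.ramificationIdx_eq_one_of_isUnramifiedAt (R := 𝓞 E) (p := v.asIdeal)]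
  rfl

variable [IsGalois E M]

/-- the Galois group permutes transitively the places above a place of `E`. -/
theorem h3c_exists_perm_eq (v v' : HeightOneSpectrum (𝓞 M))
    (h : placeBelow E M v = placeBelow E M v') : ∃ σ : M ≃ₐ[E] M, h3cPerm σ v = v' := by
  have hlo : v.asIdeal.LiesOver (placeBelow E M v).asIdeal := ⟨rfl⟩
  have hlo' : v'.asIdeal.LiesOver (placeBelow E M v).asIdeal := ⟨by rw [h]; rfl⟩
  obtain ⟨σ, hσ⟩ := Ideal.exists_smul_eq_of_isGaloisGroup (placeBelow E M v).asIdeal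
    v.asIdeal v'.asIdeal (M ≃ₐ[E] M)
  refine ⟨σ, HeightOneSpectrum.ext ?_⟩
  rw [h3cPerm_asIdeal, map_intAut, ← invId_smul_eq_map, hσ]

/-- an invariant divisor is constant on the places above a place of `E`. -/
theorem h3c_invariant_const (D : S14.Div M)
    (hD : ∀ σ : M ≃ₐ[E] M, D.mapDomain (h3cPerm σ) = D) (v v' : HeightOneSpectrum (𝓞 M))
    (h : placeBelow E M v = placeBelow E M v') : D v = D v' := by
  obtain ⟨σ, rfl⟩ := h3c_exists_perm_eq v v' h
  conv_rhs => rw [← hD σ]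
  rw [mapDomain_h3cPerm_apply']

/-- Invariant ideals are extended up to ideals supported above `T`, when `M/E` is unramified
outside `T`. -/
theorem glI_exists_of_invariant (hur : GlUnramOutside T E M) (I : GlI M)
    (hI : ∀ σ : M ≃ₐ[E] M, σ • I = I) :
    ∃ (I₀ : GlI E) (I₁ : GlI M), I₁ ∈ glIdealsOn T M ∧ I = glExtI E M I₀ * I₁ := by
  classical
  have hD : ∀ σ : M ≃ₐ[E] M, (h3cDiv I).mapDomain (h3cPerm σ) = h3cDiv I := fun σ => by
    rw [← h3cDiv_smul, hI]
  set D₁ : S14.Div M := (h3cDiv I).filter (GlAbove T M) with hD₁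
  set D' : S14.Div M := h3cDiv I - D₁ with hD'def
  have hD' : ∀ σ : M ≃ₐ[E] M, D'.mapDomain (h3cPerm σ) = D' := by
    intro σ
    rw [hD'def, Finsupp.mapDomain_sub, hD₁, ← h3c_filter_mapDomain, hD]
  have hD'T : ∀ v : HeightOneSpectrum (𝓞 M), GlAbove T M v → D' v = 0 := by
    intro v hv
    rw [hD'def, Finsupp.sub_apply, hD₁, Finsupp.filter_apply_pos _ _ hv, sub_self]
  let D₀ : S14.Div E := Finsupp.onFinset ((D'.support).image (placeBelow E M))
    (fun w => D' (h3cAbove E M w)) (fun w hw => by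
      refine Finset.mem_image.mpr ⟨h3cAbove E M w, Finsupp.mem_support_iff.mpr hw, ?_⟩
      exact h3c_placeBelow_above w)
  have hD₀ : ∀ v : HeightOneSpectrum (𝓞 M), D₀ (placeBelow E M v) = D' v := by
    intro v
    show D' (h3cAbove E M (placeBelow E M v)) = D' v
    exact h3c_invariant_const D' hD' _ _ (h3c_placeBelow_above _)
  refine ⟨h3cIdl D₀, h3cIdl D₁, ?_, ?_⟩
  · rw [h3cIdl_mem_glIdealsOn_iff]
    intro v hv
    exact Finsupp.filter_apply_neg _ _ hv
  · have hext : glExtI E M (h3cIdl D₀) = h3cIdl D' := by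
      apply Units.ext
      refine divCl_eq_of_count_eq M (Units.ne_zero _) (Units.ne_zero _) fun v => ?_
      rw [count_h3cIdl]
      show FractionalIdeal.count M v ((extFrac E M (h3cIdl D₀) : GlI M) :
        FractionalIdeal (𝓞 M)⁰ M) = D' v
      rw [coe_extFrac, gkc_count_extendedHom _ (Units.ne_zero _) v, count_h3cIdl, hD₀]
      by_cases hv : GlAbove T M v
      · rw [hD'T v hv, mul_zero]
      · have hunr : Algebra.IsUnramifiedAt (𝓞 E) v.asIdeal := by
          refine hur v.asIdeal v.ne_bot fun q hq hmem => hv ⟨q, hq, hmem⟩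
        rw [h3c_gkcE_eq_one_of_unram v hunr, one_mul]
    rw [hext, ← h3cIdl_add, hD'def, sub_add_cancel, h3cIdl_h3cDiv]

end C1

/-! ## Invariant ideles: Galois descent for `M ⊗ A_T` -/

section Coord

variable {ι A V W : Type*} [DecidableEq ι] [AddCommGroup A] [Module ℚ A] [AddCommGroup V]
  [Module ℚ V] [AddCommGroup W] [Module ℚ W]

/-- coordinates (w.r.t. a basis of the right factor) of the image under `f ⊗ id`. -/
theorem h3c_coord_map (b : Module.Basis ι ℚ A) (f : V →ₗ[ℚ] W)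
    (F : V ⊗[ℚ] A →ₗ[ℚ] W ⊗[ℚ] A) (hF : ∀ v a, F (v ⊗ₜ[ℚ] a) = f v ⊗ₜ[ℚ] a) (z : V ⊗[ℚ] A) :
    TensorProduct.equivFinsuppOfBasisRight b (F z) =
      (TensorProduct.equivFinsuppOfBasisRight b z).mapRange f (map_zero f) := by
  induction z using TensorProduct.induction_on with
  | zero => simp
  | tmul v a =>
    rw [hF, TensorProduct.equivFinsuppOfBasisRight_apply_tmul,
      TensorProduct.equivFinsuppOfBasisRight_apply_tmul]
    ext i
    simp
  | add x y hx hy => rw [map_add, map_add, map_add, hx, hy, Finsupp.mapRange_add (map_add f)]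

theorem h3c_coord_injective (b : Module.Basis ι ℚ A) (f : V →ₗ[ℚ] W) (hf : Function.Injective f)
    (F : V ⊗[ℚ] A →ₗ[ℚ] W ⊗[ℚ] A) (hF : ∀ v a, F (v ⊗ₜ[ℚ] a) = f v ⊗ₜ[ℚ] a) :
    Function.Injective F := by
  intro z z' h
  have h1 := congrArg (TensorProduct.equivFinsuppOfBasisRight b) h
  rw [h3c_coord_map b f F hF, h3c_coord_map b f F hF] at h1
  exact (TensorProduct.equivFinsuppOfBasisRight b).injective
    (Finsupp.mapRange_injective f (map_zero f) hf h1)

theorem h3c_coord_exists (b : Module.Basis ι ℚ A) (f : V →ₗ[ℚ] W)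
    (F : V ⊗[ℚ] A →ₗ[ℚ] W ⊗[ℚ] A) (hF : ∀ v a, F (v ⊗ₜ[ℚ] a) = f v ⊗ₜ[ℚ] a) (z : W ⊗[ℚ] A)
    (hz : ∀ i, TensorProduct.equivFinsuppOfBasisRight b z i ∈ Set.range f) :
    ∃ z₀ : V ⊗[ℚ] A, F z₀ = z := by
  classical
  choose g hg using hz
  set c := TensorProduct.equivFinsuppOfBasisRight b z with hc
  have hsupp : ∀ i, i ∉ c.support → f 0 = c i := by
    intro i hi
    rw [map_zero, Finsupp.notMem_support_iff.mp hi]
  let c₀ : ι →₀ V := Finsupp.onFinset c.support (fun i => if i ∈ c.support then g i else 0)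
    (fun i hi => by
      by_contra hcon
      exact hi (if_neg hcon))
  refine ⟨(TensorProduct.equivFinsuppOfBasisRight b).symm c₀, ?_⟩
  apply (TensorProduct.equivFinsuppOfBasisRight b).injective
  rw [h3c_coord_map b f F hF, LinearEquiv.apply_symm_apply]
  ext i
  rw [Finsupp.mapRange_apply]
  show f (if i ∈ c.support then g i else 0) = c i
  by_cases hi : i ∈ c.support
  · rw [if_pos hi, hg]
  · rw [if_neg hi, hsupp i hi]

end Coord

section C2

variable (T : Finset Nat.Primes) {E M : Type} [Field E] [NumberField E] [Field M] [NumberField M]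
  [Algebra E M]

theorem h3c_glExtFS_injective : Function.Injective (glExtFS T E M) := by
  classical
  exact h3c_coord_injective (Module.Free.chooseBasis ℚ (GlAS T))
    (algebraMap E M).toRatAlgHom.toLinearMap (algebraMap E M).injective
    (glExtFS T E M).toLinearMap (fun v a => rfl)

variable [IsGalois E M]

/-- Galois descent for `M ⊗ A_T`. -/
theorem h3c_glFS_exists_of_invariant (z : GlFS T M) (hz : ∀ σ : M ≃ₐ[E] M, glFSAut T σ z = z) :
    ∃ z₀ : GlFS T E, glExtFS T E M z₀ = z := by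
  classical
  refine h3c_coord_exists (Module.Free.chooseBasis ℚ (GlAS T))
    (algebraMap E M).toRatAlgHom.toLinearMap (glExtFS T E M).toLinearMap (fun v a => rfl) z
    fun i => ?_
  show _ ∈ Set.range (algebraMap E M)
  rw [IsGalois.mem_range_algebraMap_iff_fixed]
  intro σ
  have h1 := h3c_coord_map (Module.Free.chooseBasis ℚ (GlAS T))
    ((σ.restrictScalars ℚ : M ≃ₐ[ℚ] M) : M →ₐ[ℚ] M).toLinearMap (glFSAut T σ).toLinearMap
    (fun v a => rfl) z
  have h2 := DFunLike.congr_fun h1 i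
  rw [Finsupp.mapRange_apply] at h2
  have h3 : (glFSAut T σ).toLinearMap z = z := hz σ
  rw [h3] at h2
  exact h2.symm

/-- Invariant `T`-ideles are extended (Galois descent for `M ⊗ A_T`). -/
theorem glJ_exists_of_invariant (x : GlJ T M) (hx : ∀ σ : M ≃ₐ[E] M, σ • x = x) :
    ∃ x₀ : GlJ T E, glExtJ T E M x₀ = x := by
  have h1 : ∀ σ : M ≃ₐ[E] M, glFSAut T σ (x : GlFS T M) = (x : GlFS T M) := fun σ =>
    congrArg Units.val (hx σ)
  have h2 : ∀ σ : M ≃ₐ[E] M, glFSAut T σ ((x⁻¹ : GlJ T M) : GlFS T M) = ((x⁻¹ : GlJ T M) : GlFS T M) :=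
    fun σ => by
      have h := smul_inv' σ x
      rw [hx σ] at h
      exact congrArg Units.val h
  obtain ⟨z₀, hz₀⟩ := h3c_glFS_exists_of_invariant T (x : GlFS T M) h1
  obtain ⟨w₀, hw₀⟩ := h3c_glFS_exists_of_invariant T ((x⁻¹ : GlJ T M) : GlFS T M) h2
  have hmul : z₀ * w₀ = 1 := by
    apply h3c_glExtFS_injective T (E := E) (M := M)
    rw [map_mul, hz₀, hw₀, map_one, Units.mul_inv]
  refine ⟨Units.mkOfMulEqOne z₀ w₀ hmul, Units.ext ?_⟩
  exact hz₀

end C2

end Fermat.Agent.S55
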