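/-
S55 / Global / H3 (CORE-H3 = U1, owner helper12): leaf H3-IDL-C.  SHIM: the statements formerly
listed here are proved verbatim in `Global/H3/IdealC.lean` (helper10).
-/
import Fermat.Agent.S55.Global.H3.IdealBSpec
import Fermat.Agent.S55.Global.H3.IdealC
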