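/-
S55 / Global / H3, leaf H3-DESC `Global/H3/Descent.lean` (helper19): Galois descent for the `T`-idele
class group.  EXACT statements `glExtC_injective`, `glExtC_exists_of_invariant` of section `Desc` of
`Global/H3/ClassSpec.lean` (origin/helper12 91b57d7).  Imports `Global/H3/ClassDefs` only (which brings
the black boxes of `IdealSpec`: `mem_glPrinc_iff`, `glDiagJ_injective`, `glDiagJ_smul`, `glDiagI_smul`,
`glExtJ_glDiagJ`, `glExtI_glDiagI`, `glExtJ_injective`, `glExtI_mem_glIdealsOn_iff`,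
`glJ_exists_of_invariant`, `glI_exists_of_invariant`, `glIdealsOn_h90`) + Mathlib's Hilbert 90.
Helper names are prefixed `h3d`.
-/
import Fermat.Agent.S55.Global.H3.ClassDefs
import Fermat.Agent.S55.Global.H3.IdealCSpec

set_option autoImplicit false
set_option linter.unusedSectionVars false
set_option linter.unusedVariables false

noncomputable section

namespace Fermat.Agent.S55

open scoped TensorProduct NumberField nonZeroDivisors
open NumberField IsDedekindDomain groupCohomology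

section Aux

/-- the "coboundary" homomorphism `x ↦ g • x / x`. -/
def h3dDelta {G X : Type*} [Group G] [CommGroup X] [MulDistribMulAction G X] (g : G) : X →* X where
  toFun x := g • x / x
  map_one' := by simp
  map_mul' x y := by rw [smul_mul', mul_div_mul_comm]

theorem h3dDelta_apply {G X : Type*} [Group G] [CommGroup X] [MulDistribMulAction G X] (g : G)
    (x : X) : h3dDelta g x = g • x / x := rfl

theorem h3dDelta_eq_one_iff {G X : Type*} [Group G] [CommGroup X] [MulDistribMulAction G X]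
    (g : G) (x : X) : h3dDelta g x = 1 ↔ g • x = x := by
  rw [h3dDelta_apply, div_eq_one]

theorem h3dDelta_mul {G X : Type*} [Group G] [CommGroup X] [MulDistribMulAction G X] (g h : G)
    (x : X) : h3dDelta (g * h) x = g • h3dDelta h x * h3dDelta g x := by
  rw [h3dDelta_apply, h3dDelta_apply, h3dDelta_apply, smul_div', mul_smul, div_mul_div_cancel]

variable (T : Finset Nat.Primes)

/-- `c • 1 ≠ 0` in `A_T` for `c ≠ 0`, `T ≠ ∅`. -/
theorem h3d_smul_one_ne_zero (hT : T.Nonempty) {c : ℚ} (hc : c ≠ 0) : c • (1 : GlAS T) ≠ 0 := by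
  obtain ⟨q₀, hq₀⟩ := hT
  intro h
  have h1 := congrArg (GlAS.proj T ⟨q₀, hq₀⟩) h
  rw [map_smul, map_one, map_zero, smul_eq_zero] at h1
  rcases h1 with h1 | h1
  · exact hc h1
  · exact one_ne_zero h1

variable (E M : Type) [Field E] [NumberField E] [Field M] [NumberField M] [Algebra E M]

/-- faithful flatness of `A_T` over `ℚ` in the form needed: `a ⊗ 1 ∈ E ⊗ A_T ⟹ a ∈ E`. -/
theorem h3d_mem_range_of_glExtFS (hT : T.Nonempty) (z : GlFS T E) (a : M)
    (h : glExtFS T E M z = a ⊗ₜ[ℚ] (1 : GlAS T)) : a ∈ Set.range (algebraMap E M) := by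
  by_contra ha
  let W : Submodule ℚ M := LinearMap.range ((algebraMap E M).toRatAlgHom.toLinearMap)
  have haW : a ∉ W := by
    rintro ⟨x, hx⟩
    exact ha ⟨x, hx⟩
  obtain ⟨f, hfa, hWf⟩ := Submodule.exists_le_ker_of_notMem haW
  let Φ : GlFS T M →ₗ[ℚ] ℚ ⊗[ℚ] GlAS T := TensorProduct.map f LinearMap.id
  have h0 : ∀ z : GlFS T E, Φ (glExtFS T E M z) = 0 := by
    intro z
    induction z using TensorProduct.induction_on with
    | zero => simp
    | tmul x b =>
      rw [glExtFS_tmul]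
      change f (algebraMap E M x) ⊗ₜ[ℚ] b = 0
      have : f (algebraMap E M x) = 0 := hWf ⟨x, rfl⟩
      rw [this, TensorProduct.zero_tmul]
    | add z₁ z₂ h₁ h₂ => rw [map_add, map_add, h₁, h₂, add_zero]
  have h1 := h0 z
  rw [h] at h1
  change f a ⊗ₜ[ℚ] (1 : GlAS T) = 0 at h1
  have h2 := congrArg (TensorProduct.lid ℚ (GlAS T)) h1
  rw [TensorProduct.lid_tmul, map_zero] at h2
  exact h3d_smul_one_ne_zero T hT hfa h2

end Aux

section Desc

variable (T : Finset Nat.Primes) (E M : Type) [Field E] [NumberField E] [Field M] [NumberField M]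
  [Algebra E M]

theorem glExtC_injective (hT : T.Nonempty) : Function.Injective (glExtC T E M) := by
  rw [injective_iff_map_eq_one]
  intro y hy
  obtain ⟨x, rfl⟩ := glMk_surjective T y
  rw [glExtC_glMk, glMk_eq_one_iff, mem_glPrinc_iff] at hy
  obtain ⟨a, I, hI, hx⟩ := hy
  have hJ : glExtJ T E M x.1 = glDiagJ T M a := by
    have h1 := congrArg Prod.fst hx
    rw [glExt_fst] at h1
    rw [h1]
    change glDiagJ T M a * 1 = _
    rw [mul_one]
  have hIeq : glExtI E M x.2 = glDiagI M a * I := by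
    have h1 := congrArg Prod.snd hx
    rw [glExt_snd] at h1
    rw [h1]
    rfl
  have ha : (a : M) ∈ Set.range (algebraMap E M) :=
    h3d_mem_range_of_glExtFS T E M hT (x.1 : GlFS T E) a (congrArg Units.val hJ)
  obtain ⟨b, hb⟩ := ha
  have hb0 : b ≠ 0 := by
    rintro rfl
    rw [map_zero] at hb
    exact a.ne_zero hb.symm
  have hba : Units.map (algebraMap E M : E →* M) (Units.mk0 b hb0) = a := Units.ext hb
  rw [glMk_eq_one_iff, mem_glPrinc_iff]
  refine ⟨Units.mk0 b hb0, x.2 / glDiagI E (Units.mk0 b hb0), ?_, ?_⟩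
  · rw [← glExtI_mem_glIdealsOn_iff T E M, map_div, glExtI_glDiagI, hba, hIeq,
      mul_div_cancel_left]
    exact hI
  · apply Prod.ext
    · change x.1 = glDiagJ T E (Units.mk0 b hb0) * 1
      rw [mul_one]
      apply glExtJ_injective T E M
      rw [glExtJ_glDiagJ, hba, hJ]
    · change x.2 = glDiagI E (Units.mk0 b hb0) * (x.2 / glDiagI E (Units.mk0 b hb0))
      rw [mul_div_cancel]

theorem glExtC_exists_of_invariant [IsGalois E M] (hT : T.Nonempty)
    (hur : GlUnramOutside T E M) (x : GlC T M) (hx : ∀ σ : M ≃ₐ[E] M, σ • x = x) :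
    ∃ y : GlC T E, glExtC T E M y = x := by
  obtain ⟨z, rfl⟩ := glMk_surjective T x
  -- the defect of invariance of the lift
  have hprinc : ∀ σ : M ≃ₐ[E] M, ∃ (a : Mˣ) (I : GlI M), I ∈ glIdealsOn T M ∧
      h3dDelta σ z = glDiag T M a * (1, I) := by
    intro σ
    rw [← mem_glPrinc_iff, ← glMk_eq_one_iff, h3dDelta_apply, map_div, glMk_smul, hx σ, div_self']
  choose a I hI hz using hprinc
  have hzJ : ∀ σ, h3dDelta σ z.1 = glDiagJ T M (a σ) := by
    intro σ
    have h1 := congrArg Prod.fst (hz σ)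
    change h3dDelta σ z.1 = glDiagJ T M (a σ) * 1 at h1
    rw [h1, mul_one]
  have hzI : ∀ σ, h3dDelta σ z.2 = glDiagI M (a σ) * I σ := by
    intro σ
    have h1 := congrArg Prod.snd (hz σ)
    exact h1
  -- `a` is a cocycle
  have hcoc : IsMulCocycle₁ a := by
    intro σ τ
    apply glDiagJ_injective T hT
    rw [← hzJ, h3dDelta_mul, hzJ, hzJ, map_mul, glDiagJ_smul]
  obtain ⟨b, hb⟩ := isMulCoboundary₁_of_isMulCocycle₁_of_aut_to_units a hcoc
  -- the `J`-component
  have hJinv : ∀ σ : M ≃ₐ[E] M, σ • (z.1 / glDiagJ T M b) = z.1 / glDiagJ T M b := by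
    intro σ
    rw [← h3dDelta_eq_one_iff, map_div, hzJ, h3dDelta_apply, glDiagJ_smul, ← map_div, hb,
      div_self']
  obtain ⟨x₀, hx₀⟩ := glJ_exists_of_invariant T (z.1 / glDiagJ T M b) hJinv
  -- the ideal component
  have hI' : ∀ σ : M ≃ₐ[E] M, h3dDelta σ (z.2 / glDiagI M b) = I σ := by
    intro σ
    rw [map_div, hzI, h3dDelta_apply, glDiagI_smul, ← map_div, hb, mul_div_cancel_left]
  have hu : IsMulCocycle₁ (fun h : (⊤ : Subgroup (M ≃ₐ[E] M)) => I (h : M ≃ₐ[E] M)) := by
    intro g h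
    change I ((g : M ≃ₐ[E] M) * (h : M ≃ₐ[E] M)) = (g : M ≃ₐ[E] M) • I h * I g
    rw [← hI', ← hI', ← hI', h3dDelta_mul]
  obtain ⟨I₁, hI₁, hI₁'⟩ := glIdealsOn_h90 T (⊤ : Subgroup (M ≃ₐ[E] M)) _ hu (fun h => hI _)
  have hIinv : ∀ σ : M ≃ₐ[E] M, σ • (z.2 / glDiagI M b / I₁) = z.2 / glDiagI M b / I₁ := by
    intro σ
    rw [← h3dDelta_eq_one_iff, map_div, hI', h3dDelta_apply]
    have h1 := hI₁' ⟨σ, Subgroup.mem_top σ⟩
    change σ • I₁ / I₁ = I σ at h1
    rw [h1, div_self']
  obtain ⟨I₀, I₂, hI₂, hI₀⟩ := glI_exists_of_invariant T hur (z.2 / glDiagI M b / I₁) hIinv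
  refine ⟨glMk T E (x₀, I₀), ?_⟩
  rw [glExtC_glMk]
  symm
  change ((z : GlIdele T M) : GlC T M) = ((glExt T E M (x₀, I₀) : GlIdele T M) : GlC T M)
  rw [QuotientGroup.eq_iff_div_mem, mem_glPrinc_iff]
  refine ⟨b, I₂ * I₁, mul_mem hI₂ hI₁, ?_⟩
  apply Prod.ext
  · change z.1 / glExtJ T E M x₀ = glDiagJ T M b * 1
    rw [hx₀, mul_one, div_div_cancel]
  · change z.2 / glExtI E M I₀ = glDiagI M b * (I₂ * I₁)
    rw [div_eq_iff_eq_mul, mul_assoc, mul_assoc, mul_comm I₁, ← mul_assoc I₂, mul_comm I₂, ← hI₀,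
      div_mul_cancel, mul_div_cancel]

end Desc

end Fermat.Agent.S55
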