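/-
S55 / Global / H3, leaf H3-FLD: `S`-field toolkit (statements of `FieldSpec.lean`, sections Tower,
Compositum, Cyclic, verbatim).  Helper names are prefixed `h3fld`.

* towers: multiplicativity of the ramification index;
* compositum: helper15's `globcompField` (inside the algebraic closure), with the generation
  property `globcomp_eq_one`;
* Galois closure: Mathlib's `normalClosure`; an inertia element fixes every conjugate of `F₁`
  (counting argument `|I(Q|K)| = e(Q|K) = e(Q|F) = |I(Q|F)|` when `Q ∩ F` is unramified over `K`);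
* cyclic layer of exact degree `p ^ k`: fixed field of `⟨σ ^ (p ^ k)⟩` in helper14's GU-1 layer.
-/
import Fermat.Agent.S55.Global.Compositum
import Fermat.Agent.S55.Global.CycLayer
import Fermat.Agent.S55.LG.Dense

set_option autoImplicit false
set_option linter.unusedSectionVars false
set_option linter.unusedVariables false

noncomputable section

namespace Fermat.Agent.S55

open scoped NumberField nonZeroDivisors
open NumberField IsDedekindDomain groupCohomology

/-! ## FLD-1 : `GlUnramOutside` in towers -/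

section Tower

variable (S : Finset Nat.Primes) (K E F : Type) [Field K] [NumberField K] [Field E] [NumberField E]
  [Field F] [NumberField F] [Algebra K E] [Algebra E F] [Algebra K F] [IsScalarTower K E F]

theorem h3fld_ramIdx_tower (P : Ideal (𝓞 F)) [P.IsPrime] :
    P.ramificationIdx (𝓞 K) = (P.under (𝓞 E)).ramificationIdx (𝓞 K) * P.ramificationIdx (𝓞 E) :=
  Ideal.ramificationIdx_tower (R := 𝓞 K) (P.under (𝓞 E)) P

theorem h3fld_natCast_mem_under (P : Ideal (𝓞 F)) (n : ℕ) :
    ((n : ℕ) : 𝓞 E) ∈ P.under (𝓞 E) ↔ ((n : ℕ) : 𝓞 F) ∈ P := by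
  rw [Ideal.under_def, Ideal.mem_comap, map_natCast]

theorem h3fld_under_ne_bot (P : Ideal (𝓞 F)) [P.IsPrime] (hP : P ≠ ⊥) : P.under (𝓞 E) ≠ ⊥ :=
  (HeightOneSpectrum.under (𝓞 E) (⟨P, inferInstance, hP⟩ : HeightOneSpectrum (𝓞 F))).ne_bot

theorem gl_unramOutside_top (h : GlUnramOutside S K F) : GlUnramOutside S E F := by
  intro P hP hP0 hPS
  have h1 : Algebra.IsUnramifiedAt (𝓞 K) P := h P hP0 hPS
  have h2 : P.ramificationIdx (𝓞 K) = 1 := Ideal.ramificationIdx_eq_one P (𝓞 K)
  rw [h3fld_ramIdx_tower K E F P] at h2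
  rw [← Ideal.ramificationIdx_eq_one_iff]
  exact Nat.eq_one_of_mul_eq_one_left h2

theorem gl_unramOutside_bot (h : GlUnramOutside S K F) : GlUnramOutside S K E := by
  intro p hp hp0 hpS
  obtain ⟨P, hPprime, hPover⟩ : ∃ P : Ideal (𝓞 F), P.IsPrime ∧ P.under (𝓞 E) = p := by
    obtain ⟨P, -, hP2, hP3⟩ := Ideal.exists_ideal_over_prime_of_isIntegral p (⊥ : Ideal (𝓞 F))
      (by
        rw [Ideal.comap_bot_of_injective _ (RingOfIntegers.algebraMap.injective E F)]
        exact bot_le)
    exact ⟨P, hP2, hP3⟩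
  have hP0 : P ≠ ⊥ := by
    rintro rfl
    apply hp0
    rw [← hPover, Ideal.under_def, Ideal.comap_bot_of_injective _
      (RingOfIntegers.algebraMap.injective E F)]
  have hPS : ∀ q ∈ S, (((q : Nat.Primes) : ℕ) : 𝓞 F) ∉ P := by
    intro q hq hmem
    apply hpS q hq
    rw [← hPover]
    exact (h3fld_natCast_mem_under E F P _).2 hmem
  have h1 : Algebra.IsUnramifiedAt (𝓞 K) P := h P hP0 hPS
  have h2 : P.ramificationIdx (𝓞 K) = 1 := Ideal.ramificationIdx_eq_one P (𝓞 K)
  rw [h3fld_ramIdx_tower K E F P, hPover] at h2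
  rw [← Ideal.ramificationIdx_eq_one_iff]
  exact Nat.eq_one_of_mul_eq_one_right h2

theorem gl_unramOutside_trans (h₁ : GlUnramOutside S K E) (h₂ : GlUnramOutside S E F) :
    GlUnramOutside S K F := by
  intro P hP hP0 hPS
  have h1 : Algebra.IsUnramifiedAt (𝓞 E) P := h₂ P hP0 hPS
  have h2 : P.ramificationIdx (𝓞 E) = 1 := Ideal.ramificationIdx_eq_one P (𝓞 E)
  have h3 : Algebra.IsUnramifiedAt (𝓞 K) (P.under (𝓞 E)) :=
    h₁ (P.under (𝓞 E)) (h3fld_under_ne_bot E F P hP0)
      (fun q hq hmem => hPS q hq ((h3fld_natCast_mem_under E F P _).1 hmem))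
  have h4 : (P.under (𝓞 E)).ramificationIdx (𝓞 K) = 1 :=
    Ideal.ramificationIdx_eq_one (P.under (𝓞 E)) (𝓞 K)
  rw [← Ideal.ramificationIdx_eq_one_iff, h3fld_ramIdx_tower K E F P, h2, h4]

theorem gl_unramOutside_mono {S T : Finset Nat.Primes} (hST : S ⊆ T) (K F : Type) [Field K]
    [NumberField K] [Field F] [NumberField F] [Algebra K F] (h : GlUnramOutside S K F) :
    GlUnramOutside T K F := by
  intro P hP hP0 hPT
  exact h P hP0 (fun q hq => hPT q (hST hq))

end Tower

/-! ## FLD-2 : compositum and Galois closure of `S`-fields -/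

section Compositum

/-- The compositum of two `S`-fields, GENERATED by them: an automorphism which is trivial on both
is trivial. -/
theorem h3_exists_compositum (S : Finset Nat.Primes) (K F₁ F₂ : Type) [Field K] [NumberField K]
    [Field F₁] [NumberField F₁] [Field F₂] [NumberField F₂] [Algebra K F₁] [Algebra K F₂]
    [IsGalois K F₁] [IsGalois K F₂] (h₁ : GlUnramOutside S K F₁) (h₂ : GlUnramOutside S K F₂) :
    ∃ (M : Type) (_ : Field M) (_ : NumberField M) (_ : Algebra K M) (_ : Algebra F₁ M)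
      (_ : Algebra F₂ M) (_ : IsScalarTower K F₁ M) (_ : IsScalarTower K F₂ M) (_ : IsGalois K M),
      GlUnramOutside S K M ∧
      ∀ σ : M ≃ₐ[K] M, AlgEquiv.restrictNormalHom F₁ σ = 1 → AlgEquiv.restrictNormalHom F₂ σ = 1 →
        σ = 1 := by
  have hfd : FiniteDimensional K (globcompField K F₁ F₂) := globcomp_finiteDimensional K F₁ F₂
  have hNF : NumberField (globcompField K F₁ F₂) := NumberField.of_module_finite K _
  have hnormal : Normal K (globcompField K F₁ F₂) := globcomp_normal K F₁ F₂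
  have hGal : IsGalois K (globcompField K F₁ F₂) := ⟨⟩
  let a1 : Algebra F₁ (globcompField K F₁ F₂) := globcompAlgebra₁ K F₁ F₂
  let a2 : Algebra F₂ (globcompField K F₁ F₂) := globcompAlgebra₂ K F₁ F₂
  have t1 : IsScalarTower K F₁ (globcompField K F₁ F₂) := globcomp_isScalarTower₁ K F₁ F₂
  have t2 : IsScalarTower K F₂ (globcompField K F₁ F₂) := globcomp_isScalarTower₂ K F₁ F₂
  have key : ∀ τ : globcompField K F₁ F₂ ≃ₐ[K] globcompField K F₁ F₂,
      AlgEquiv.restrictNormalHom F₁ τ = 1 → AlgEquiv.restrictNormalHom F₂ τ = 1 → τ = 1 := by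
    intro τ hres₁ hres₂
    apply globcomp_eq_one
    · intro x
      have h3 := AlgEquiv.restrictNormal_commutes τ F₁ x
      have h4 : τ.restrictNormal F₁ = 1 := hres₁
      rw [h4] at h3
      exact h3.symm
    · intro x
      have h3 := AlgEquiv.restrictNormal_commutes τ F₂ x
      have h4 : τ.restrictNormal F₂ = 1 := hres₂
      rw [h4] at h3
      exact h3.symm
  refine ⟨globcompField K F₁ F₂, inferInstance, hNF, inferInstance, a1, a2, t1, t2, hGal, ?_, key⟩
  intro 𝔓 h𝔓 h𝔓0 h𝔓S
  apply globku_isUnramifiedAt_of_inertia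
  intro τ hτ
  exact key τ (globcomp_restrict_eq_one S (F := F₁) h₁ 𝔓 h𝔓0 h𝔓S τ hτ)
    (globcomp_restrict_eq_one S (F := F₂) h₂ 𝔓 h𝔓0 h𝔓S τ hτ)

/-- KEY LEMMA: for `M/K` Galois, `K ⊆ F ⊆ M` and a prime `Q` of `M` such that `Q ∩ F` is unramified
over `K`, the inertia group `I(Q | K) ⊆ Gal(M/K)` fixes `F`. -/
theorem h3fld_inertia_fixes (K F M : Type) [Field K] [NumberField K] [Field F] [NumberField F]
    [Field M] [NumberField M] [Algebra K F] [Algebra F M] [Algebra K M] [IsScalarTower K F M]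
    [IsGalois K M] (Q : Ideal (𝓞 M)) [Q.IsPrime]
    (h1 : (Q.under (𝓞 F)).ramificationIdx (𝓞 K) = 1) (σ : M ≃ₐ[K] M)
    (hσ : ∀ y : 𝓞 M, σ • y - y ∈ Q) (x : F) : σ (algebraMap F M x) = algebraMap F M x := by
  have hGal : IsGalois F M := IsGalois.tower_top_of_isGalois K F M
  have htower := h3fld_ramIdx_tower K F M Q
  have hK := Fermat.Agent.S14.auxr_card_inertia (K := K) Q
  have hF := Fermat.Agent.S14.auxr_card_inertia (K := F) Q
  rw [h1, one_mul, ← hK, ← hF] at htower
  let ι : Ideal.inertia (M ≃ₐ[F] M) Q → Ideal.inertia (M ≃ₐ[K] M) Q :=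
    fun τ => ⟨τ.1.restrictScalars K, fun y => τ.2 y⟩
  have hinj : Function.Injective ι := by
    intro a b hab
    apply Subtype.ext
    ext y
    have h2 := congrArg (fun f : Ideal.inertia (M ≃ₐ[K] M) Q => f.1 y) hab
    exact h2
  have hfin : Finite (Ideal.inertia (M ≃ₐ[K] M) Q) := inferInstance
  have hbij : Function.Bijective ι :=
    (Nat.bijective_iff_injective_and_card ι).2 ⟨hinj, htower.symm⟩
  obtain ⟨σ', hσ'⟩ := hbij.2 ⟨σ, hσ⟩
  have h2 : σ = σ'.1.restrictScalars K := (congrArg Subtype.val hσ').symm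
  rw [h2]
  exact σ'.1.commutes x

/-- The same for an arbitrary `K`-embedding `f : F → M` of an `S`-unramified field `F`. -/
theorem h3fld_inertia_fixes_algHom (S : Finset Nat.Primes) (K F M : Type) [Field K] [NumberField K]
    [Field F] [NumberField F] [Field M] [NumberField M] [Algebra K F] [Algebra K M] [IsGalois K M]
    (hur : GlUnramOutside S K F) (f : F →ₐ[K] M) (Q : Ideal (𝓞 M)) [Q.IsPrime] (hQ0 : Q ≠ ⊥)
    (hQS : ∀ q ∈ S, (((q : Nat.Primes) : ℕ) : 𝓞 M) ∉ Q) (σ : M ≃ₐ[K] M)
    (hσ : ∀ y : 𝓞 M, σ • y - y ∈ Q) (x : F) : σ (f x) = f x := by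
  let _ : Algebra F M := f.toRingHom.toAlgebra
  have : IsScalarTower K F M := IsScalarTower.of_algebraMap_eq (fun y => (f.commutes y).symm)
  have hu : Algebra.IsUnramifiedAt (𝓞 K) (Q.under (𝓞 F)) :=
    hur (Q.under (𝓞 F)) (h3fld_under_ne_bot F M Q hQ0)
      (fun q hq hmem => hQS q hq ((h3fld_natCast_mem_under F M Q _).1 hmem))
  have h1 : (Q.under (𝓞 F)).ramificationIdx (𝓞 K) = 1 :=
    Ideal.ramificationIdx_eq_one (Q.under (𝓞 F)) (𝓞 K)
  exact h3fld_inertia_fixes K F M Q h1 σ hσ x

/-- Galois closure over a smaller base: `K ⊆ K₁ ⊆ F₁`, `F₁/K` unramified outside `S` (not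
necessarily normal); there is an `S`-field `M/K` containing `F₁`. -/
theorem h3_exists_closure (S : Finset Nat.Primes) (K K₁ F₁ : Type) [Field K] [NumberField K]
    [Field K₁] [NumberField K₁] [Field F₁] [NumberField F₁] [Algebra K K₁] [Algebra K₁ F₁]
    [Algebra K F₁] [IsScalarTower K K₁ F₁] (h : GlUnramOutside S K F₁) :
    ∃ (M : Type) (_ : Field M) (_ : NumberField M) (_ : Algebra K M) (_ : Algebra K₁ M)
      (_ : Algebra F₁ M) (_ : IsScalarTower K K₁ M) (_ : IsScalarTower K F₁ M)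
      (_ : IsScalarTower K₁ F₁ M) (_ : IsGalois K M), GlUnramOutside S K M := by
  have halg : Algebra.IsAlgebraic K (AlgebraicClosure F₁) :=
    Algebra.IsAlgebraic.trans K F₁ (AlgebraicClosure F₁)
  have hcl : IsAlgClosure K (AlgebraicClosure F₁) := ⟨inferInstance, halg⟩
  have hnΩ : Normal K (AlgebraicClosure F₁) := IsAlgClosure.normal K (AlgebraicClosure F₁)
  have hfd : FiniteDimensional K (IntermediateField.normalClosure K F₁ (AlgebraicClosure F₁)) :=
    inferInstance
  have hNF : NumberField (IntermediateField.normalClosure K F₁ (AlgebraicClosure F₁)) :=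
    NumberField.of_module_finite K _
  have hnormal : Normal K (IntermediateField.normalClosure K F₁ (AlgebraicClosure F₁)) :=
    inferInstance
  have hGal : IsGalois K (IntermediateField.normalClosure K F₁ (AlgebraicClosure F₁)) := ⟨⟩
  let aK₁ : Algebra K₁ (IntermediateField.normalClosure K F₁ (AlgebraicClosure F₁)) :=
    ((algebraMap F₁ (IntermediateField.normalClosure K F₁ (AlgebraicClosure F₁))).comp
      (algebraMap K₁ F₁)).toAlgebra
  have t1 : IsScalarTower K₁ F₁ (IntermediateField.normalClosure K F₁ (AlgebraicClosure F₁)) :=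
    IsScalarTower.of_algebraMap_eq (fun x => rfl)
  have t2 : IsScalarTower K K₁ (IntermediateField.normalClosure K F₁ (AlgebraicClosure F₁)) := by
    refine IsScalarTower.of_algebraMap_eq (fun x => ?_)
    show _ = algebraMap F₁ (IntermediateField.normalClosure K F₁ (AlgebraicClosure F₁))
      (algebraMap K₁ F₁ (algebraMap K K₁ x))
    rw [← IsScalarTower.algebraMap_apply K K₁ F₁, ← IsScalarTower.algebraMap_apply K F₁]
  refine ⟨IntermediateField.normalClosure K F₁ (AlgebraicClosure F₁), inferInstance, hNF,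
    inferInstance, aK₁, inferInstance, t2, inferInstance, t1, hGal, ?_⟩
  intro 𝔓 h𝔓 h𝔓0 h𝔓S
  apply globku_isUnramifiedAt_of_inertia
  intro τ hτ
  -- `τ` fixes every conjugate of `F₁`
  have hfix : ∀ (f : F₁ →ₐ[K] AlgebraicClosure F₁) (x : F₁),
      τ ⟨f x, f.fieldRange_le_normalClosure ⟨x, rfl⟩⟩ =
        ⟨f x, f.fieldRange_le_normalClosure ⟨x, rfl⟩⟩ := by
    intro f x
    exact h3fld_inertia_fixes_algHom S K F₁ _ h
      ((normalClosure.algHomEquiv K F₁ (AlgebraicClosure F₁)).symm f)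
      𝔓 h𝔓0 h𝔓S τ hτ x
  -- hence `τ` is trivial
  have hle : IntermediateField.normalClosure K F₁ (AlgebraicClosure F₁) ≤
      (IntermediateField.fixedField (Subgroup.zpowers τ)).map
        (IntermediateField.normalClosure K F₁ (AlgebraicClosure F₁)).val := by
    rw [normalClosure_le_iff]
    rintro f _ ⟨x, rfl⟩
    rw [IntermediateField.mem_map]
    refine ⟨⟨f x, f.fieldRange_le_normalClosure ⟨x, rfl⟩⟩, ?_, rfl⟩
    rw [IntermediateField.mem_fixedField_iff]
    intro g hg
    obtain ⟨n, rfl⟩ := Subgroup.mem_zpowers_iff.mp hg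
    have hτfix : τ • (⟨f x, f.fieldRange_le_normalClosure ⟨x, rfl⟩⟩ :
        IntermediateField.normalClosure K F₁ (AlgebraicClosure F₁)) =
        ⟨f x, f.fieldRange_le_normalClosure ⟨x, rfl⟩⟩ := hfix f x
    exact (MulAction.mem_stabilizer_iff.mp
      ((MulAction.stabilizer _ _).zpow_mem (MulAction.mem_stabilizer_iff.mpr hτfix) n))
  ext m
  obtain ⟨m', hm', hmm'⟩ := (IntermediateField.mem_map _).mp (hle m.2)
  have h1 : m' = m := Subtype.ext hmm'
  rw [← h1]
  exact congrArg Subtype.val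
    ((IntermediateField.mem_fixedField_iff _ _).mp hm' τ (Subgroup.mem_zpowers τ))

end Compositum

/-! ## FLD-3 : the cyclic cyclotomic layer of exact degree `p ^ k` -/

section Cyclic

/-- In a finite cyclic group of order `p ^ m` generated by `σ`, the subgroup generated by
`σ ^ (p ^ k)` has order `p ^ (m - k)` (`k ≤ m`). -/
theorem h3fld_card_zpowers_pow {G : Type*} [Group G] {p : ℕ} (hp : p.Prime) {m k : ℕ} (hkm : k ≤ m)
    (σ : G) (hσ : orderOf σ = p ^ m) :
    Nat.card (Subgroup.zpowers (σ ^ p ^ k)) = p ^ (m - k) := by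
  rw [Nat.card_zpowers, orderOf_pow' σ (pow_ne_zero k hp.ne_zero), hσ,
    Nat.gcd_eq_right (pow_dvd_pow p hkm), Nat.pow_div hkm hp.pos]

/-- [From helper14's GU-1 `gl_exists_cyclic_layer` (row 294): a cyclic `S`-field of degree `p^m`,
`m ≥ k`; take the fixed field of the subgroup of order `p^(m-k)`; `gl_unramOutside_bot`.] -/
theorem h3_exists_cyclic {p : ℕ} [Fact p.Prime] (hp2 : p ≠ 2) (S : Finset Nat.Primes)
    (hpS : ∃ q ∈ S, ((q : Nat.Primes) : ℕ) = p)
    (K : Type) [Field K] [NumberField K] (hζ : ∃ ζ : K, IsPrimitiveRoot ζ p) (k : ℕ) :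
    ∃ (L : Type) (_ : Field L) (_ : NumberField L) (_ : Algebra K L) (_ : IsGalois K L)
      (σ : L ≃ₐ[K] L),
      GlUnramOutside S K L ∧ Module.finrank K L = p ^ k ∧
      (∀ g : L ≃ₐ[K] L, g ∈ Subgroup.zpowers σ) := by
  have hp : p.Prime := Fact.out
  -- a place of `K` above `p`
  let i : K →+* PadicAlgCl p := (IsAlgClosed.lift : K →ₐ[ℚ] PadicAlgCl p).toRingHom
  obtain ⟨L, hLf, hLn, hLa, hLg, m, σ, hur, hdeg, hcyc, hloc⟩ :=
    gl_exists_cyclic_layer hp2 S hpS K hζ {lgPlace p i} k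
  obtain ⟨j, hj⟩ : ∃ j : L →+* PadicAlgCl p, j.comp (algebraMap K L) = i := by
    let _ : Algebra K (PadicAlgCl p) := i.toAlgebra
    let f : L →ₐ[K] PadicAlgCl p := IsAlgClosed.lift
    exact ⟨f.toRingHom, RingHom.ext fun x => f.commutes x⟩
  -- `k ≤ m`
  have hkm : k ≤ m := by
    have hdvd := hloc p j (by rw [hj]; exact Finset.mem_singleton_self _)
    have hle := lg_finrank_le p (K := K) j
    have hpos : 0 < Module.finrank (lgField p (j.comp (algebraMap K L))) (lgField p j) :=
      Module.finrank_pos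
    have h1 : p ^ k ≤ p ^ m := by
      rw [← hdeg]
      exact le_trans (Nat.le_of_dvd hpos hdvd) hle
    exact (Nat.pow_le_pow_iff_right hp.one_lt).mp h1
  -- the Galois group is cyclic of order `p ^ m`, hence commutative
  have hcard : Nat.card (L ≃ₐ[K] L) = p ^ m := by
    rw [IsGalois.card_aut_eq_finrank, hdeg]
  have hord : orderOf σ = p ^ m := by
    rw [orderOf_eq_card_of_forall_mem_zpowers hcyc, hcard]
  have hcomm : ∀ g h : L ≃ₐ[K] L, g * h = h * g := by
    intro g h
    obtain ⟨a, rfl⟩ := Subgroup.mem_zpowers_iff.mp (hcyc g)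
    obtain ⟨b, rfl⟩ := Subgroup.mem_zpowers_iff.mp (hcyc h)
    rw [← zpow_add, ← zpow_add, add_comm]
  have hnorm : (Subgroup.zpowers (σ ^ p ^ k)).Normal := by
    refine ⟨fun n hn g => ?_⟩
    rw [hcomm g n, mul_inv_cancel_right]
    exact hn
  have hGalE : IsGalois K (IntermediateField.fixedField (Subgroup.zpowers (σ ^ p ^ k))) :=
    IsGalois.of_fixedField_normal_subgroup _
  refine ⟨IntermediateField.fixedField (Subgroup.zpowers (σ ^ p ^ k)), inferInstance, inferInstance,
    inferInstance, hGalE, AlgEquiv.restrictNormalHom _ σ, ?_, ?_, ?_⟩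
  · exact gl_unramOutside_bot S K (IntermediateField.fixedField (Subgroup.zpowers (σ ^ p ^ k))) L hur
  · have h1 := IntermediateField.finrank_fixedField_eq_card (Subgroup.zpowers (σ ^ p ^ k))
    rw [h3fld_card_zpowers_pow hp hkm σ hord] at h1
    have h2 := Module.finrank_mul_finrank K
      (IntermediateField.fixedField (Subgroup.zpowers (σ ^ p ^ k))) L
    rw [h1, hdeg] at h2
    have h3 : p ^ m = p ^ k * p ^ (m - k) := by
      rw [← pow_add, Nat.add_sub_cancel' hkm]
    rw [h3] at h2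
    exact Nat.eq_of_mul_eq_mul_right (pow_pos hp.pos _) h2
  · intro g
    obtain ⟨g', rfl⟩ := AlgEquiv.restrictNormalHom_surjective L g
    obtain ⟨a, rfl⟩ := Subgroup.mem_zpowers_iff.mp (hcyc g')
    rw [map_zpow]
    exact Subgroup.zpow_mem_zpowers _ a

end Cyclic

end Fermat.Agent.S55
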