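/-
S55 / Global / H3, leaf H3-TRANS: transport between `Gal(M/E)` and the subgroup `h3Fix M E` of
`Gal(M/K)`; transport of cocycle statements along an equivariant isomorphism of groups.
(Statements of `FieldSpec.lean`, sections Trans, TransFixed, TransCoh, verbatim.)
Helper names are prefixed `h3tr`.
-/
import Fermat.Agent.S55.Global.H3.ClassDefs

set_option autoImplicit false
set_option linter.unusedSectionVars false
set_option linter.unusedVariables false

noncomputable section

namespace Fermat.Agent.S55

open scoped NumberField nonZeroDivisors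
open NumberField IsDedekindDomain groupCohomology

/-! ## TRANS : `Gal(M/E)` as the subgroup `h3Fix M E` of `Gal(M/K)` -/

section Trans

variable (T : Finset Nat.Primes) {K : Type} (M E : Type) [Field K] [NumberField K] [Field M]
  [NumberField M] [Field E] [NumberField E] [Algebra K M] [Algebra K E] [Algebra E M]
  [IsScalarTower K E M]

theorem h3ResScalars_injective : Function.Injective (h3ResScalars (K := K) M E) := by
  intro σ τ h
  ext x
  have h1 := congrArg (fun f : M ≃ₐ[K] M => f x) h
  exact h1

theorem h3ResScalars_range : (h3ResScalars (K := K) M E).range = h3Fix (K := K) M E := by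
  ext σ
  rw [mem_h3Fix]
  constructor
  · rintro ⟨τ, rfl⟩ x
    rw [h3ResScalars_apply]
    exact τ.commutes x
  · intro h
    refine ⟨{ (σ : M ≃+* M) with commutes' := fun x => h x }, ?_⟩
    ext x
    rfl

theorem h3Fix_eq_ker [Normal K E] :
    h3Fix (K := K) M E =
      (AlgEquiv.restrictNormalHom E : (M ≃ₐ[K] M) →* (E ≃ₐ[K] E)).ker := by
  ext σ
  rw [mem_h3Fix, MonoidHom.mem_ker]
  constructor
  · intro h
    ext x
    apply (algebraMap E M).injective
    have h1 : algebraMap E M ((AlgEquiv.restrictNormalHom E σ) x) = σ (algebraMap E M x) :=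
      AlgEquiv.restrictNormal_commutes σ E x
    rw [h1, h x]
    rfl
  · intro h x
    have h1 : algebraMap E M ((AlgEquiv.restrictNormalHom E σ) x) = σ (algebraMap E M x) :=
      AlgEquiv.restrictNormal_commutes σ E x
    rw [← h1, h]
    rfl

theorem h3ResScalars_smul_units (σ : M ≃ₐ[E] M) (x : Mˣ) :
    h3ResScalars (K := K) M E σ • x = σ • x := by
  apply Units.ext
  rfl

theorem h3tr_glFSAut (σ : M ≃ₐ[E] M) :
    glFSAut T (h3ResScalars (K := K) M E σ) = glFSAut T σ := by
  apply Algebra.TensorProduct.ext'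
  intro x a
  rfl

theorem h3ResScalars_smul_glJ (σ : M ≃ₐ[E] M) (x : GlJ T M) :
    h3ResScalars (K := K) M E σ • x = σ • x := by
  rw [glJ_smul_def, glJ_smul_def, h3tr_glFSAut]

theorem h3tr_intAut (σ : M ≃ₐ[E] M) :
    Fermat.Agent.S14.intAut (h3ResScalars (K := K) M E σ) = Fermat.Agent.S14.intAut σ := by
  ext x
  show algebraMap (𝓞 M) M _ = algebraMap (𝓞 M) M _
  rw [Fermat.Agent.S14.algebraMap_intAut, Fermat.Agent.S14.algebraMap_intAut]
  rfl

theorem h3ResScalars_smul_glI (σ : M ≃ₐ[E] M) (x : GlI M) :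
    h3ResScalars (K := K) M E σ • x = σ • x := by
  rw [glI_smul_def, glI_smul_def]
  apply Units.ext
  rw [Fermat.Agent.S14.coe_fracAut, Fermat.Agent.S14.coe_fracAut, h3tr_intAut]

theorem h3ResScalars_smul_glIdele (σ : M ≃ₐ[E] M) (x : GlIdele T M) :
    h3ResScalars (K := K) M E σ • x = σ • x := by
  apply Prod.ext
  · exact h3ResScalars_smul_glJ T M E σ x.1
  · exact h3ResScalars_smul_glI M E σ x.2

theorem h3ResScalars_smul_glC (σ : M ≃ₐ[E] M) (x : GlC T M) :
    h3ResScalars (K := K) M E σ • x = σ • x := by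
  obtain ⟨y, rfl⟩ := glMk_surjective T x
  rw [← glMk_smul, ← glMk_smul, h3ResScalars_smul_glIdele]

/-- the isomorphism `Gal(M/E) ≃ h3Fix M E`. -/
theorem h3_exists_fixEquiv :
    ∃ e : (M ≃ₐ[E] M) ≃* h3Fix (K := K) M E,
      ∀ σ : M ≃ₐ[E] M, ((e σ : h3Fix (K := K) M E) : M ≃ₐ[K] M) = h3ResScalars (K := K) M E σ := by
  refine ⟨(MonoidHom.ofInjective (h3ResScalars_injective (K := K) M E)).trans
    (MulEquiv.subgroupCongr (h3ResScalars_range (K := K) M E)), ?_⟩
  intro σ
  rfl

end Trans

section TransFixed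

variable {K M : Type} [Field K] [NumberField K] [Field M] [NumberField M] [Algebra K M]
  [IsGalois K M]

/-- Every subgroup of `Gal(M/K)` is the `h3Fix` of its fixed field. -/
theorem h3Fix_fixedField (H : Subgroup (M ≃ₐ[K] M)) :
    h3Fix (K := K) M (IntermediateField.fixedField H) = H := by
  have h1 : h3Fix (K := K) M (IntermediateField.fixedField H) =
      (IntermediateField.fixedField H).fixingSubgroup := by
    ext σ
    rw [mem_h3Fix, IntermediateField.mem_fixingSubgroup_iff]
    constructor
    · intro h x hx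
      exact h ⟨x, hx⟩
    · intro h x
      exact h x x.2
  rw [h1, IntermediateField.fixingSubgroup_fixedField]

end TransFixed

/-! ## transport of cocycle statements along an equivariant isomorphism of groups -/

section TransCoh

variable {H H' X : Type} [Group H] [Group H'] [CommGroup X] [MulDistribMulAction H X]
  [MulDistribMulAction H' X]

theorem h3_transport_h90 (e : H ≃* H') (he : ∀ (h : H) (x : X), e h • x = h • x)
    (h90 : ∀ u : H' → X, IsMulCocycle₁ u → IsMulCoboundary₁ u) :
    ∀ u : H → X, IsMulCocycle₁ u → IsMulCoboundary₁ u := by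
  intro u hu
  have hu' : IsMulCocycle₁ (fun h' : H' => u (e.symm h')) := by
    intro g h
    show u (e.symm (g * h)) = g • u (e.symm h) * u (e.symm g)
    rw [map_mul, hu (e.symm g) (e.symm h), ← he (e.symm g), MulEquiv.apply_symm_apply]
  obtain ⟨x, hx⟩ := h90 _ hu'
  refine ⟨x, fun g => ?_⟩
  have h1 := hx (e g)
  rw [he] at h1
  rw [h1]
  show u (e.symm (e g)) = u g
  rw [MulEquiv.symm_apply_apply]

theorem h3_transport_cob₂ (e : H ≃* H') (he : ∀ (h : H) (x : X), e h • x = h • x)
    (c : H' × H' → X) (hc : IsMulCoboundary₂ c) :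
    IsMulCoboundary₂ (fun p : H × H => c (e p.1, e p.2)) := by
  obtain ⟨x, hx⟩ := hc
  refine ⟨fun h => x (e h), fun g h => ?_⟩
  show g • x (e h) / x (e (g * h)) * x (e g) = c (e g, e h)
  rw [← hx (e g) (e h), he, map_mul]

end TransCoh

end Fermat.Agent.S55
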