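import Fermat.Agent.S55.Global.H3.ClassNormSpec
import Fermat.Agent.S55.Global.H3.DescSpec
import Fermat.Agent.S55.Global.H3.TransSpec

/-!
# S55 / Global / H3, leaf H3-IDX: the pigeonhole hypothesis of `cohord_relIndex_le_card` for `C_T(F)`

`h3_idx`: `H' ⊴ H ≤ Gal(F/K)` of index `p`, `h₀ ∈ H ∖ H'`; among `p + 1` `H`-invariant classes of
`C_T(F)` two differ by `∏_{m<p} h₀^m x` with `x` an `H'`-invariant class.

Route: `Ẽ = F^H` (a number field), `G_E = Gal(F/Ẽ) ≅ H` through `ρ = h3ResScalars`;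
`N = ρ⁻¹(H') ⊴ G_E` of index `p`, `E'' = F^N` Galois of degree `p` over `Ẽ`; the `y i` descend to
`C_T(Ẽ)` (`glExtC_exists_of_invariant`), `h3_cf2` for `E''/Ẽ`, and extension back to `F`
(`glExtC_smul` over the base `Ẽ`).
-/

set_option autoImplicit false
set_option linter.unusedSectionVars false
set_option linter.style.haveILetI false

noncomputable section

namespace Fermat.Agent.S55

open scoped NumberField nonZeroDivisors
open NumberField IsDedekindDomain groupCohomology

/-- transitivity of the extension of classes -/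
theorem h3ix_glExtC_glExtC (T : Finset Nat.Primes) (F E M : Type) [Field F] [NumberField F]
    [Field E] [NumberField E] [Field M] [NumberField M] [Algebra F E] [Algebra E M] [Algebra F M]
    [IsScalarTower F E M] (z : GlC T F) :
    glExtC T E M (glExtC T F E z) = glExtC T F M z := by
  obtain ⟨x, rfl⟩ := glMk_surjective T z
  rw [glExtC_glMk, glExtC_glMk, glExtC_glMk, glExt_glExt]

/-- in a group of prime order `p` a product over the group is a product over the powers of any
nontrivial element -/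
theorem h3ix_prod_eq_prod_range {Γ X : Type*} [Group Γ] [Fintype Γ] [CommMonoid X] {p : ℕ}
    [Fact p.Prime] (hcard : Nat.card Γ = p) (τ₀ : Γ) (hτ₀ : τ₀ ≠ 1) (f : Γ → X) :
    ∏ τ : Γ, f τ = ∏ m ∈ Finset.range p, f (τ₀ ^ m) := by
  classical
  have hp : p.Prime := Fact.out
  have hpow : τ₀ ^ p = 1 := by
    rw [← hcard]
    exact pow_card_eq_one'
  have hord : orderOf τ₀ = p := orderOf_eq_prime hpow hτ₀
  have hinj : Set.InjOn (fun m : ℕ => τ₀ ^ m) (Finset.range p : Set ℕ) := by
    intro a ha b hb hab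
    rw [Finset.coe_range, Set.mem_Iio] at ha hb
    exact pow_injOn_Iio_orderOf (by rwa [Set.mem_Iio, hord]) (by rwa [Set.mem_Iio, hord]) hab
  have himg : (Finset.range p).image (fun m : ℕ => τ₀ ^ m) = Finset.univ := by
    apply Finset.eq_univ_of_card
    rw [Finset.card_image_of_injOn hinj, Finset.card_range, ← Nat.card_eq_fintype_card, hcard]
  rw [← himg, Finset.prod_image hinj]

section IDX

variable {p : ℕ} [Fact p.Prime] (T : Finset Nat.Primes) {K F : Type} [Field K] [NumberField K]
  [Field F] [NumberField F] [Algebra K F] [IsGalois K F]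

theorem h3_idx (hT : T.Nonempty) (hur : GlUnramOutside T K F)
    (H H' : Subgroup (F ≃ₐ[K] F)) (hle : H' ≤ H) (hn : (H'.subgroupOf H).Normal)
    (hidx : H'.relIndex H = p) (h₀ : F ≃ₐ[K] F) (h₀H : h₀ ∈ H) (h₀H' : h₀ ∉ H')
    (y : Fin (p + 1) → GlC T F) (hy : ∀ i, ∀ h ∈ H, h • y i = y i) :
    ∃ i k : Fin (p + 1), i ≠ k ∧ ∃ x : GlC T F, (∀ h ∈ H', h • x = x) ∧
      y i = y k * ∏ m ∈ Finset.range p, h₀ ^ m • x := by
  classical
  have hp : p.Prime := Fact.out
  -- the base field `Ẽ = F^H`
  set E : IntermediateField K F := IntermediateField.fixedField H with hE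
  -- `ρ : Gal(F/Ẽ) → Gal(F/K)`, injective with range `H`
  set ρ : (F ≃ₐ[E] F) →* (F ≃ₐ[K] F) := h3ResScalars (K := K) F E with hρ
  have hρinj : Function.Injective ρ := h3ResScalars_injective (K := K) F E
  have hρrange : ρ.range = H := by
    rw [hρ, h3ResScalars_range, hE, h3Fix_fixedField]
  have hρmem : ∀ σ : F ≃ₐ[E] F, ρ σ ∈ H := fun σ => hρrange ▸ ⟨σ, rfl⟩
  have hρsmul : ∀ (σ : F ≃ₐ[E] F) (x : GlC T F), ρ σ • x = σ • x :=
    fun σ x => h3ResScalars_smul_glC T F E σ x
  -- the normal subgroup `N` of index `p`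
  set N : Subgroup (F ≃ₐ[E] F) := H'.comap ρ with hN
  have hNnormal : N.Normal := by
    refine ⟨fun n hn' g => ?_⟩
    rw [hN, Subgroup.mem_comap] at hn' ⊢
    rw [map_mul, map_mul, map_inv]
    have h1 := hn.conj_mem ⟨ρ n, hρmem n⟩ (by rw [Subgroup.mem_subgroupOf]; exact hn')
      ⟨ρ g, hρmem g⟩
    rw [Subgroup.mem_subgroupOf] at h1
    exact h1
  have hNindex : N.index = p := by
    rw [hN, Subgroup.index_comap, hρrange, hidx]
  -- the field `E'' = F^N`, Galois of degree `p` over `Ẽ`
  set E'' : IntermediateField E F := IntermediateField.fixedField N with hE''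
  haveI : IsGalois E E'' := IsGalois.of_fixedField_normal_subgroup N
  have hfix : E''.fixingSubgroup = N := IntermediateField.fixingSubgroup_fixedField N
  have hdeg : Module.finrank E E'' = p := by
    rw [IntermediateField.finrank_eq_fixingSubgroup_index, hfix, hNindex]
  have hker : (AlgEquiv.restrictNormalHom E'' : (F ≃ₐ[E] F) →* (E'' ≃ₐ[E] E'')).ker = N := by
    rw [IntermediateField.restrictNormalHom_ker, hfix]
  -- descent of the `y i`
  have hurE : GlUnramOutside T E F := gl_unramOutside_top T K E F hur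
  have hyE : ∀ i, ∀ σ : F ≃ₐ[E] F, σ • y i = y i := fun i σ => by
    rw [← hρsmul]
    exact hy i _ (hρmem σ)
  choose ybar hybar using fun i => glExtC_exists_of_invariant T E F hT hurE (y i) (hyE i)
  obtain ⟨i, k, hik, x', hx'⟩ := h3_cf2 T (E := E) (E' := E'') hdeg ybar
  refine ⟨i, k, hik, glExtC T E'' F x', ?_, ?_⟩
  · -- `H'`-invariance
    intro h hh
    obtain ⟨σ, rfl⟩ : ∃ σ, ρ σ = h := by
      have : h ∈ ρ.range := hρrange ▸ hle hh
      exact this
    have hσN : σ ∈ N := hh
    have h1 : AlgEquiv.restrictNormalHom E'' σ = 1 := by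
      rw [← hker] at hσN
      exact hσN
    rw [hρsmul, ← glExtC_smul T E'' F σ x', h1, one_smul]
  · -- the norm relation
    obtain ⟨σ₀, rfl⟩ : ∃ σ, ρ σ = h₀ := by
      have : h₀ ∈ ρ.range := hρrange ▸ h₀H
      exact this
    have hσ₀N : σ₀ ∉ N := h₀H'
    have hτ₀ : AlgEquiv.restrictNormalHom E'' σ₀ ≠ 1 := by
      intro h1
      apply hσ₀N
      rw [← hker]
      exact h1
    have hcard : Nat.card (E'' ≃ₐ[E] E'') = p := by
      rw [IsGalois.card_aut_eq_finrank, hdeg]
    have h1 := congrArg (glExtC T E'' F) hx'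
    rw [h3ix_glExtC_glExtC, map_div, hybar, hybar, map_prod] at h1
    rw [h3ix_prod_eq_prod_range hcard _ hτ₀] at h1
    rw [div_eq_iff_eq_mul'] at h1
    rw [h1]
    congr 1
    refine Finset.prod_congr rfl fun m _ => ?_
    rw [← map_pow, ← map_pow, glExtC_smul, hρsmul]

end IDX

end Fermat.Agent.S55
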