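/-
S55 / Global / H3, leaf H3-IDL section D (`Global/H3/IdealNorm.lean`): norms of ideals.
`glExtI_normDiv` is helper10's side lemma `gd_extFrac_normDiv_smul`; `glExtI_exists_norm` follows
by choosing one prime above each prime in the support.
-/
import Fermat.Agent.S55.Global.H3.Defs
import Fermat.Agent.S55.Global.Second.NormExt
import Fermat.Agent.S55.Global.Second.IdeleI
import Fermat.Agent.S55.GFI.Defs
import Fermat.Agent.S14.Artin

set_option autoImplicit false
set_option linter.unusedSectionVars false
set_option linter.unusedVariables false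

noncomputable section

namespace Fermat.Agent.S55

open scoped NumberField nonZeroDivisors
open NumberField IsDedekindDomain groupCohomology Fermat.Agent.S14

section D

variable (T : Finset Nat.Primes) {E M : Type} [Field E] [NumberField E] [Field M] [NumberField M]
  [Algebra E M] [IsGalois E M]

/-- `ext (N 𝔈) = ∏_σ σ 𝔈` (helper10's side lemma, in `GlI` language). -/
theorem glExtI_normDiv (D : S14.Div M) :
    glExtI E M (Additive.toMul (S14.divUnit E (S14.normDiv E M D))) =
      ∏ σ : M ≃ₐ[E] M, σ • (Additive.toMul (S14.divUnit M D) : GlI M) :=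
  gd_extFrac_normDiv_smul D

/-- An ideal of `E` prime to `T` whose order at every place `v` is divisible by the residue degree
of `M/E` at `v` is a norm, `M/E` unramified outside `T`: its extension is `∏_σ σ 𝔄`. -/
theorem glExtI_exists_norm (hur : GlUnramOutside T E M) (I : GlI E)
    (hI : ∀ v : HeightOneSpectrum (𝓞 E), GlAbove T E v →
      FractionalIdeal.count E v (I : FractionalIdeal (𝓞 E)⁰ E) = 0)
    (hdiv : ∀ (v : HeightOneSpectrum (𝓞 E)) (w : HeightOneSpectrum (𝓞 M)),
      w.asIdeal.LiesOver v.asIdeal →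
      ((w.asIdeal.inertiaDeg (𝓞 E) : ℕ) : ℤ) ∣
        FractionalIdeal.count E v (I : FractionalIdeal (𝓞 E)⁰ E)) :
    ∃ A : GlI M, glExtI E M I = ∏ σ : M ≃ₐ[E] M, σ • A := by
  classical
  obtain ⟨D, hD⟩ := gdt_exists_divUnit_eq E I
  have hDv : ∀ v, FractionalIdeal.count E v (I : FractionalIdeal (𝓞 E)⁰ E) = D v := by
    intro v
    rw [hD]
    exact count_divIdeal E v D
  choose w hw using fun v : HeightOneSpectrum (𝓞 E) => gfi_exists_under_eq (K := E) (L := M) v
  have hbelow : ∀ v, placeBelow E M (w v) = v := fun v =>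
    (HeightOneSpectrum.ext rfl : placeBelow E M (w v) = (w v).under (𝓞 E)).trans (hw v)
  have hlo : ∀ v, (w v).asIdeal.LiesOver v.asIdeal := fun v =>
    ⟨(congrArg HeightOneSpectrum.asIdeal (hbelow v)).symm⟩
  set 𝔈 : S14.Div M := ∑ v ∈ D.support,
    Finsupp.single (w v) (D v / (((w v).asIdeal.inertiaDeg (𝓞 E) : ℕ) : ℤ)) with h𝔈
  have hN : normDiv E M 𝔈 = D := by
    rw [h𝔈, map_sum]
    have h1 : ∀ v ∈ D.support, normDiv E M (Finsupp.single (w v)
        (D v / (((w v).asIdeal.inertiaDeg (𝓞 E) : ℕ) : ℤ))) = Finsupp.single v (D v) := by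
      intro v _
      rw [normDiv_single, hbelow v, Int.mul_ediv_cancel']
      rw [← hDv v]
      exact hdiv v (w v) (hlo v)
    rw [Finset.sum_congr rfl h1]
    exact Finsupp.sum_single D
  refine ⟨Additive.toMul (divUnit M 𝔈), ?_⟩
  have hI' : I = Additive.toMul (divUnit E (normDiv E M 𝔈)) := by
    rw [hN]
    exact hD
  rw [hI']
  exact glExtI_normDiv 𝔈

end D

end Fermat.Agent.S55
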