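/-
S55 / Global / H3, leaf H3-CF2 (`Global/H3/ClassNorm.lean`): the norm index in degree `p`, field form.
From helper10's `gd_idele_second_inequality` by the pigeonhole principle.
-/
import Fermat.Agent.S55.Global.H3.ClassDefs
import Fermat.Agent.S55.Global.H3.IdealDSpec
import Fermat.Agent.S55.Global.Second.IdeleSpec

set_option autoImplicit false
set_option linter.unusedSectionVars false
set_option linter.unusedVariables false

noncomputable section

namespace Fermat.Agent.S55

open scoped NumberField nonZeroDivisors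
open NumberField IsDedekindDomain groupCohomology Fermat.Agent.S14

section CF2

variable {p : ℕ} [Fact p.Prime] (T : Finset Nat.Primes) {E E' : Type} [Field E] [NumberField E]
  [Field E'] [NumberField E'] [Algebra E E'] [IsGalois E E']

/-- commutative group bookkeeping for `h3_cf2`. -/
theorem h3cf2_comm {G : Type*} [CommGroup G] (c₀ A B Ga Gb πa πb : G) (kb m p : ℕ) :
    (c₀ ^ (kb + m * p) * A ^ p * Ga * πa) / (c₀ ^ kb * B ^ p * Gb * πb) =
      (c₀ ^ m * (A / B)) ^ p * (Ga / Gb) * (πa / πb) := by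
  rw [pow_add, pow_mul, mul_div_mul_comm, mul_div_mul_comm, mul_div_mul_comm,
    mul_div_cancel_left, mul_pow, div_pow]

/-- the norm of `x` under extension: `∏_τ τ • (ext z · (1, 𝔇)) = (ext z)^p · (1, ∏_τ τ • 𝔇)`. -/
theorem h3cf2_prod (hdeg : Module.finrank E E' = p) (z : GlIdele T E) (𝔇 : GlI E') :
    ∏ τ : E' ≃ₐ[E] E', τ • (glExt T E E' z * ((1 : GlJ T E'), 𝔇)) =
      glExt T E E' z ^ p * ((1 : GlJ T E'), ∏ τ : E' ≃ₐ[E] E', τ • 𝔇) := by
  have hcard : Fintype.card (E' ≃ₐ[E] E') = p := by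
    rw [← Nat.card_eq_fintype_card, IsGalois.card_aut_eq_finrank, hdeg]
  have h1 : ∀ τ : E' ≃ₐ[E] E', τ • (glExt T E E' z * ((1 : GlJ T E'), 𝔇)) =
      glExt T E E' z * ((1 : GlJ T E'), τ • 𝔇) := by
    intro τ
    rw [smul_mul', glExt_smul_eq, Prod.smul_mk, smul_one]
  simp_rw [h1]
  rw [Finset.prod_mul_distrib, Finset.prod_const, Finset.card_univ, hcard]
  congr 1
  apply Prod.ext
  · rw [Prod.fst_prod]
    simp
  · rw [Prod.snd_prod]

theorem h3_cf2 (hdeg : Module.finrank E E' = p) (y : Fin (p + 1) → GlC T E) :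
    ∃ i k : Fin (p + 1), i ≠ k ∧ ∃ x : GlC T E',
      glExtC T E E' (y i / y k) = ∏ τ : E' ≃ₐ[E] E', τ • x := by
  classical
  obtain ⟨c₀, hc₀⟩ := gd_idele_second_inequality (p := p) T (K := E) (F := E') hdeg
  have hlift : ∀ i, ∃ c : GlIdele T E, glMk T E c = y i := fun i => glMk_surjective T (y i)
  choose c hc using hlift
  choose k u D π hπ hD hck using fun i => hc₀ (c i)
  have hp : p.Prime := Fact.out
  haveI : NeZero p := ⟨hp.ne_zero⟩
  obtain ⟨a, b, hab, hkab⟩ : ∃ a b : Fin (p + 1), a ≠ b ∧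
      ((k a : ℕ) : ZMod p) = ((k b : ℕ) : ZMod p) := by
    apply Fintype.exists_ne_map_eq_of_card_lt (fun i : Fin (p + 1) => ((k i : ℕ) : ZMod p))
    rw [ZMod.card, Fintype.card_fin]
    exact Nat.lt_succ_self p
  have key : ∀ a b : Fin (p + 1), k b ≤ k a → ((k a : ℕ) : ZMod p) = ((k b : ℕ) : ZMod p) →
      ∃ x : GlC T E', glExtC T E E' (y a / y b) = ∏ τ : E' ≃ₐ[E] E', τ • x := by
    intro a b hle hmod
    obtain ⟨m, hm⟩ : ∃ m, k a = k b + m * p := by
      have hdvd : p ∣ k a - k b := by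
        rw [← ZMod.natCast_eq_zero_iff, Nat.cast_sub hle, hmod, sub_self]
      obtain ⟨m, hm⟩ := hdvd
      exact ⟨m, by rw [mul_comm] at hm; omega⟩
    set z : GlIdele T E := c₀ ^ m * ((u a, (1 : GlI E)) / (u b, (1 : GlI E))) with hz
    set 𝔇 : GlI E' := Additive.toMul (divUnit E' (D a - D b)) with h𝔇
    set Ga : GlIdele T E := ((1 : GlJ T E), Additive.toMul (divUnit E (normDiv E E' (D a))))
      with hGa
    set Gb : GlIdele T E := ((1 : GlJ T E), Additive.toMul (divUnit E (normDiv E E' (D b))))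
      with hGb
    refine ⟨glMk T E' (glExt T E E' z * ((1 : GlJ T E'), 𝔇)), ?_⟩
    have hpowa : ((u a ^ p, (1 : GlI E)) : GlIdele T E) = (u a, (1 : GlI E)) ^ p := by
      rw [Prod.pow_mk, one_pow]
    have hpowb : ((u b ^ p, (1 : GlI E)) : GlIdele T E) = (u b, (1 : GlI E)) ^ p := by
      rw [Prod.pow_mk, one_pow]
    have h1 : c a / c b = z ^ p * (Ga / Gb) * (π a / π b) := by
      rw [hck a, hck b, hm, hpowa, hpowb, hz]
      exact h3cf2_comm c₀ _ _ Ga Gb (π a) (π b) (k b) m p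
    have hG : Ga / Gb = ((1 : GlJ T E),
        Additive.toMul (divUnit E (normDiv E E' (D a - D b)))) := by
      rw [hGa, hGb, Prod.mk_div_mk, div_one, map_sub, map_sub, toMul_sub]
    have hπ' : glMk T E' (glExt T E E' (π a / π b)) = 1 := by
      rw [glMk_eq_one_iff]
      exact glExt_mem_glPrinc T E E' _ (div_mem (hπ a) (hπ b))
    have hExtG : glExt T E E' (Ga / Gb) =
        ((1 : GlJ T E'), ∏ τ : E' ≃ₐ[E] E', τ • 𝔇) := by
      rw [hG]
      apply Prod.ext
      · rw [glExt_fst]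
        exact map_one _
      · rw [glExt_snd]
        exact glExtI_normDiv (E := E) (M := E') (D a - D b)
    have hy : y a / y b = glMk T E (c a / c b) := by
      rw [← hc a, ← hc b]
      exact (map_div (glMk T E) (c a) (c b)).symm
    have hmk : glMk T E' (glExt T E E' (c a / c b)) =
        glMk T E' (glExt T E E' z ^ p * ((1 : GlJ T E'), ∏ τ : E' ≃ₐ[E] E', τ • 𝔇)) := by
      rw [h1, map_mul (glExt T E E'), map_mul (glExt T E E'), map_pow, hExtG,
        map_mul (glMk T E'), hπ']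
      exact mul_one (M := GlC T E') _
    rw [hy, glExtC_glMk, hmk]
    have hsm : ∀ τ : E' ≃ₐ[E] E', τ • glMk T E' (glExt T E E' z * ((1 : GlJ T E'), 𝔇)) =
        glMk T E' (τ • (glExt T E E' z * ((1 : GlJ T E'), 𝔇))) := fun τ => (glMk_smul T τ _).symm
    simp_rw [hsm]
    rw [← map_prod, h3cf2_prod T hdeg]
  rcases le_total (k b) (k a) with h | h
  · exact ⟨a, b, hab, key a b h hkab⟩
  · exact ⟨b, a, hab.symm, key b a h hkab.symm⟩

end CF2

end Fermat.Agent.S55
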