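import Fermat.Agent.S55.Global.H3.Defs
import Fermat.Agent.S55.LG.TensorSpec
import Fermat.Agent.S55.CohomInfRes

/-!
# S55 / Global / H3, leaf H3-SL (first part): the product structure of `J_T(F)`

Proves VERBATIM the statements of `Global/H3/SemiLocalSpec.lean`, sections `SL0`, `Ext` and the first
four statements of section `Galois`:
`h3Pr_bijective`, `h3Pr_eq_of_lgPlace_eq`, `h3Pr_ext`, `h3_exists_idele_at`, `h3Pr_glExtJ`,
`h3Pr_smul`, `h3Loc_isMulCocycle₂`, `h3Loc_isMulCoboundary₂`.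

Route: `F ⊗_ℚ A_T = ∏_{q ∈ T} F ⊗_ℚ ℚ_q` (Mathlib `Algebra.TensorProduct.piRight`) and
`F ⊗_ℚ ℚ_q = ∏_{v ∣ q} F_v` (helper17 `lg_exists_tensorEquiv`).
-/

set_option autoImplicit false
set_option linter.unusedSectionVars false
set_option linter.unusedVariables false

noncomputable section

namespace Fermat.Agent.S55

open scoped NumberField nonZeroDivisors TensorProduct
open NumberField IsDedekindDomain groupCohomology

/-! ## abstract: units of a ring which is a double product -/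

section Abstract

/-- if `z ↦ (f i k z)_{i,k}` is a bijection `R → ∏ S i k` then it is a bijection on units. -/
theorem h3sl_units_bijective {R : Type*} [CommRing R] {ι : Type*} {κ : ι → Type*}
    {S : ∀ i, κ i → Type*} [∀ i k, CommRing (S i k)] (f : ∀ i k, R →+* S i k)
    (hf : Function.Bijective (fun (z : R) (i : ι) (k : κ i) => f i k z)) :
    Function.Bijective (fun (x : Rˣ) (i : ι) (k : κ i) => Units.map (f i k : R →* S i k) x) := by
  constructor
  · intro x y hxy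
    apply Units.ext
    apply hf.1
    funext i k
    have h := congrFun (congrFun hxy i) k
    exact congrArg Units.val h
  · intro u
    obtain ⟨z, hz⟩ := hf.2 (fun i k => ((u i k : (S i k)ˣ) : S i k))
    obtain ⟨z', hz'⟩ := hf.2 (fun i k => (((u i k)⁻¹ : (S i k)ˣ) : S i k))
    have hzi : ∀ i k, f i k z = (u i k : S i k) := fun i k => congrFun (congrFun hz i) k
    have hzi' : ∀ i k, f i k z' = ((u i k)⁻¹ : (S i k)ˣ) := fun i k => congrFun (congrFun hz' i) k
    have h1 : z * z' = 1 := by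
      apply hf.1
      funext i k
      show f i k (z * z') = f i k 1
      rw [map_mul, hzi, hzi', map_one, Units.mul_inv]
    refine ⟨⟨z, z', h1, by rw [mul_comm]; exact h1⟩, ?_⟩
    funext i k
    apply Units.ext
    exact hzi i k

end Abstract

/-! ## SL0 : the product structure -/

section SL0

variable (T : Finset Nat.Primes) {F : Type} [Field F] [NumberField F]

/-- the ring isomorphism `F ⊗ A_T ≃ ∏_{q ∈ T} F ⊗ ℚ_q`. -/
def h3slPi : GlFS T F ≃+* (∀ q : T, F ⊗[ℚ] ℚ_[((q : Nat.Primes) : ℕ)]) :=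
  (Algebra.TensorProduct.piRight ℚ ℚ F (fun q : T => ℚ_[((q : Nat.Primes) : ℕ)])).toRingEquiv

theorem h3slPi_tmul (x : F) (a : GlAS T) (q : T) :
    h3slPi T (x ⊗ₜ[ℚ] a) q = x ⊗ₜ[ℚ] (a q) := rfl

/-- the projections are jointly bijective on `F ⊗ A_T`. -/
theorem h3sl_prAlg_bijective :
    Function.Bijective (fun (z : GlFS T F) (q : T)
      (v : LgPlacesOver ((q : Nat.Primes) : ℕ) F) =>
        h3PrAlg T q (lgEmbOf ((q : Nat.Primes) : ℕ) v) z) := by
  choose e he using fun q : T => lg_exists_tensorEquiv ((q : Nat.Primes) : ℕ) (K := F)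
  have key : (fun (z : GlFS T F) (q : T) (v : LgPlacesOver ((q : Nat.Primes) : ℕ) F) =>
        h3PrAlg T q (lgEmbOf ((q : Nat.Primes) : ℕ) v) z) =
      fun z => (RingEquiv.piCongrRight e) (h3slPi T z) := by
    funext z q v
    induction z using TensorProduct.induction_on with
    | zero => simp
    | tmul x a =>
      rw [h3PrAlg_tmul]
      show _ = e q (h3slPi T (x ⊗ₜ[ℚ] a) q) v
      rw [h3slPi_tmul, he, mul_comm]
    | add z w hz hw =>
      rw [map_add, hz, hw, map_add, map_add]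
      rfl
  rw [key]
  exact (RingEquiv.piCongrRight e).bijective.comp (h3slPi T).bijective

/-- `J_T(F) ≅ ∏_{q ∈ T} ∏_{v ∣ q} F_vˣ` through the projections at the chosen embeddings. -/
theorem h3Pr_bijective :
    Function.Bijective (fun (x : GlJ T F) (q : T)
      (v : LgPlacesOver ((q : Nat.Primes) : ℕ) F) =>
        h3Pr T q (lgEmbOf ((q : Nat.Primes) : ℕ) v) x) := by
  have h := h3sl_units_bijective (R := GlFS T F) (ι := T)
    (κ := fun q : T => LgPlacesOver ((q : Nat.Primes) : ℕ) F)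
    (S := fun (q : T) (v : LgPlacesOver ((q : Nat.Primes) : ℕ) F) =>
      lgField ((q : Nat.Primes) : ℕ) (lgEmbOf ((q : Nat.Primes) : ℕ) v))
    (fun (q : T) (v : LgPlacesOver ((q : Nat.Primes) : ℕ) F) =>
      ((h3PrAlg T q (lgEmbOf ((q : Nat.Primes) : ℕ) v) :
        GlFS T F →ₐ[ℚ] lgField ((q : Nat.Primes) : ℕ) (lgEmbOf ((q : Nat.Primes) : ℕ) v)) :
        GlFS T F →+* lgField ((q : Nat.Primes) : ℕ) (lgEmbOf ((q : Nat.Primes) : ℕ) v)))
    (h3sl_prAlg_bijective T)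
  exact h

/-- conjugation of the local fields by an element of `Gal(ℚ̄_q/ℚ_q)`. -/
theorem h3sl_exists_equiv (q : ℕ) [Fact q.Prime] (j j' : F →+* PadicAlgCl q)
    (τ₀ : PadicAlgCl q ≃ₐ[ℚ_[q]] PadicAlgCl q)
    (hτ₀ : j' = (τ₀ : PadicAlgCl q →+* PadicAlgCl q).comp j) :
    ∃ τ : lgField q j ≃ₐ[ℚ_[q]] lgField q j',
      ∀ y : lgField q j, ((τ y : lgField q j') : PadicAlgCl q) = τ₀ (y : PadicAlgCl q) := by
  have hmap : (lgField q j).map (τ₀ : PadicAlgCl q →ₐ[ℚ_[q]] PadicAlgCl q) = lgField q j' := by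
    rw [lgField, lgField, IntermediateField.adjoin_map]
    congr 1
    rw [hτ₀]
    ext y
    constructor
    · rintro ⟨_, ⟨x, rfl⟩, rfl⟩
      exact ⟨x, rfl⟩
    · rintro ⟨x, rfl⟩
      exact ⟨j x, ⟨x, rfl⟩, rfl⟩
  refine ⟨((lgField q j).equivMap (τ₀ : PadicAlgCl q →ₐ[ℚ_[q]] PadicAlgCl q)).trans
    (IntermediateField.equivOfEq hmap), fun y => ?_⟩
  rfl

/-- Two embeddings inducing the same place give conjugate projections. -/
theorem h3Pr_eq_of_lgPlace_eq (q : T) (j j' : F →+* PadicAlgCl ((q : Nat.Primes) : ℕ))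
    (h : lgPlace ((q : Nat.Primes) : ℕ) j = lgPlace ((q : Nat.Primes) : ℕ) j') :
    ∃ τ : lgField ((q : Nat.Primes) : ℕ) j ≃+* lgField ((q : Nat.Primes) : ℕ) j',
      (∀ x : F, τ (lgEmb ((q : Nat.Primes) : ℕ) j x) = lgEmb ((q : Nat.Primes) : ℕ) j' x) ∧
      ∀ x : GlJ T F, h3Pr T q j' x = Units.map (τ : _ →* _) (h3Pr T q j x) := by
  obtain ⟨τ₀, hτ₀⟩ := (lgPlace_eq_iff ((q : Nat.Primes) : ℕ) j j').mp h
  obtain ⟨τ, hτ⟩ := h3sl_exists_equiv ((q : Nat.Primes) : ℕ) j j' τ₀ hτ₀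
  have hemb : ∀ x : F, τ (lgEmb ((q : Nat.Primes) : ℕ) j x) = lgEmb ((q : Nat.Primes) : ℕ) j' x := by
    intro x
    apply Subtype.ext
    rw [hτ, lgEmb_coe, lgEmb_coe, hτ₀]
    rfl
  refine ⟨τ.toRingEquiv, hemb, fun x => ?_⟩
  apply Units.ext
  show h3PrAlg T q j' (x : GlFS T F) = τ (h3PrAlg T q j (x : GlFS T F))
  generalize (x : GlFS T F) = z
  induction z using TensorProduct.induction_on with
  | zero => simp
  | tmul y a =>
    rw [h3PrAlg_tmul, h3PrAlg_tmul, map_mul, hemb, AlgEquiv.commutes]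
  | add z w hz hw => rw [map_add, map_add, map_add, hz, hw]

/-- An element of `J_T(F)` is determined by its projections at all embeddings. -/
theorem h3Pr_ext (x y : GlJ T F)
    (h : ∀ (q : T) (j : F →+* PadicAlgCl ((q : Nat.Primes) : ℕ)), h3Pr T q j x = h3Pr T q j y) :
    x = y := by
  apply (h3Pr_bijective T).1
  funext q v
  exact h q _

/-- The idele with component `t` at the place `v₀` and `1` at all other places above `T`. -/
theorem h3_exists_idele_at (v₀ : HeightOneSpectrum (𝓞 F)) (t : Fˣ) :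
    ∃ α : GlJ T F,
      (∀ (q : T) (j : F →+* PadicAlgCl ((q : Nat.Primes) : ℕ)),
        lgPlace ((q : Nat.Primes) : ℕ) j = v₀ →
          h3Pr T q j α = Units.map (lgEmb ((q : Nat.Primes) : ℕ) j : F →* _) t) ∧
      (∀ (q : T) (j : F →+* PadicAlgCl ((q : Nat.Primes) : ℕ)),
        lgPlace ((q : Nat.Primes) : ℕ) j ≠ v₀ → h3Pr T q j α = 1) := by
  classical
  obtain ⟨α, hα⟩ := (h3Pr_bijective (F := F) T).2
    (fun (q : T) (v : LgPlacesOver ((q : Nat.Primes) : ℕ) F) =>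
      if v.1 = v₀ then
        Units.map (lgEmb ((q : Nat.Primes) : ℕ) (lgEmbOf ((q : Nat.Primes) : ℕ) v) : F →* _) t
      else 1)
  have hα' : ∀ (q : T) (v : LgPlacesOver ((q : Nat.Primes) : ℕ) F),
      h3Pr T q (lgEmbOf ((q : Nat.Primes) : ℕ) v) α =
        if v.1 = v₀ then
          Units.map (lgEmb ((q : Nat.Primes) : ℕ) (lgEmbOf ((q : Nat.Primes) : ℕ) v) : F →* _) t
        else 1 := fun q v => congrFun (congrFun hα q) v
  refine ⟨α, fun q j hj => ?_, fun q j hj => ?_⟩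
  · have hpl : lgPlace ((q : Nat.Primes) : ℕ)
        (lgEmbOf ((q : Nat.Primes) : ℕ) (lgPlaceOver ((q : Nat.Primes) : ℕ) j)) =
        lgPlace ((q : Nat.Primes) : ℕ) j := lgPlace_lgEmbOf _ _
    obtain ⟨τ, hτ1, hτ2⟩ := h3Pr_eq_of_lgPlace_eq T q _ j hpl
    rw [hτ2, hα', if_pos (show (lgPlaceOver ((q : Nat.Primes) : ℕ) j).1 = v₀ from hj)]
    apply Units.ext
    exact hτ1 _
  · have hpl : lgPlace ((q : Nat.Primes) : ℕ)
        (lgEmbOf ((q : Nat.Primes) : ℕ) (lgPlaceOver ((q : Nat.Primes) : ℕ) j)) =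
        lgPlace ((q : Nat.Primes) : ℕ) j := lgPlace_lgEmbOf _ _
    obtain ⟨τ, hτ1, hτ2⟩ := h3Pr_eq_of_lgPlace_eq T q _ j hpl
    rw [hτ2, hα', if_neg (show ¬ (lgPlaceOver ((q : Nat.Primes) : ℕ) j).1 = v₀ from hj), map_one]

end SL0

/-! ## compatibility of the projections with extension of the field -/

section Ext

variable (T : Finset Nat.Primes) (F M : Type) [Field F] [NumberField F] [Field M] [NumberField M]
  [Algebra F M]

/-- `pr_J (ext x) = pr_{J|F} x` inside `M_J ⊇ F_{J|F}`. -/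
theorem h3Pr_glExtJ (q : T) (J : M →+* PadicAlgCl ((q : Nat.Primes) : ℕ)) (x : GlJ T F) :
    h3Pr T q J (glExtJ T F M x) =
      Units.map (algebraMap (lgField ((q : Nat.Primes) : ℕ) (J.comp (algebraMap F M)))
        (lgField ((q : Nat.Primes) : ℕ) J) : _ →* _) (h3Pr T q (J.comp (algebraMap F M)) x) := by
  apply Units.ext
  show h3PrAlg T q J (glExtFS T F M (x : GlFS T F)) =
    algebraMap (lgField ((q : Nat.Primes) : ℕ) (J.comp (algebraMap F M)))
      (lgField ((q : Nat.Primes) : ℕ) J) (h3PrAlg T q (J.comp (algebraMap F M)) (x : GlFS T F))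
  generalize (x : GlFS T F) = z
  induction z using TensorProduct.induction_on with
  | zero => simp
  | tmul y a =>
    rw [glExtFS_tmul, h3PrAlg_tmul, h3PrAlg_tmul, map_mul, lgEmb_algebraMap,
      ← IsScalarTower.algebraMap_apply]
  | add z w hz hw => rw [map_add, map_add, map_add, map_add, hz, hw]

end Ext

/-! ## the Galois structure -/

section Galois

variable (T : Finset Nat.Primes) {K F : Type} [Field K] [NumberField K] [Field F] [NumberField F]
  [Algebra K F] [IsGalois K F]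

/-- `geRes` along `lgEmb q j` is a group homomorphism (it is the restriction map of LG-D). -/
theorem h3sl_exists_res (q : ℕ) [Fact q.Prime] (j : F →+* PadicAlgCl q) :
    ∃ r : (lgField q j ≃ₐ[lgField q (j.comp (algebraMap K F))] lgField q j) →* (F ≃ₐ[K] F),
      (∀ σ, r σ = geRes (K := K) (lgEmb q j) σ) ∧
      (∀ σ x, lgEmb q j (r σ x) = σ (lgEmb q j x)) := by
  obtain ⟨r, hr, -⟩ := lg_exists_res (K := K) q j
  exact ⟨r, fun σ => (geRes_eq_of_spec (lgEmb q j) σ (r σ) (hr σ)).symm, hr⟩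

/-- The projection at `j` is equivariant for the decomposition group `Gal(F_j/K_j) → Gal(F/K)`. -/
theorem h3Pr_smul (q : T) (j : F →+* PadicAlgCl ((q : Nat.Primes) : ℕ))
    (σ : lgField ((q : Nat.Primes) : ℕ) j ≃ₐ[lgField ((q : Nat.Primes) : ℕ)
      (j.comp (algebraMap K F))] lgField ((q : Nat.Primes) : ℕ) j) (x : GlJ T F) :
    h3Pr T q j (geRes (K := K) (lgEmb ((q : Nat.Primes) : ℕ) j) σ • x) = σ • h3Pr T q j x := by
  obtain ⟨r, hr1, hr2⟩ := h3sl_exists_res (K := K) ((q : Nat.Primes) : ℕ) j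
  rw [← hr1]
  apply Units.ext
  show h3PrAlg T q j (glFSAut T (r σ) (x : GlFS T F)) = σ (h3PrAlg T q j (x : GlFS T F))
  generalize (x : GlFS T F) = z
  induction z using TensorProduct.induction_on with
  | zero => simp
  | tmul y a =>
    rw [glFSAut_tmul, h3PrAlg_tmul, h3PrAlg_tmul, map_mul, hr2]
    congr 1
    rw [IsScalarTower.algebraMap_apply ℚ_[((q : Nat.Primes) : ℕ)]
      (lgField ((q : Nat.Primes) : ℕ) (j.comp (algebraMap K F)))
      (lgField ((q : Nat.Primes) : ℕ) j), AlgEquiv.commutes]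
  | add z w hz hw => rw [map_add, map_add, map_add, hz, hw, map_add]

theorem h3sl_h3Loc_eq (q : T) (j : F →+* PadicAlgCl ((q : Nat.Primes) : ℕ))
    (r : (lgField ((q : Nat.Primes) : ℕ) j ≃ₐ[lgField ((q : Nat.Primes) : ℕ)
      (j.comp (algebraMap K F))] lgField ((q : Nat.Primes) : ℕ) j) →* (F ≃ₐ[K] F))
    (hr : ∀ σ, r σ = geRes (K := K) (lgEmb ((q : Nat.Primes) : ℕ) j) σ)
    (c : (F ≃ₐ[K] F) × (F ≃ₐ[K] F) → GlJ T F) :
    h3Loc T q j c = pullCochain₂ r (h3Pr T q j) c := by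
  funext s
  show h3Pr T q j (c (geRes (K := K) (lgEmb ((q : Nat.Primes) : ℕ) j) s.1,
    geRes (K := K) (lgEmb ((q : Nat.Primes) : ℕ) j) s.2)) = h3Pr T q j (c (r s.1, r s.2))
  rw [hr, hr]

theorem h3Loc_isMulCocycle₂ (q : T) (j : F →+* PadicAlgCl ((q : Nat.Primes) : ℕ))
    (c : (F ≃ₐ[K] F) × (F ≃ₐ[K] F) → GlJ T F) (hc : IsMulCocycle₂ c) :
    IsMulCocycle₂ (h3Loc T q j c) := by
  obtain ⟨r, hr1, hr2⟩ := h3sl_exists_res (K := K) ((q : Nat.Primes) : ℕ) j
  rw [h3sl_h3Loc_eq T q j r hr1]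
  refine pullCochain₂_isMulCocycle₂ r (h3Pr T q j) (fun σ x => ?_) c hc
  rw [hr1]
  exact h3Pr_smul T q j σ x

theorem h3Loc_isMulCoboundary₂ (q : T) (j : F →+* PadicAlgCl ((q : Nat.Primes) : ℕ))
    (c : (F ≃ₐ[K] F) × (F ≃ₐ[K] F) → GlJ T F) (hc : IsMulCoboundary₂ c) :
    IsMulCoboundary₂ (h3Loc T q j c) := by
  obtain ⟨r, hr1, hr2⟩ := h3sl_exists_res (K := K) ((q : Nat.Primes) : ℕ) j
  rw [h3sl_h3Loc_eq T q j r hr1]
  refine pullCochain₂_isMulCoboundary₂ r (h3Pr T q j) (fun σ x => ?_) c hc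
  rw [hr1]
  exact h3Pr_smul T q j σ x

end Galois

end Fermat.Agent.S55
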