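/-
S55 / Global / H3: SHIM - the statements of this former spec file are proved in `SemiLocal`.
-/
import Fermat.Agent.S55.Global.H3.Defs
import Fermat.Agent.S55.Global.H3.SemiLocal
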