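/-
S55 / Global / H3, leaf H3-SLC (row 317), part 3: the projections of `J_T(F)` into `(PadicAlgCl q)ˣ`
(`slcBig T q j`, the composite of `h3Pr T q j` with the inclusion `F_j ⊆ PadicAlgCl q`), their
behaviour under `Gal(F/K)` and `Gal(ℚ̄_q/ℚ_q)`, and the geometry of embeddings above a place of `K`.
Black boxes: SL0 (`h3Pr_bijective`, `h3Pr_ext`), LG (`lgPlace_eq_iff`, `lg_exists_res`, ...).
-/
import Fermat.Agent.S55.Global.H3.SemiLocalSpec
import Fermat.Agent.S55.Global.H3.SlcProd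
import Fermat.Agent.S55.LG.Spec
import Fermat.Agent.S55.Global.Recip.LocLGSpec

set_option autoImplicit false
set_option linter.unusedSectionVars false
set_option linter.unusedVariables false

noncomputable section

namespace Fermat.Agent.S55

open scoped TensorProduct NumberField nonZeroDivisors
open NumberField IsDedekindDomain groupCohomology

section Big

variable (T : Finset Nat.Primes) {F : Type} [Field F] [NumberField F]

/-- the ring hom `F ⊗ A_T → PadicAlgCl q`, `x ⊗ a ↦ j x * a_q`. -/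
def slcBigAlg (q : T) (j : F →+* PadicAlgCl ((q : Nat.Primes) : ℕ)) :
    GlFS T F →+* PadicAlgCl ((q : Nat.Primes) : ℕ) :=
  ((lgField ((q : Nat.Primes) : ℕ) j).val : lgField ((q : Nat.Primes) : ℕ) j →+* _).comp
    (h3PrAlg T q j : GlFS T F →+* lgField ((q : Nat.Primes) : ℕ) j)

lemma slcBigAlg_apply (q : T) (j : F →+* PadicAlgCl ((q : Nat.Primes) : ℕ)) (z : GlFS T F) :
    slcBigAlg T q j z = ((h3PrAlg T q j z : lgField ((q : Nat.Primes) : ℕ) j) : PadicAlgCl _) := rfl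

lemma slcBigAlg_tmul (q : T) (j : F →+* PadicAlgCl ((q : Nat.Primes) : ℕ)) (x : F) (a : GlAS T) :
    slcBigAlg T q j (x ⊗ₜ[ℚ] a) =
      j x * algebraMap ℚ_[((q : Nat.Primes) : ℕ)] (PadicAlgCl ((q : Nat.Primes) : ℕ)) (a q) := by
  rw [slcBigAlg_apply, h3PrAlg_tmul]
  rfl

/-- two ring homs out of `F ⊗ A_T` agreeing on pure tensors are equal. -/
lemma slc_ringHom_ext {R : Type*} [Semiring R] (φ ψ : GlFS T F →+* R)
    (h : ∀ (x : F) (a : GlAS T), φ (x ⊗ₜ[ℚ] a) = ψ (x ⊗ₜ[ℚ] a)) (z : GlFS T F) : φ z = ψ z := by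
  induction z using TensorProduct.induction_on with
  | zero => rw [map_zero, map_zero]
  | tmul x a => exact h x a
  | add z₁ z₂ h₁ h₂ => rw [map_add, map_add, h₁, h₂]

/-- the projection `J_T(F) → (PadicAlgCl q)ˣ`. -/
def slcBig (q : T) (j : F →+* PadicAlgCl ((q : Nat.Primes) : ℕ)) :
    GlJ T F →* (PadicAlgCl ((q : Nat.Primes) : ℕ))ˣ :=
  Units.map (slcBigAlg T q j : GlFS T F →* PadicAlgCl ((q : Nat.Primes) : ℕ))

lemma slcBig_val (q : T) (j : F →+* PadicAlgCl ((q : Nat.Primes) : ℕ)) (x : GlJ T F) :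
    ((slcBig T q j x : (PadicAlgCl ((q : Nat.Primes) : ℕ))ˣ) : PadicAlgCl ((q : Nat.Primes) : ℕ)) =
      (((h3Pr T q j x : (lgField ((q : Nat.Primes) : ℕ) j)ˣ) : lgField ((q : Nat.Primes) : ℕ) j) :
        PadicAlgCl ((q : Nat.Primes) : ℕ)) := rfl

lemma slcBig_eq_one_iff (q : T) (j : F →+* PadicAlgCl ((q : Nat.Primes) : ℕ)) (x : GlJ T F) :
    slcBig T q j x = 1 ↔ h3Pr T q j x = 1 := by
  constructor
  · intro h
    apply Units.ext
    apply Subtype.ext
    have := congrArg (fun u : (PadicAlgCl ((q : Nat.Primes) : ℕ))ˣ =>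
      (u : PadicAlgCl ((q : Nat.Primes) : ℕ))) h
    rw [slcBig_val] at this
    exact this
  · intro h
    apply Units.ext
    rw [slcBig_val, h]
    rfl

lemma slcBig_mem (q : T) (j : F →+* PadicAlgCl ((q : Nat.Primes) : ℕ)) (x : GlJ T F) :
    ((slcBig T q j x : (PadicAlgCl ((q : Nat.Primes) : ℕ))ˣ) : PadicAlgCl ((q : Nat.Primes) : ℕ)) ∈
      lgField ((q : Nat.Primes) : ℕ) j := by
  rw [slcBig_val]
  exact Subtype.property _

section Gal

variable {K : Type} [Field K] [NumberField K] [Algebra K F]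

lemma slcBigAlg_comp_galois (q : T) (j : F →+* PadicAlgCl ((q : Nat.Primes) : ℕ)) (g : F ≃ₐ[K] F)
    (z : GlFS T F) :
    slcBigAlg T q (j.comp (g : F →+* F)) z = slcBigAlg T q j (glFSAut T g z) := by
  refine slc_ringHom_ext T (slcBigAlg T q (j.comp (g : F →+* F)))
    ((slcBigAlg T q j).comp (glFSAut T g : GlFS T F →+* GlFS T F)) ?_ z
  intro x a
  rw [RingHom.comp_apply, slcBigAlg_tmul]
  show _ = slcBigAlg T q j (glFSAut T g (x ⊗ₜ[ℚ] a))
  rw [glFSAut_tmul, slcBigAlg_tmul]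
  rfl

lemma slcBig_comp_galois (q : T) (j : F →+* PadicAlgCl ((q : Nat.Primes) : ℕ)) (g : F ≃ₐ[K] F)
    (x : GlJ T F) :
    slcBig T q (j.comp (g : F →+* F)) x = slcBig T q j (g • x) := by
  have h1 : ((g • x : GlJ T F) : GlFS T F) = glFSAut T g (x : GlFS T F) := rfl
  have h2 := slcBigAlg_comp_galois T q j g (x : GlFS T F)
  rw [← h1] at h2
  exact Units.ext h2

end Gal

lemma slcBigAlg_comp_algEquiv (q : T) (j : F →+* PadicAlgCl ((q : Nat.Primes) : ℕ))
    (τ : PadicAlgCl ((q : Nat.Primes) : ℕ) ≃ₐ[ℚ_[((q : Nat.Primes) : ℕ)]]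
      PadicAlgCl ((q : Nat.Primes) : ℕ)) (z : GlFS T F) :
    slcBigAlg T q ((τ : PadicAlgCl ((q : Nat.Primes) : ℕ) →+* PadicAlgCl ((q : Nat.Primes) : ℕ)).comp j) z =
      τ (slcBigAlg T q j z) := by
  refine slc_ringHom_ext T (slcBigAlg T q ((τ : PadicAlgCl ((q : Nat.Primes) : ℕ) →+* PadicAlgCl ((q : Nat.Primes) : ℕ)).comp j))
    ((τ : PadicAlgCl ((q : Nat.Primes) : ℕ) →+* PadicAlgCl ((q : Nat.Primes) : ℕ)).comp (slcBigAlg T q j)) ?_ z
  intro x a
  rw [RingHom.comp_apply, slcBigAlg_tmul, slcBigAlg_tmul]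
  show τ (j x) * _ = τ (_ * _)
  rw [map_mul, τ.commutes]

lemma slcBig_comp_algEquiv (q : T) (j : F →+* PadicAlgCl ((q : Nat.Primes) : ℕ))
    (τ : PadicAlgCl ((q : Nat.Primes) : ℕ) ≃ₐ[ℚ_[((q : Nat.Primes) : ℕ)]]
      PadicAlgCl ((q : Nat.Primes) : ℕ)) (x : GlJ T F) :
    slcBig T q ((τ : PadicAlgCl ((q : Nat.Primes) : ℕ) →+* PadicAlgCl ((q : Nat.Primes) : ℕ)).comp j) x =
      Units.map (τ : PadicAlgCl ((q : Nat.Primes) : ℕ) →* PadicAlgCl ((q : Nat.Primes) : ℕ)) (slcBig T q j x) := by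
  apply Units.ext
  exact slcBigAlg_comp_algEquiv T q j τ (x : GlFS T F)

/-- an element of `J_T(F)` all of whose big projections are trivial is trivial. -/
lemma slcBig_ext (x : GlJ T F)
    (h : ∀ (q : T) (j : F →+* PadicAlgCl ((q : Nat.Primes) : ℕ)), slcBig T q j x = 1) : x = 1 := by
  apply h3Pr_ext T x 1
  intro q j
  rw [map_one]
  exact (slcBig_eq_one_iff T q j x).1 (h q j)

/-- every family of local units at the chosen embeddings is realised. -/
lemma slcBig_surj (y : ∀ (q : T) (v : LgPlacesOver ((q : Nat.Primes) : ℕ) F),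
      (PadicAlgCl ((q : Nat.Primes) : ℕ))ˣ)
    (hy : ∀ (q : T) (v : LgPlacesOver ((q : Nat.Primes) : ℕ) F),
      ((y q v : (PadicAlgCl ((q : Nat.Primes) : ℕ))ˣ) : PadicAlgCl ((q : Nat.Primes) : ℕ)) ∈
        lgField ((q : Nat.Primes) : ℕ) (lgEmbOf ((q : Nat.Primes) : ℕ) v)) :
    ∃ x : GlJ T F, ∀ (q : T) (v : LgPlacesOver ((q : Nat.Primes) : ℕ) F),
      slcBig T q (lgEmbOf ((q : Nat.Primes) : ℕ) v) x = y q v := by
  have hy' : ∀ (q : T) (v : LgPlacesOver ((q : Nat.Primes) : ℕ) F),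
      (((y q v)⁻¹ : (PadicAlgCl ((q : Nat.Primes) : ℕ))ˣ) : PadicAlgCl ((q : Nat.Primes) : ℕ)) ∈
        lgField ((q : Nat.Primes) : ℕ) (lgEmbOf ((q : Nat.Primes) : ℕ) v) := by
    intro q v
    rw [Units.val_inv_eq_inv_val]
    exact inv_mem (hy q v)
  let y' : ∀ (q : T) (v : LgPlacesOver ((q : Nat.Primes) : ℕ) F),
      (lgField ((q : Nat.Primes) : ℕ) (lgEmbOf ((q : Nat.Primes) : ℕ) v))ˣ := fun q v =>
    ⟨⟨_, hy q v⟩, ⟨_, hy' q v⟩, Subtype.ext (Units.mul_inv (y q v)),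
      Subtype.ext (Units.inv_mul (y q v))⟩
  obtain ⟨x, hx⟩ := (h3Pr_bijective T (F := F)).2 y'
  refine ⟨x, fun q v => ?_⟩
  apply Units.ext
  rw [slcBig_val]
  have h1 := congrFun (congrFun hx q) v
  simp only at h1
  rw [h1]

end Big

section Geom

variable (q : ℕ) [Fact q.Prime] {K F : Type} [Field K] [NumberField K] [Field F] [NumberField F]
  [Algebra K F] [IsGalois K F]

/-- embeddings of `F` inducing the same place of `K` are conjugate under
`Gal(ℚ̄_q/ℚ_q) × Gal(F/K)`. -/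
lemma slc_exists_conj (j₀ j : F →+* PadicAlgCl q)
    (h : lgPlace q (j₀.comp (algebraMap K F)) = lgPlace q (j.comp (algebraMap K F))) :
    ∃ (τ : PadicAlgCl q ≃ₐ[ℚ_[q]] PadicAlgCl q) (g : F ≃ₐ[K] F),
      j = ((τ : PadicAlgCl q →+* PadicAlgCl q).comp j₀).comp (g : F →+* F) := by
  obtain ⟨τ, hτ⟩ := (lgPlace_eq_iff q (j₀.comp (algebraMap K F)) (j.comp (algebraMap K F))).1 h
  have h' : j.comp (algebraMap K F) =
      ((τ : PadicAlgCl q →+* PadicAlgCl q).comp j₀).comp (algebraMap K F) := by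
    rw [hτ, RingHom.comp_assoc]
  obtain ⟨g, hg⟩ := lg_exists_galois_of_extends (K := K) q
    ((τ : PadicAlgCl q →+* PadicAlgCl q).comp j₀) j h'
  exact ⟨τ, g, hg⟩

/-- two translates of `j` inducing the same place differ by an element of the decomposition
group. -/
lemma slc_exists_of_lgPlace_eq (j : F →+* PadicAlgCl q)
    (r : (lgField q j ≃ₐ[lgField q (j.comp (algebraMap K F))] lgField q j) →* (F ≃ₐ[K] F))
    (hr : ∀ σ x, lgEmb q j (r σ x) = σ (lgEmb q j x)) (g g₁ : F ≃ₐ[K] F)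
    (h : lgPlace q (j.comp (g₁ : F →+* F)) = lgPlace q (j.comp (g : F →+* F))) :
    ∃ σ, g = r σ * g₁ := by
  obtain ⟨r', hr', -, -, hr2⟩ := lg_exists_res (K := K) q j
  have h1 := (lgt_lgPlace_comp_eq_iff q j g₁ g).1 h
  obtain ⟨σ, hσ⟩ := (hr2 (g * g₁⁻¹)).2 h1
  refine ⟨σ, ?_⟩
  have h2 : r σ = r' σ := by
    apply AlgEquiv.ext
    intro x
    apply lgEmb_injective q j
    rw [hr, hr']
  rw [h2, hσ, inv_mul_cancel_right]

/-- the place of `K` below an embedding of `F`. -/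
lemma slc_lgPlace_comp_galois (j : F →+* PadicAlgCl q) (g : F ≃ₐ[K] F) :
    (j.comp (g : F →+* F)).comp (algebraMap K F) = j.comp (algebraMap K F) := by
  ext x
  show j (g (algebraMap K F x)) = j (algebraMap K F x)
  rw [g.commutes]

end Geom

end Fermat.Agent.S55
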