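/-
S55 / Global / H3, leaf H3-SLC (row 317), part 1: the multiplicative coinduced module and
Shapiro INJECTIVITY in degrees 1, 2, 3 in explicit multiplicative cochain form.

`r : Γ →* G` injective, `Y` a `Γ`-module (multiplicative).  `SlcCoind r Y` is the group of
functions `f : G → Y` with `f (r γ * g) = γ • f g`, `G` acting by right translation.
If `c` is an `n`-cocycle of `G` with values in `SlcCoind r Y` whose pull-back along
`(r, evaluation at 1)` is an `n`-coboundary of `Γ`, then `c` is an `n`-coboundary (`n = 1, 2, 3`).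
Proof: helper25's `ga7_isIso` (explicit Shapiro map is an isomorphism) + the bridges between
multiplicative cochains and Mathlib's `groupCohomology`.
-/
import Mathlib
import Fermat.Agent.S55.CohomDefs
import Fermat.Agent.S55.Alg.ShapiroExplicit
import Fermat.Agent.S55.Alg.H3Mul
import Fermat.Agent.S55.LocalTateAbstract
import Fermat.Agent.S55.CohomInfRes

set_option autoImplicit false
set_option linter.unusedSectionVars false
set_option linter.unusedVariables false
set_option linter.style.haveILetI false

namespace Fermat.Agent.S55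

open CategoryTheory CategoryTheory.Limits groupCohomology Rep

section Coind

variable {G Γ : Type} [Group G] [Group Γ] (r : Γ →* G) (Y : Type) [CommGroup Y]
  [MulDistribMulAction Γ Y]

/-- the subgroup of `Γ`-equivariant functions `G → Y`. -/
def slcCoindSub : Subgroup (G → Y) where
  carrier := {f | ∀ (γ : Γ) (g : G), f (r γ * g) = γ • f g}
  mul_mem' := by
    intro f f' hf hf' γ g
    simp only [Pi.mul_apply, hf γ g, hf' γ g, smul_mul']
  one_mem' := by
    intro γ g
    simp only [Pi.one_apply, smul_one]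
  inv_mem' := by
    intro f hf γ g
    simp only [Pi.inv_apply, hf γ g, smul_inv']

/-- the multiplicative coinduced module. -/
abbrev SlcCoind : Type := ↥(slcCoindSub r Y)

variable {r Y}

lemma slcCoind_apply_mul (f : SlcCoind r Y) (γ : Γ) (g : G) : f.1 (r γ * g) = γ • f.1 g :=
  f.2 γ g

lemma slcCoind_ext {f f' : SlcCoind r Y} (h : ∀ g, f.1 g = f'.1 g) : f = f' :=
  Subtype.ext (funext h)

variable (r Y)

/-- right translation. -/
def slcTrans (g : G) (f : SlcCoind r Y) : SlcCoind r Y :=
  ⟨fun x => f.1 (x * g), fun γ x => by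
    show f.1 (r γ * x * g) = γ • f.1 (x * g)
    rw [mul_assoc]
    exact f.2 γ (x * g)⟩

instance slcCoindAction : MulDistribMulAction G (SlcCoind r Y) where
  smul g f := slcTrans r Y g f
  one_smul f := by
    apply slcCoind_ext
    intro x
    show f.1 (x * 1) = f.1 x
    rw [mul_one]
  mul_smul g h f := by
    apply slcCoind_ext
    intro x
    show f.1 (x * (g * h)) = f.1 (x * g * h)
    rw [mul_assoc]
  smul_mul g f f' := by
    apply slcCoind_ext
    intro x
    rfl
  smul_one g := by
    apply slcCoind_ext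
    intro x
    rfl

variable {r Y}

lemma slcCoind_smul_apply (g : G) (f : SlcCoind r Y) (x : G) : (g • f).1 x = f.1 (x * g) := rfl

variable (r Y)

/-- evaluation at `1`. -/
def slcEv : SlcCoind r Y →* Y where
  toFun f := f.1 1
  map_one' := rfl
  map_mul' _ _ := rfl

variable {r Y}

lemma slcEv_apply (f : SlcCoind r Y) : slcEv r Y f = f.1 1 := rfl

lemma slcEv_smul (γ : Γ) (f : SlcCoind r Y) : slcEv r Y (r γ • f) = γ • slcEv r Y f := by
  show f.1 (1 * r γ) = γ • f.1 1
  rw [one_mul, ← mul_one (r γ)]
  exact f.2 γ 1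

lemma slcEv_smul_apply (g : G) (f : SlcCoind r Y) : slcEv r Y (g • f) = f.1 g := by
  show f.1 (1 * g) = f.1 g
  rw [one_mul]

end Coind

section Bridge

variable {G H : Type} [Group G] [Group H] {X Y : Type} [CommGroup X] [CommGroup Y]
  [MulDistribMulAction G X] [MulDistribMulAction H Y]

/-- `groupCohomology.map` is `pullCochain₂` on classes. -/
theorem slc_map_ltaH2π (ρ : H →* G) (j : X →* Y) (hj : ∀ (h : H) (x : X), j (ρ h • x) = h • j x)
    (c : G × G → X) (hc : IsMulCocycle₂ c) :
    map ρ (mulCoeffHom ρ j hj) 2 (ltaH2π c hc) =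
      ltaH2π (pullCochain₂ ρ j c) (pullCochain₂_isMulCocycle₂ ρ j hj c hc) := by
  unfold ltaH2π
  rw [H2π_comp_map_apply]
  rfl

theorem slc_pullCochain₁_isMulCocycle₁ (ρ : H →* G) (j : X →* Y)
    (hj : ∀ (h : H) (x : X), j (ρ h • x) = h • j x) (u : G → X) (hu : IsMulCocycle₁ u) :
    IsMulCocycle₁ (pullCochain₁ ρ j u) := by
  intro g h
  have := congrArg j (hu (ρ g) (ρ h))
  simp only [map_mul, hj] at this
  simpa only [pullCochain₁, map_mul] using this

/-- the class of a multiplicative 1-cocycle -/
noncomputable def slcH1π (u : G → X) (hu : IsMulCocycle₁ u) :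
    H1 (Rep.ofMulDistribMulAction G X) :=
  H1π _ (cocyclesOfIsMulCocycle₁ hu)

theorem slcH1π_eq_zero_iff (u : G → X) (hu : IsMulCocycle₁ u) :
    slcH1π u hu = 0 ↔ IsMulCoboundary₁ u := by
  unfold slcH1π
  rw [H1π_eq_zero_iff]
  constructor
  · intro h
    exact isMulCoboundary₁_of_mem_coboundaries₁ _ h
  · intro h
    exact (coboundariesOfIsMulCoboundary₁ h).2

theorem slc_map_slcH1π (ρ : H →* G) (j : X →* Y) (hj : ∀ (h : H) (x : X), j (ρ h • x) = h • j x)
    (u : G → X) (hu : IsMulCocycle₁ u) :
    map ρ (mulCoeffHom ρ j hj) 1 (slcH1π u hu) =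
      slcH1π (pullCochain₁ ρ j u) (slc_pullCochain₁_isMulCocycle₁ ρ j hj u hu) := by
  unfold slcH1π
  rw [H1π_comp_map_apply]
  rfl

end Bridge

section Shapiro

variable {G Γ : Type} [Group G] [Group Γ] (r : Γ →* G) (hr : Function.Injective r) (Y : Type)
  [CommGroup Y] [MulDistribMulAction Γ Y]

/-- the action of `r.range ≃ Γ` on `Y`. -/
@[reducible] noncomputable def slcRangeAction : MulDistribMulAction r.range Y :=
  MulDistribMulAction.compHom Y ((MonoidHom.ofInjective hr).symm : r.range →* Γ)

lemma slc_ofInjective_symm_apply (d : r.range) : r ((MonoidHom.ofInjective hr).symm d) = (d : G) := by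
  have := (MonoidHom.ofInjective hr).apply_symm_apply d
  exact congrArg Subtype.val this

lemma slc_ofInjective_symm_mk (γ : Γ) :
    (MonoidHom.ofInjective hr).symm ⟨r γ, γ, rfl⟩ = γ := by
  apply hr
  rw [slc_ofInjective_symm_apply]

variable {Y}

lemma slcEv_range_smul (d : r.range) (x : SlcCoind r Y) :
    letI := slcRangeAction r hr Y
    slcEv r Y (r.range.subtype d • x) = d • slcEv r Y x := by
  letI := slcRangeAction r hr Y
  show slcEv r Y ((d : G) • x) = ((MonoidHom.ofInjective hr).symm d : Γ) • slcEv r Y x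
  rw [← slcEv_smul, slc_ofInjective_symm_apply]

/-- the coefficient morphism "evaluation at 1" -/
noncomputable def slcπ :
    letI := slcRangeAction r hr Y
    res r.range.subtype (Rep.ofMulDistribMulAction G (SlcCoind r Y)) ⟶
      Rep.ofMulDistribMulAction r.range Y :=
  letI := slcRangeAction r hr Y
  mulCoeffHom r.range.subtype (slcEv r Y) (slcEv_range_smul r hr)

lemma slcπ_unique :
    letI := slcRangeAction r hr Y
    ∀ F ∈ Representation.coindV r.range.subtype (Rep.ofMulDistribMulAction r.range Y).ρ,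
      ∃! a : (Rep.ofMulDistribMulAction G (SlcCoind r Y)).V, ga7Unit (slcπ r hr (Y := Y)) a = F := by
  letI := slcRangeAction r hr Y
  intro F hF
  let F' : G → Y := fun g => Additive.toMul (F g : Additive Y)
  have hF' : ∀ (γ : Γ) (g : G), F' (r γ * g) = γ • F' g := by
    intro γ g
    have h1 := hF ⟨r γ, γ, rfl⟩ g
    have h2 : F' (r γ * g) = Additive.toMul
        (((Rep.ofMulDistribMulAction r.range Y).ρ ⟨r γ, γ, rfl⟩ (F g) :
          (Rep.ofMulDistribMulAction r.range Y).V) : Additive Y) :=
      congrArg (fun a : (Rep.ofMulDistribMulAction r.range Y).V => Additive.toMul (a : Additive Y)) h1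
    rw [h2]
    show ((MonoidHom.ofInjective hr).symm ⟨r γ, γ, rfl⟩ : Γ) • F' g = _
    rw [slc_ofInjective_symm_mk]
  refine ⟨Additive.ofMul (⟨F', hF'⟩ : SlcCoind r Y), ?_, ?_⟩
  · funext g
    show Additive.ofMul (slcEv r Y (g • (⟨F', hF'⟩ : SlcCoind r Y))) = F g
    rw [slcEv_smul_apply]
    rfl
  · intro a ha
    have : ∀ g, Additive.ofMul ((Additive.toMul (a : Additive (SlcCoind r Y)) : SlcCoind r Y).1 g) = F g := by
      intro g
      rw [← ha, ← slcEv_smul_apply]
      rfl
    apply congrArg Additive.ofMul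
    apply slcCoind_ext
    intro g
    show (Additive.toMul (a : Additive (SlcCoind r Y)) : SlcCoind r Y).1 g = F' g
    show _ = Additive.toMul (F g : Additive Y)
    rw [← this g]
    rfl

include hr in
/-- Shapiro injectivity, degree `3`. -/
theorem slc_shapiro₃ (c : G × G × G → SlcCoind r Y) (hc : IsMulCocycle₃ c)
    (hloc : IsMulCoboundary₃ (pullCochain₃ r (slcEv r Y) c)) : IsMulCoboundary₃ c := by
  letI := slcRangeAction r hr Y
  have hiso := ga7_isIso (slcπ r hr (Y := Y)) (slcπ_unique r hr) 3
  have h1 := map_mulH3π r.range.subtype (slcEv r Y) (slcEv_range_smul r hr) c hc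
  have h2 : IsMulCoboundary₃ (pullCochain₃ r.range.subtype (slcEv r Y) c) := by
    obtain ⟨b, hb⟩ := hloc
    refine ⟨fun p => b ((MonoidHom.ofInjective hr).symm p.1, (MonoidHom.ofInjective hr).symm p.2),
      fun g h j => ?_⟩
    have h3 := hb ((MonoidHom.ofInjective hr).symm g) ((MonoidHom.ofInjective hr).symm h)
      ((MonoidHom.ofInjective hr).symm j)
    simp only [pullCochain₃, slc_ofInjective_symm_apply] at h3
    simp only [pullCochain₃, map_mul]
    exact h3
  rw [(mulH3π_eq_zero_iff _ _).2 h2] at h1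
  have hinj : Function.Injective (map r.range.subtype (slcπ r hr (Y := Y)) 3) :=
    (ModuleCat.mono_iff_injective _).1 inferInstance
  have h4 : mulH3π c hc = 0 := hinj (h1.trans (map_zero _).symm)
  exact (mulH3π_eq_zero_iff c hc).1 h4

include hr in
/-- Shapiro injectivity, degree `2`. -/
theorem slc_shapiro₂ (c : G × G → SlcCoind r Y) (hc : IsMulCocycle₂ c)
    (hloc : IsMulCoboundary₂ (pullCochain₂ r (slcEv r Y) c)) : IsMulCoboundary₂ c := by
  letI := slcRangeAction r hr Y
  have hiso := ga7_isIso (slcπ r hr (Y := Y)) (slcπ_unique r hr) 2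
  have h1 := slc_map_ltaH2π r.range.subtype (slcEv r Y) (slcEv_range_smul r hr) c hc
  have h2 : IsMulCoboundary₂ (pullCochain₂ r.range.subtype (slcEv r Y) c) := by
    obtain ⟨b, hb⟩ := hloc
    refine ⟨fun p => b ((MonoidHom.ofInjective hr).symm p), fun g h => ?_⟩
    have h3 := hb ((MonoidHom.ofInjective hr).symm g) ((MonoidHom.ofInjective hr).symm h)
    simp only [pullCochain₂, slc_ofInjective_symm_apply] at h3
    simp only [pullCochain₂, map_mul]
    exact h3
  rw [(ltaH2π_eq_zero_iff _ _).2 h2] at h1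
  have hinj : Function.Injective (map r.range.subtype (slcπ r hr (Y := Y)) 2) :=
    (ModuleCat.mono_iff_injective _).1 inferInstance
  have h4 : ltaH2π c hc = 0 := hinj (h1.trans (map_zero _).symm)
  exact (ltaH2π_eq_zero_iff c hc).1 h4

include hr in
/-- Shapiro injectivity, degree `1`. -/
theorem slc_shapiro₁ (u : G → SlcCoind r Y) (hu : IsMulCocycle₁ u)
    (hloc : IsMulCoboundary₁ (pullCochain₁ r (slcEv r Y) u)) : IsMulCoboundary₁ u := by
  letI := slcRangeAction r hr Y
  have hiso := ga7_isIso (slcπ r hr (Y := Y)) (slcπ_unique r hr) 1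
  have h1 := slc_map_slcH1π r.range.subtype (slcEv r Y) (slcEv_range_smul r hr) u hu
  have h2 : IsMulCoboundary₁ (pullCochain₁ r.range.subtype (slcEv r Y) u) := by
    obtain ⟨b, hb⟩ := hloc
    refine ⟨b, fun g => ?_⟩
    have h3 := hb ((MonoidHom.ofInjective hr).symm g)
    simp only [pullCochain₁, slc_ofInjective_symm_apply] at h3
    simp only [pullCochain₁]
    exact h3
  rw [(slcH1π_eq_zero_iff _ _).2 h2] at h1
  have hinj : Function.Injective (map r.range.subtype (slcπ r hr (Y := Y)) 1) :=
    (ModuleCat.mono_iff_injective _).1 inferInstance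
  have h4 : slcH1π u hu = 0 := hinj (h1.trans (map_zero _).symm)
  exact (slcH1π_eq_zero_iff u hu).1 h4

end Shapiro

end Fermat.Agent.S55
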