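/-
S55 / Global / H3, leaf H3-SLC (row 317), part 2: Shapiro injectivity for a module which is a
PRODUCT of coinduced modules, in explicit multiplicative cochain form (elementary glueing).

`X` a `G`-module with equivariant homs `π i : X →* Y i` (`Y i` a `Γ i`-module, `r i : Γ i →* G`
injective) such that `x ↦ (i ↦ (g ↦ π i (g • x)))` is a bijection of `X` onto the product of the
coinduced modules `SlcCoind (r i) (Y i)`.  An `n`-cocycle of `G` with values in `X` all of whose
pull-backs along `(r i, π i)` are coboundaries is a coboundary (`n = 1, 2, 3`).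
-/
import Mathlib
import Fermat.Agent.S55.Global.H3.SlcCoind

set_option autoImplicit false
set_option linter.unusedSectionVars false
set_option linter.unusedVariables false

namespace Fermat.Agent.S55

open groupCohomology

section Prod

variable {G : Type} [Group G] {X : Type} [CommGroup X] [MulDistribMulAction G X]
  {ι : Type} {Γ : ι → Type} [∀ i, Group (Γ i)] (r : ∀ i, Γ i →* G)
  {Y : ι → Type} [∀ i, CommGroup (Y i)] [∀ i, MulDistribMulAction (Γ i) (Y i)]
  (π : ∀ i, X →* Y i) (hπ : ∀ (i : ι) (γ : Γ i) (x : X), π i (r i γ • x) = γ • π i x)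

/-- the adjoint map `X → SlcCoind (r i) (Y i)`, `x ↦ (g ↦ π i (g • x))`. -/
def slcAdj (i : ι) : X →* SlcCoind (r i) (Y i) where
  toFun x := ⟨fun g => π i (g • x), fun γ g => by
    show π i ((r i γ * g) • x) = γ • π i (g • x)
    rw [mul_smul, hπ]⟩
  map_one' := by
    apply slcCoind_ext
    intro g
    show π i (g • (1 : X)) = 1
    rw [smul_one, map_one]
  map_mul' x y := by
    apply slcCoind_ext
    intro g
    show π i (g • (x * y)) = π i (g • x) * π i (g • y)
    rw [smul_mul', map_mul]

lemma slcAdj_apply (i : ι) (x : X) (g : G) : (slcAdj r π hπ i x).1 g = π i (g • x) := rfl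

lemma slcAdj_smul (i : ι) (g : G) (x : X) : slcAdj r π hπ i (g • x) = g • slcAdj r π hπ i x := by
  apply slcCoind_ext
  intro h
  show π i (h • g • x) = π i ((h * g) • x)
  rw [mul_smul]

lemma slcEv_slcAdj (i : ι) (x : X) : slcEv (r i) (Y i) (slcAdj r π hπ i x) = π i x := by
  show π i ((1 : G) • x) = π i x
  rw [one_smul]

variable (hr : ∀ i, Function.Injective (r i))
  (hinj : ∀ x : X, (∀ (i : ι) (g : G), π i (g • x) = 1) → x = 1)
  (hsurj : ∀ f : ∀ i, G → Y i, (∀ (i : ι) (γ : Γ i) (g : G), f i (r i γ * g) = γ • f i g) →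
    ∃ x : X, ∀ (i : ι) (g : G), π i (g • x) = f i g)

include hinj in
lemma slcAdj_eq_of_forall (x y : X) (h : ∀ i, slcAdj r π hπ i x = slcAdj r π hπ i y) : x = y := by
  have h1 : x / y = 1 := by
    apply hinj
    intro i g
    have h2 := congrArg (fun f : SlcCoind (r i) (Y i) => f.1 g) (h i)
    simp only [slcAdj_apply] at h2
    rw [smul_div', map_div, h2, div_self']
  exact div_eq_one.mp h1

include hsurj in
lemma slcAdj_exists (f : ∀ i, SlcCoind (r i) (Y i)) : ∃ x : X, ∀ i, slcAdj r π hπ i x = f i := by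
  obtain ⟨x, hx⟩ := hsurj (fun i => (f i).1) (fun i γ g => (f i).2 γ g)
  exact ⟨x, fun i => slcCoind_ext (fun g => hx i g)⟩

include hπ hr hinj hsurj in
/-- degree `3`. -/
theorem slc_prod₃ (c : G × G × G → X) (hc : IsMulCocycle₃ c)
    (hloc : ∀ i, IsMulCoboundary₃ (pullCochain₃ (r i) (π i) c)) : IsMulCoboundary₃ c := by
  have h1 : ∀ i, IsMulCoboundary₃ (fun p => slcAdj r π hπ i (c p)) := by
    intro i
    apply slc_shapiro₃ (r i) (hr i)
    · intro g h j l
      have := congrArg (slcAdj r π hπ i) (hc g h j l)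
      simpa only [map_mul, slcAdj_smul] using this
    · convert hloc i using 1
      funext p
      simp only [pullCochain₃, slcEv_slcAdj]
  choose b hb using h1
  have h2 : ∀ p : G × G, ∃ x : X, ∀ i, slcAdj r π hπ i x = b i p :=
    fun p => slcAdj_exists r π hπ hsurj (fun i => b i p)
  choose β hβ using h2
  refine ⟨β, fun g h j => ?_⟩
  apply slcAdj_eq_of_forall r π hπ hinj
  intro i
  simp only [map_div, map_mul, slcAdj_smul, hβ]
  exact hb i g h j

include hπ hr hinj hsurj in
/-- degree `2`. -/
theorem slc_prod₂ (c : G × G → X) (hc : IsMulCocycle₂ c)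
    (hloc : ∀ i, IsMulCoboundary₂ (pullCochain₂ (r i) (π i) c)) : IsMulCoboundary₂ c := by
  have h1 : ∀ i, IsMulCoboundary₂ (fun p => slcAdj r π hπ i (c p)) := by
    intro i
    apply slc_shapiro₂ (r i) (hr i)
    · intro g h j
      have := congrArg (slcAdj r π hπ i) (hc g h j)
      simpa only [map_mul, slcAdj_smul] using this
    · convert hloc i using 1
      funext p
      simp only [pullCochain₂, slcEv_slcAdj]
  choose b hb using h1
  have h2 : ∀ p : G, ∃ x : X, ∀ i, slcAdj r π hπ i x = b i p :=
    fun p => slcAdj_exists r π hπ hsurj (fun i => b i p)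
  choose β hβ using h2
  refine ⟨β, fun g h => ?_⟩
  apply slcAdj_eq_of_forall r π hπ hinj
  intro i
  simp only [map_div, map_mul, slcAdj_smul, hβ]
  exact hb i g h

include hπ hr hinj hsurj in
/-- degree `1`. -/
theorem slc_prod₁ (u : G → X) (hu : IsMulCocycle₁ u)
    (hloc : ∀ i, IsMulCoboundary₁ (pullCochain₁ (r i) (π i) u)) : IsMulCoboundary₁ u := by
  have h1 : ∀ i, IsMulCoboundary₁ (fun p => slcAdj r π hπ i (u p)) := by
    intro i
    apply slc_shapiro₁ (r i) (hr i)
    · intro g h
      have := congrArg (slcAdj r π hπ i) (hu g h)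
      simpa only [map_mul, slcAdj_smul] using this
    · convert hloc i using 1
      funext p
      simp only [pullCochain₁, slcEv_slcAdj]
  choose b hb using h1
  obtain ⟨β, hβ⟩ := slcAdj_exists r π hπ hsurj b
  refine ⟨β, fun g => ?_⟩
  apply slcAdj_eq_of_forall r π hπ hinj
  intro i
  simp only [map_div, slcAdj_smul, hβ]
  exact hb i g

end Prod

end Fermat.Agent.S55
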