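/-
S55 / Global / H3 (CORE-H3 = U1, owner helper12), leaf H3-SLC (row 317, helper22):
cohomology of the semilocal module `J_T(F) = (F ⊗_ℚ ∏_{q ∈ T} ℚ_q)ˣ` for `F/K` Galois, in
multiplicative cochain form: `h3_sl1` (`H¹ = 1`), `h3_sl2` (`H²` injects into the product of the
local `H²`), `h3_sl3` (`H³ = 1`).  Statements VERBATIM as in `SemiLocalCohSpec.lean`.

Route: index set = places of `K` above `T`; one representative embedding `j_i` of `F` per place;
`J_T(F) → ∏_i Coind_{Gal(F_{j_i}/K_{j_i})}^{Gal(F/K)} F_{j_i}ˣ`, `x ↦ (g ↦ pr_{j_i}(g • x))`, is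
bijective (SL0 black boxes `h3Pr_bijective`, `h3Pr_ext`, `h3Pr_smul` + LG); Shapiro injectivity
`slc_prod₁/₂/₃` (`SlcProd.lean`, from helper25's `ga7_isIso`); local inputs: Hilbert 90 and local Tate
`lf_isMulCoboundary₃`.
-/
import Fermat.Agent.S55.Global.H3.SemiLocalSpec
import Fermat.Agent.S55.Global.H3.SlcProd
import Fermat.Agent.S55.LG.Spec
import Fermat.Agent.S55.Global.Recip.LocLGSpec
import Fermat.Agent.S55.Global.H3.SlcBig
import Fermat.Agent.S55.LocalTate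

set_option autoImplicit false
set_option linter.unusedSectionVars false
set_option linter.unusedVariables false
set_option linter.style.haveILetI false

noncomputable section

namespace Fermat.Agent.S55

open scoped TensorProduct NumberField nonZeroDivisors
open NumberField IsDedekindDomain groupCohomology

section Main

variable (T : Finset Nat.Primes) (K F : Type) [Field K] [NumberField K] [Field F] [NumberField F]
  [Algebra K F] [IsGalois K F]

/-- index set: the places of `K` above `T`. -/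
abbrev SlcIdx : Type := Σ q : T, LgPlacesOver ((q : Nat.Primes) : ℕ) K

variable {K}

/-- a representative embedding of `F` above the place `i` of `K`. -/
def slcRepEmb (i : SlcIdx T K) : F →+* PadicAlgCl ((i.1 : Nat.Primes) : ℕ) :=
  (ge_exists_extend (L := F) ((i.1 : Nat.Primes) : ℕ) (lgEmbOf ((i.1 : Nat.Primes) : ℕ) i.2)).choose

lemma slcRepEmb_comp (i : SlcIdx T K) :
    (slcRepEmb T F i).comp (algebraMap K F) = lgEmbOf ((i.1 : Nat.Primes) : ℕ) i.2 :=
  (ge_exists_extend (L := F) ((i.1 : Nat.Primes) : ℕ) (lgEmbOf ((i.1 : Nat.Primes) : ℕ) i.2)).choose_spec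

lemma slcRepEmb_lgPlace (i : SlcIdx T K) :
    lgPlace ((i.1 : Nat.Primes) : ℕ) ((slcRepEmb T F i).comp (algebraMap K F)) = i.2.1 := by
  rw [slcRepEmb_comp, lgPlace_lgEmbOf]

/-- the local Galois group at the representative embedding. -/
abbrev SlcGam (i : SlcIdx T K) : Type :=
  lgField ((i.1 : Nat.Primes) : ℕ) (slcRepEmb T F i) ≃ₐ[lgField ((i.1 : Nat.Primes) : ℕ)
    ((slcRepEmb T F i).comp (algebraMap K F))] lgField ((i.1 : Nat.Primes) : ℕ) (slcRepEmb T F i)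

/-- the restriction hom `Gal(F_j/K_j) → Gal(F/K)` at the representative embedding. -/
def slcRepRes (i : SlcIdx T K) : SlcGam T F i →* (F ≃ₐ[K] F) :=
  (ge_exists_resHomLG (K := K) ((i.1 : Nat.Primes) : ℕ) (slcRepEmb T F i)).choose

lemma slcRepRes_eq (i : SlcIdx T K) (σ : SlcGam T F i) :
    slcRepRes T F i σ = geRes (K := K) (lgEmb ((i.1 : Nat.Primes) : ℕ) (slcRepEmb T F i)) σ :=
  (ge_exists_resHomLG (K := K) ((i.1 : Nat.Primes) : ℕ) (slcRepEmb T F i)).choose_spec.1 σ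

lemma slcRepRes_spec (i : SlcIdx T K) (σ : SlcGam T F i) (x : F) :
    lgEmb ((i.1 : Nat.Primes) : ℕ) (slcRepEmb T F i) (slcRepRes T F i σ x) =
      σ (lgEmb ((i.1 : Nat.Primes) : ℕ) (slcRepEmb T F i) x) :=
  (ge_exists_resHomLG (K := K) ((i.1 : Nat.Primes) : ℕ) (slcRepEmb T F i)).choose_spec.2.1 σ x

lemma slcRepRes_injective (i : SlcIdx T K) : Function.Injective (slcRepRes T F i) :=
  (ge_exists_resHomLG (K := K) ((i.1 : Nat.Primes) : ℕ) (slcRepEmb T F i)).choose_spec.2.2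

/-- the projection at the representative embedding. -/
abbrev slcRepPr (i : SlcIdx T K) :
    GlJ T F →* (lgField ((i.1 : Nat.Primes) : ℕ) (slcRepEmb T F i))ˣ :=
  h3Pr T i.1 (slcRepEmb T F i)

lemma slcRepPr_smul (i : SlcIdx T K) (σ : SlcGam T F i) (x : GlJ T F) :
    slcRepPr T F i (slcRepRes T F i σ • x) = σ • slcRepPr T F i x := by
  rw [slcRepRes_eq]
  exact h3Pr_smul T i.1 (slcRepEmb T F i) σ x

/-- injectivity of `x ↦ (i ↦ (g ↦ pr_i (g • x)))`. -/
lemma slc_hinj (x : GlJ T F)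
    (h : ∀ (i : SlcIdx T K) (g : F ≃ₐ[K] F), slcRepPr T F i (g • x) = 1) : x = 1 := by
  apply slcBig_ext T x
  intro q j
  have h0 : lgPlace ((q : Nat.Primes) : ℕ) ((slcRepEmb T F
      (⟨q, lgPlaceOver ((q : Nat.Primes) : ℕ) (j.comp (algebraMap K F))⟩ : SlcIdx T K)).comp
        (algebraMap K F)) = lgPlace ((q : Nat.Primes) : ℕ) (j.comp (algebraMap K F)) :=
    slcRepEmb_lgPlace T F
      (⟨q, lgPlaceOver ((q : Nat.Primes) : ℕ) (j.comp (algebraMap K F))⟩ : SlcIdx T K)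
  obtain ⟨τ, g, hj⟩ := slc_exists_conj ((q : Nat.Primes) : ℕ) (slcRepEmb T F
      (⟨q, lgPlaceOver ((q : Nat.Primes) : ℕ) (j.comp (algebraMap K F))⟩ : SlcIdx T K)) j h0
  rw [hj, slcBig_comp_galois, slcBig_comp_algEquiv]
  have h1 := h ⟨q, lgPlaceOver ((q : Nat.Primes) : ℕ) (j.comp (algebraMap K F))⟩ g
  rw [(slcBig_eq_one_iff T q _ _).2 h1, map_one]

end Main

section Aux

variable (q : ℕ) [Fact q.Prime] {K F : Type} [Field K] [NumberField K] [Field F] [NumberField F]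
  [Algebra K F]

/-- embeddings of `F` inducing the same place of `F` induce the same place of `K`. -/
lemma slc_lgPlace_comp_eq (j j' : F →+* PadicAlgCl q) (h : lgPlace q j = lgPlace q j') :
    lgPlace q (j.comp (algebraMap K F)) = lgPlace q (j'.comp (algebraMap K F)) := by
  apply HeightOneSpectrum.ext
  rw [lgPlace_asIdeal, lgPlace_asIdeal, ← lgexists_comap_lgIdeal, ← lgexists_comap_lgIdeal,
    ← lgPlace_asIdeal, ← lgPlace_asIdeal, h]

/-- `τ` maps `F_j` into `F_{τ ∘ j}`. -/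
lemma slc_map_mem (j : F →+* PadicAlgCl q) (τ : PadicAlgCl q ≃ₐ[ℚ_[q]] PadicAlgCl q)
    (y : PadicAlgCl q) (hy : y ∈ lgField q j) :
    τ y ∈ lgField q ((τ : PadicAlgCl q →+* PadicAlgCl q).comp j) := by
  have h1 : (lgField q j).map (τ : PadicAlgCl q →ₐ[ℚ_[q]] PadicAlgCl q) =
      lgField q ((τ : PadicAlgCl q →+* PadicAlgCl q).comp j) := by
    unfold lgField
    rw [IntermediateField.adjoin_map]
    congr 1
    ext z
    constructor
    · rintro ⟨_, ⟨x, rfl⟩, rfl⟩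
      exact ⟨x, rfl⟩
    · rintro ⟨x, rfl⟩
      exact ⟨j x, ⟨x, rfl⟩, rfl⟩
  rw [← h1]
  exact ⟨y, hy, rfl⟩

end Aux

section Main2

variable (T : Finset Nat.Primes) {K : Type} (F : Type) [Field K] [NumberField K] [Field F]
  [NumberField F] [Algebra K F] [IsGalois K F]

/-- the inclusion `(F_j)ˣ → (PadicAlgCl q)ˣ`. -/
abbrev slcIncl (q : ℕ) [Fact q.Prime] (j : F →+* PadicAlgCl q) : (lgField q j)ˣ →* (PadicAlgCl q)ˣ :=
  Units.map ((lgField q j).val : lgField q j →* PadicAlgCl q)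

lemma slcIncl_injective (q : ℕ) [Fact q.Prime] (j : F →+* PadicAlgCl q) :
    Function.Injective (slcIncl F q j) :=
  Units.map_injective (f := ((lgField q j).val : lgField q j →* PadicAlgCl q))
    (lgField q j).val.injective

lemma slcBig_eq_slcIncl (q : T) (j : F →+* PadicAlgCl ((q : Nat.Primes) : ℕ)) (x : GlJ T F) :
    slcBig T q j x = slcIncl F ((q : Nat.Primes) : ℕ) j (h3Pr T q j x) := rfl

/-- surjectivity of `x ↦ (i ↦ (g ↦ pr_i (g • x)))` onto the product of coinduced modules. -/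
lemma slc_hsurj (f : ∀ i : SlcIdx T K, (F ≃ₐ[K] F) →
      (lgField ((i.1 : Nat.Primes) : ℕ) (slcRepEmb T F i))ˣ)
    (hf : ∀ (i : SlcIdx T K) (γ : SlcGam T F i) (g : F ≃ₐ[K] F),
      f i (slcRepRes T F i γ * g) = γ • f i g) :
    ∃ x : GlJ T F, ∀ (i : SlcIdx T K) (g : F ≃ₐ[K] F), slcRepPr T F i (g • x) = f i g := by
  -- the target family
  have hE : ∀ (q : T) (v : LgPlacesOver ((q : Nat.Primes) : ℕ) F),
      ∃ z : (PadicAlgCl ((q : Nat.Primes) : ℕ))ˣ,
        ∃ (w : LgPlacesOver ((q : Nat.Primes) : ℕ) K)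
          (τ : PadicAlgCl ((q : Nat.Primes) : ℕ) ≃ₐ[ℚ_[((q : Nat.Primes) : ℕ)]]
            PadicAlgCl ((q : Nat.Primes) : ℕ)) (g : F ≃ₐ[K] F),
          lgEmbOf ((q : Nat.Primes) : ℕ) v =
            ((τ : PadicAlgCl ((q : Nat.Primes) : ℕ) →+* PadicAlgCl ((q : Nat.Primes) : ℕ)).comp
              (slcRepEmb T F (⟨q, w⟩ : SlcIdx T K))).comp (g : F →+* F) ∧
          z = Units.map (τ : PadicAlgCl ((q : Nat.Primes) : ℕ) →*
              PadicAlgCl ((q : Nat.Primes) : ℕ))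
            (slcIncl F ((q : Nat.Primes) : ℕ) (slcRepEmb T F (⟨q, w⟩ : SlcIdx T K))
              (f (⟨q, w⟩ : SlcIdx T K) g)) := by
    intro q v
    have h0 := slcRepEmb_lgPlace T F (⟨q, lgPlaceOver ((q : Nat.Primes) : ℕ)
      ((lgEmbOf ((q : Nat.Primes) : ℕ) v).comp (algebraMap K F))⟩ : SlcIdx T K)
    obtain ⟨τ, g, hj⟩ := slc_exists_conj ((q : Nat.Primes) : ℕ) (slcRepEmb T F
      (⟨q, lgPlaceOver ((q : Nat.Primes) : ℕ)
        ((lgEmbOf ((q : Nat.Primes) : ℕ) v).comp (algebraMap K F))⟩ : SlcIdx T K))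
      (lgEmbOf ((q : Nat.Primes) : ℕ) v) h0
    exact ⟨_, _, τ, g, hj, rfl⟩
  choose y hy using hE
  have hmem : ∀ (q : T) (v : LgPlacesOver ((q : Nat.Primes) : ℕ) F),
      ((y q v : (PadicAlgCl ((q : Nat.Primes) : ℕ))ˣ) : PadicAlgCl ((q : Nat.Primes) : ℕ)) ∈
        lgField ((q : Nat.Primes) : ℕ) (lgEmbOf ((q : Nat.Primes) : ℕ) v) := by
    intro q v
    obtain ⟨w, τ, g, hemb, hz⟩ := hy q v
    rw [hz, hemb, lgField_comp_galois]
    apply slc_map_mem
    exact Subtype.property _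
  obtain ⟨x, hx⟩ := slcBig_surj T y hmem
  refine ⟨x, ?_⟩
  rintro ⟨q, w⟩ g
  obtain ⟨w₁, τ₁, g₁, hemb, hz⟩ := hy q (lgPlaceOver ((q : Nat.Primes) : ℕ)
    ((slcRepEmb T F (⟨q, w⟩ : SlcIdx T K)).comp (g : F →+* F)))
  have hv : lgPlace ((q : Nat.Primes) : ℕ) (lgEmbOf ((q : Nat.Primes) : ℕ)
      (lgPlaceOver ((q : Nat.Primes) : ℕ)
        ((slcRepEmb T F (⟨q, w⟩ : SlcIdx T K)).comp (g : F →+* F)))) =
      lgPlace ((q : Nat.Primes) : ℕ) ((slcRepEmb T F (⟨q, w⟩ : SlcIdx T K)).comp (g : F →+* F)) :=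
    lgPlace_lgEmbOf _ _
  -- the place of `K` below
  have hw : w₁ = w := by
    apply Subtype.ext
    have h1 := slc_lgPlace_comp_eq (K := K) ((q : Nat.Primes) : ℕ) _ _ hv
    rw [slc_lgPlace_comp_galois, hemb, slc_lgPlace_comp_galois, RingHom.comp_assoc,
      lgPlace_comp_algEquiv] at h1
    have h2 := slcRepEmb_lgPlace T F (⟨q, w₁⟩ : SlcIdx T K)
    have h3 := slcRepEmb_lgPlace T F (⟨q, w⟩ : SlcIdx T K)
    exact h2.symm.trans (h1.trans h3)
  subst hw
  -- the value at `g₁`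
  have hval : slcRepPr T F (⟨q, w₁⟩ : SlcIdx T K) (g₁ • x) = f (⟨q, w₁⟩ : SlcIdx T K) g₁ := by
    have h1 := hx q (lgPlaceOver ((q : Nat.Primes) : ℕ)
      ((slcRepEmb T F (⟨q, w₁⟩ : SlcIdx T K)).comp (g : F →+* F)))
    rw [hz, hemb, slcBig_comp_galois, slcBig_comp_algEquiv] at h1
    have h2 := Units.map_injective (f := ((τ₁ : PadicAlgCl ((q : Nat.Primes) : ℕ) →*
      PadicAlgCl ((q : Nat.Primes) : ℕ)))) τ₁.injective h1
    exact slcIncl_injective F _ _ h2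
  -- `g` and `g₁` differ by the decomposition group
  have hpl : lgPlace ((q : Nat.Primes) : ℕ)
      ((slcRepEmb T F (⟨q, w₁⟩ : SlcIdx T K)).comp (g₁ : F →+* F)) =
      lgPlace ((q : Nat.Primes) : ℕ)
        ((slcRepEmb T F (⟨q, w₁⟩ : SlcIdx T K)).comp (g : F →+* F)) := by
    rw [← hv, hemb, RingHom.comp_assoc, lgPlace_comp_algEquiv]
  obtain ⟨σ, hσ⟩ := slc_exists_of_lgPlace_eq ((q : Nat.Primes) : ℕ)
    (slcRepEmb T F (⟨q, w₁⟩ : SlcIdx T K)) (slcRepRes T F (⟨q, w₁⟩ : SlcIdx T K))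
    (slcRepRes_spec T F (⟨q, w₁⟩ : SlcIdx T K)) g g₁ hpl
  rw [hσ, mul_smul, slcRepPr_smul, hval, hf]

end Main2

section Galois

variable (T : Finset Nat.Primes) {K F : Type} [Field K] [NumberField K] [Field F] [NumberField F]
  [Algebra K F] [IsGalois K F]

/-- SL1: `H¹(Gal(F/K), J_T(F)) = 1` (Shapiro + Hilbert 90). -/
theorem h3_sl1 (u : (F ≃ₐ[K] F) → GlJ T F) (hu : IsMulCocycle₁ u) : IsMulCoboundary₁ u := by
  refine slc_prod₁ (slcRepRes T F) (slcRepPr T F) (slcRepPr_smul T F) (slcRepRes_injective T F)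
    (slc_hinj T F) (slc_hsurj T F) u hu ?_
  intro i
  have h1 := slc_pullCochain₁_isMulCocycle₁ (slcRepRes T F i) (slcRepPr T F i)
    (slcRepPr_smul T F i) u hu
  have := lgd_finiteDimensional (K := K) ((i.1 : Nat.Primes) : ℕ) (slcRepEmb T F i)
  exact isMulCoboundary₁_of_isMulCocycle₁_of_aut_to_units _ h1

/-- SL2: `H²(Gal(F/K), J_T(F)) ↪ ∏ H²(Gal(F_j/K_j), F_jˣ)` (Shapiro in degree `2`): a cocycle
which is locally a coboundary at every embedding is a coboundary. -/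
theorem h3_sl2 (c : (F ≃ₐ[K] F) × (F ≃ₐ[K] F) → GlJ T F) (hc : IsMulCocycle₂ c)
    (hloc : ∀ (q : T) (j : F →+* PadicAlgCl ((q : Nat.Primes) : ℕ)),
      IsMulCoboundary₂ (h3Loc T q j c)) : IsMulCoboundary₂ c := by
  refine slc_prod₂ (slcRepRes T F) (slcRepPr T F) (slcRepPr_smul T F) (slcRepRes_injective T F)
    (slc_hinj T F) (slc_hsurj T F) c hc ?_
  intro i
  have h1 := hloc i.1 (slcRepEmb T F i)
  have h2 : pullCochain₂ (slcRepRes T F i) (slcRepPr T F i) c =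
      h3Loc T i.1 (slcRepEmb T F i) c := by
    funext p
    simp only [h3Loc, pullCochain₂, slcRepRes_eq]
  rw [h2]
  exact h1

/-- SL3: `H³(Gal(F/K), J_T(F)) = 1` (Shapiro + local Tate). -/
theorem h3_sl3 (f : (F ≃ₐ[K] F) × (F ≃ₐ[K] F) × (F ≃ₐ[K] F) → GlJ T F) (hf : IsMulCocycle₃ f) :
    IsMulCoboundary₃ f := by
  refine slc_prod₃ (slcRepRes T F) (slcRepPr T F) (slcRepPr_smul T F) (slcRepRes_injective T F)
    (slc_hinj T F) (slc_hsurj T F) f hf ?_
  intro i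
  have h1 := pullCochain₃_isMulCocycle₃ (slcRepRes T F i) (slcRepPr T F i)
    (slcRepPr_smul T F i) f hf
  have := lg_isGalois (K := K) ((i.1 : Nat.Primes) : ℕ) (slcRepEmb T F i)
  exact lf_isMulCoboundary₃ ((i.1 : Nat.Primes) : ℕ)
    (lgField ((i.1 : Nat.Primes) : ℕ) ((slcRepEmb T F i).comp (algebraMap K F)))
    (lgField ((i.1 : Nat.Primes) : ℕ) (slcRepEmb T F i)) _ h1

end Galois

end Fermat.Agent.S55
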