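/-
S55 / Global / H3 (CORE-H3 = U1, owner helper12): leaf H3-SLC.  SHIM: the statements formerly
listed here (h3_sl1, h3_sl2, h3_sl3) are proved verbatim in `Global/H3/SemiLocalCoh.lean`
(helper22; with `SlcCoind`, `SlcProd`, `SlcBig`).
-/
import Fermat.Agent.S55.Global.H3.SemiLocalSpec
import Fermat.Agent.S55.Global.H3.SemiLocalCoh
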