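/-
S55 / Global / H3, part of leaf H3-CF3a (split with `Global/H3/SpecialOrder.lean`): the LOCAL VALUES
of the special idele cocycle at the places above `T`.
Notation: `a₁ := fun s => (h3Special T K L M σ α₀ s).1 : Gal(M/K)² → J_T(M)`,
`v₀ := lgPlace q₀ (j₀.comp (algebraMap K L))`.
* (D) `h3sx_special_isMulCocycle₂`, `h3sx_special_fst_isMulCocycle₂`: the special cochain is a cocycle.
* (C) `h3sx_geInv_eq_nsmul` (generic): if `a ^ m = d¹H₁ · diag(x)` in `J_T(M)` then
      `inv_J x = m • inv (h3Loc T q J a)`.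
* (A) `h3sx_h3Loc_special_of_ne`: the localisation of `a₁` at a place not above `v₀` is trivial.
* (B) `h3sx_dvd_of_nsmul_localInv`: at a place above `v₀`, `m • inv (h3Loc T q J a₁) = 0 → [L:K] ∣ m`.
-/
import Fermat.Agent.S55.Global.H3.IdealCSpec
import Fermat.Agent.S55.Global.H3.ClassDefs
import Fermat.Agent.S55.Global.H3.SemiLocalCohSpec
import Fermat.Agent.S55.Global.H3.FieldSpec
import Fermat.Agent.S55.Global.Recip.LocCycSpec
import Fermat.Agent.S55.Global.Recip.IndepSpec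
import Fermat.Agent.S55.Global.Recip.SupportSpec
import Fermat.Agent.S55.LocalInv
import Fermat.Agent.S55.LG.PlaceSpec
import Fermat.Agent.S55.LG.DenseSpec
import Fermat.Agent.S55.Global.UnramLoc

set_option autoImplicit false
set_option linter.unusedSectionVars false
set_option linter.unusedVariables false

noncomputable section

namespace Fermat.Agent.S55

open scoped NumberField nonZeroDivisors
open NumberField IsDedekindDomain groupCohomology

section LocalPow

variable (q : ℕ) [Fact q.Prime]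
  (K : Type) [Field K] [Algebra ℚ_[q] K] [FiniteDimensional ℚ_[q] K]
  (L : Type) [Field L] [Algebra ℚ_[q] L] [FiniteDimensional ℚ_[q] L]
  [Algebra K L] [IsScalarTower ℚ_[q] K L]

theorem h3sx_localInv_one [IsGalois K L] :
    localInv q K L (1 : (L ≃ₐ[K] L) × (L ≃ₐ[K] L) → Lˣ) = 0 :=
  (localInv_eq_zero_iff q K L cohord_coc_one).2 cohord_cob_one

theorem h3sx_localInv_pow [IsGalois K L] {c : (L ≃ₐ[K] L) × (L ≃ₐ[K] L) → Lˣ}
    (hc : IsMulCocycle₂ c) (m : ℕ) : localInv q K L (c ^ m) = m • localInv q K L c := by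
  induction m with
  | zero => rw [pow_zero, zero_smul]; exact h3sx_localInv_one q K L
  | succ k ih =>
    have hk : IsMulCocycle₂ (c ^ k) := (cohordZ2 _ _).pow_mem hc k
    rw [pow_succ, localInv_mul q K L hk hc, ih, succ_nsmul]

end LocalPow

section CF3Local

variable (T : Finset Nat.Primes) {K L M : Type} [Field K] [NumberField K]
  [Field L] [NumberField L] [Field M] [NumberField M] [Algebra K L] [Algebra L M] [Algebra K M]
  [IsScalarTower K L M] [IsGalois K L] [IsGalois K M]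

/-- (D) the special cochain is a cocycle of `Gal(M/K)` in `J_T(M) × I(M)`. -/
theorem h3sx_special_isMulCocycle₂ (σ : L ≃ₐ[K] L) (hσ : ∀ g : L ≃ₐ[K] L, g ∈ Subgroup.zpowers σ)
    (α₀ : GlJ T K) : IsMulCocycle₂ (h3Special T K L M σ α₀) := by
  unfold h3Special
  refine pullCochain₂_isMulCocycle₂ (AlgEquiv.restrictNormalHom L) (glExt T L M) ?_ _ ?_
  · intro g x
    exact glExt_smul T L M g x
  · exact cycCocycle_isMulCocycle₂ σ hσ _ (glExt_smul_eq T K L σ (α₀, 1))

/-- (D) its `J_T(M)`-component is a cocycle. -/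
theorem h3sx_special_fst_isMulCocycle₂ (σ : L ≃ₐ[K] L)
    (hσ : ∀ g : L ≃ₐ[K] L, g ∈ Subgroup.zpowers σ) (α₀ : GlJ T K) :
    IsMulCocycle₂ (fun s : (M ≃ₐ[K] M) × (M ≃ₐ[K] M) => (h3Special T K L M σ α₀ s).1) := by
  have h := h3sx_special_isMulCocycle₂ T (M := M) σ hσ α₀
  intro g h' k
  have h1 := congrArg Prod.fst (h g h' k)
  simpa only [Prod.fst_mul, Prod.smul_fst] using h1

/-- (C) GENERIC: if `a ^ m = d¹H₁ · diag(x)` in `J_T(M)` (`a` a cocycle) then the invariant of `x`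
at an embedding `J` above `T` is `m` times the invariant of the localisation of `a`. -/
theorem h3sx_geInv_eq_nsmul (q : T) (J : M →+* PadicAlgCl ((q : Nat.Primes) : ℕ))
    (a : (M ≃ₐ[K] M) × (M ≃ₐ[K] M) → GlJ T M) (ha : IsMulCocycle₂ a)
    (H₁ : (M ≃ₐ[K] M) → GlJ T M) (x : (M ≃ₐ[K] M) × (M ≃ₐ[K] M) → Mˣ) (m : ℕ)
    (h : ∀ g h : M ≃ₐ[K] M,
      a (g, h) ^ m = (g • H₁ h / H₁ (g * h) * H₁ g) * glDiagJ T M (x (g, h))) :
    geInv ((q : Nat.Primes) : ℕ) J x =
      m • localInv ((q : Nat.Primes) : ℕ)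
        (lgField ((q : Nat.Primes) : ℕ) (J.comp (algebraMap K M)))
        (lgField ((q : Nat.Primes) : ℕ) J) (h3Loc T q J a) := by
  have : IsGalois (lgField ((q : Nat.Primes) : ℕ) (J.comp (algebraMap K M)))
      (lgField ((q : Nat.Primes) : ℕ) J) := lg_isGalois ((q : Nat.Primes) : ℕ) J
  set dH : (M ≃ₐ[K] M) × (M ≃ₐ[K] M) → GlJ T M := cohordD H₁ with hdH
  have hcobH : IsMulCoboundary₂ dH := cohordD_cob H₁
  have hx : (fun s : (M ≃ₐ[K] M) × (M ≃ₐ[K] M) => glDiagJ T M (x s)) = a ^ m / dH := by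
    funext s
    obtain ⟨g, h'⟩ := s
    rw [Pi.div_apply, Pi.pow_apply, h g h', hdH]
    show _ = cohordD H₁ (g, h') * glDiagJ T M (x (g, h')) / cohordD H₁ (g, h')
    rw [mul_div_cancel_left]
  have h1 : geLocLG ((q : Nat.Primes) : ℕ) J x = h3Loc T q J a ^ m / h3Loc T q J dH := by
    rw [← h3Loc_glDiagJ, hx]
    funext s
    simp only [h3Loc, pullCochain₂, Pi.div_apply, Pi.pow_apply, map_div, map_pow]
  have hca : IsMulCocycle₂ (h3Loc T q J a) := h3Loc_isMulCocycle₂ T q J a ha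
  have hcm : IsMulCocycle₂ (h3Loc T q J a ^ m) := (cohordZ2 _ _).pow_mem hca m
  have hcob : IsMulCoboundary₂ (h3Loc T q J dH) := h3Loc_isMulCoboundary₂ T q J dH hcobH
  unfold geInv
  rw [h1, localInv_eq_of_div ((q : Nat.Primes) : ℕ) _ _ hcm, h3sx_localInv_pow _ _ _ hca]
  have h2 : h3Loc T q J a ^ m / h3Loc T q J dH / h3Loc T q J a ^ m = (h3Loc T q J dH)⁻¹ := by
    rw [div_div, mul_comm, ← div_div, div_self', one_div]
  rw [h2]
  exact cohord_cob_inv hcob

/-- the projection at `J` of the values of the special cocycle. -/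
theorem h3sx_h3Pr_special (σ : L ≃ₐ[K] L) (α₀ : GlJ T K) (q : T)
    (J : M →+* PadicAlgCl ((q : Nat.Primes) : ℕ)) (g h : M ≃ₐ[K] M) :
    h3Pr T q J ((h3Special T K L M σ α₀ (g, h)).1) =
      if orderOf σ ≤ cycExp σ (AlgEquiv.restrictNormalHom L g) +
          cycExp σ (AlgEquiv.restrictNormalHom L h) then
        Units.map (algebraMap (lgField ((q : Nat.Primes) : ℕ) (J.comp (algebraMap K M)))
          (lgField ((q : Nat.Primes) : ℕ) J) : _ →* _)
          (h3Pr T q (J.comp (algebraMap K M)) α₀)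
      else 1 := by
  have h1 : h3Special T K L M σ α₀ (g, h) =
      glExt T L M (cycCocycle σ (glExt T K L (α₀, 1))
        (AlgEquiv.restrictNormalHom L g, AlgEquiv.restrictNormalHom L h)) := rfl
  rw [h1, cycCocycle_apply]
  split_ifs with hc
  · rw [glExt_glExt T K M L (α₀, 1), glExt_fst, h3Pr_glExtJ]
  · rw [map_one, Prod.fst_one, map_one]

/-- (A) the localisation of the special cocycle at an embedding not above `v₀` is trivial. -/
theorem h3sx_h3Loc_special_of_ne (σ : L ≃ₐ[K] L)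
    (q₀ : T) (j₀ : L →+* PadicAlgCl ((q₀ : Nat.Primes) : ℕ)) (α₀ : GlJ T K)
    (hα₁ : ∀ (q : T) (i : K →+* PadicAlgCl ((q : Nat.Primes) : ℕ)),
      lgPlace ((q : Nat.Primes) : ℕ) i ≠
        lgPlace ((q₀ : Nat.Primes) : ℕ) (j₀.comp (algebraMap K L)) → h3Pr T q i α₀ = 1)
    (q : T) (J : M →+* PadicAlgCl ((q : Nat.Primes) : ℕ))
    (hJ : lgPlace ((q : Nat.Primes) : ℕ) (J.comp (algebraMap K M)) ≠
      lgPlace ((q₀ : Nat.Primes) : ℕ) (j₀.comp (algebraMap K L))) :
    h3Loc T q J (fun s : (M ≃ₐ[K] M) × (M ≃ₐ[K] M) => (h3Special T K L M σ α₀ s).1) = 1 := by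
  funext s
  show h3Pr T q J ((h3Special T K L M σ α₀ (_, _)).1) = 1
  rw [h3sx_h3Pr_special, hα₁ q (J.comp (algebraMap K M)) hJ, map_one, ite_self]

/-- at an embedding above `v₀` the localisation of the special cocycle is the localisation of the
inflation of the cyclic cocycle `cyc(σ, t)` of `L/K`. -/
theorem h3sx_h3Loc_special_eq (σ : L ≃ₐ[K] L)
    (q₀ : T) (j₀ : L →+* PadicAlgCl ((q₀ : Nat.Primes) : ℕ)) (t : Kˣ) (α₀ : GlJ T K)
    (hα₀ : ∀ (q : T) (i : K →+* PadicAlgCl ((q : Nat.Primes) : ℕ)),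
      lgPlace ((q : Nat.Primes) : ℕ) i =
        lgPlace ((q₀ : Nat.Primes) : ℕ) (j₀.comp (algebraMap K L)) →
      h3Pr T q i α₀ = Units.map (lgEmb ((q : Nat.Primes) : ℕ) i : K →* _) t)
    (q : T) (J : M →+* PadicAlgCl ((q : Nat.Primes) : ℕ))
    (hJ : lgPlace ((q : Nat.Primes) : ℕ) (J.comp (algebraMap K M)) =
      lgPlace ((q₀ : Nat.Primes) : ℕ) (j₀.comp (algebraMap K L))) :
    h3Loc T q J (fun s : (M ≃ₐ[K] M) × (M ≃ₐ[K] M) => (h3Special T K L M σ α₀ s).1) =
      geLocLG ((q : Nat.Primes) : ℕ) J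
        (lfBC K L K M (cycCocycle σ (Units.map (algebraMap K L : K →* L) t))) := by
  funext s
  have hres : ∀ g : M ≃ₐ[K] M, lfGalRes K L K M g = AlgEquiv.restrictNormalHom L g := by
    intro g
    show AlgEquiv.restrictNormalHom L (lfGalIncl K K M g) = _
    congr 1
  have hL : h3Loc T q J
      (fun s : (M ≃ₐ[K] M) × (M ≃ₐ[K] M) => (h3Special T K L M σ α₀ s).1) s =
      h3Pr T q J ((h3Special T K L M σ α₀
        (geRes (K := K) (lgEmb ((q : Nat.Primes) : ℕ) J) s.1,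
          geRes (K := K) (lgEmb ((q : Nat.Primes) : ℕ) J) s.2)).1) := rfl
  have hR : geLocLG ((q : Nat.Primes) : ℕ) J
      (lfBC K L K M (cycCocycle σ (Units.map (algebraMap K L : K →* L) t))) s =
      Units.map (lgEmb ((q : Nat.Primes) : ℕ) J : M →* _)
        (Units.map (algebraMap L M : L →* M)
          (cycCocycle σ (Units.map (algebraMap K L : K →* L) t)
            (lfGalRes K L K M (geRes (K := K) (lgEmb ((q : Nat.Primes) : ℕ) J) s.1),
              lfGalRes K L K M (geRes (K := K) (lgEmb ((q : Nat.Primes) : ℕ) J) s.2)))) := rfl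
  rw [hL, hR, h3sx_h3Pr_special, hres, hres, cycCocycle_apply,
    hα₀ q (J.comp (algebraMap K M)) hJ]
  split_ifs with hc
  · apply Units.ext
    show algebraMap _ _ (lgEmb ((q : Nat.Primes) : ℕ) (J.comp (algebraMap K M)) (t : K)) =
      lgEmb ((q : Nat.Primes) : ℕ) J (algebraMap L M (algebraMap K L (t : K)))
    rw [← IsScalarTower.algebraMap_apply K L M, lgEmb_algebraMap]
  · rw [map_one, map_one]

/-- (B) at an embedding above `v₀` the invariant of the localisation of the special cocycle has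
exact order `[L:K]`. -/
theorem h3sx_dvd_of_nsmul_localInv
    (σ : L ≃ₐ[K] L) (hσ : ∀ g : L ≃ₐ[K] L, g ∈ Subgroup.zpowers σ)
    (q₀ : T) (j₀ : L →+* PadicAlgCl ((q₀ : Nat.Primes) : ℕ))
    (hfull : Module.finrank (lgField ((q₀ : Nat.Primes) : ℕ) (j₀.comp (algebraMap K L)))
      (lgField ((q₀ : Nat.Primes) : ℕ) j₀) = Module.finrank K L)
    (hunr : ∀ J : M →+* PadicAlgCl ((q₀ : Nat.Primes) : ℕ),
      lgPlace ((q₀ : Nat.Primes) : ℕ) (J.comp (algebraMap K M)) =
        lgPlace ((q₀ : Nat.Primes) : ℕ) (j₀.comp (algebraMap K L)) →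
      LfUnramified ((q₀ : Nat.Primes) : ℕ)
        (lgField ((q₀ : Nat.Primes) : ℕ) (J.comp (algebraMap K M)))
        (lgField ((q₀ : Nat.Primes) : ℕ) J))
    (t : Kˣ)
    (ht : lfOrd ((q₀ : Nat.Primes) : ℕ) (lgField ((q₀ : Nat.Primes) : ℕ) (j₀.comp (algebraMap K L)))
      (lgEmb ((q₀ : Nat.Primes) : ℕ) (j₀.comp (algebraMap K L)) (t : K)) = 1)
    (α₀ : GlJ T K)
    (hα₀ : ∀ (q : T) (i : K →+* PadicAlgCl ((q : Nat.Primes) : ℕ)),
      lgPlace ((q : Nat.Primes) : ℕ) i =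
        lgPlace ((q₀ : Nat.Primes) : ℕ) (j₀.comp (algebraMap K L)) →
      h3Pr T q i α₀ = Units.map (lgEmb ((q : Nat.Primes) : ℕ) i : K →* _) t)
    (q : T) (J : M →+* PadicAlgCl ((q : Nat.Primes) : ℕ))
    (hJ : lgPlace ((q : Nat.Primes) : ℕ) (J.comp (algebraMap K M)) =
      lgPlace ((q₀ : Nat.Primes) : ℕ) (j₀.comp (algebraMap K L)))
    (m : ℕ)
    (hm : m • localInv ((q : Nat.Primes) : ℕ)
        (lgField ((q : Nat.Primes) : ℕ) (J.comp (algebraMap K M)))
        (lgField ((q : Nat.Primes) : ℕ) J)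
        (h3Loc T q J
          (fun s : (M ≃ₐ[K] M) × (M ≃ₐ[K] M) => (h3Special T K L M σ α₀ s).1)) = 0) :
    Module.finrank K L ∣ m := by
  -- the residue characteristics agree
  have hq : q = q₀ := by
    have h1 := gePrime_lgPlace ((q : Nat.Primes) : ℕ) (J.comp (algebraMap K M))
    have h2 := gePrime_lgPlace ((q₀ : Nat.Primes) : ℕ) (j₀.comp (algebraMap K L))
    rw [hJ] at h1
    exact Subtype.ext (Subtype.ext (h1.symm.trans h2))
  subst hq
  -- extend `j₀` to `M`
  obtain ⟨J₀, hJ₀⟩ := ge_exists_extend ((q : Nat.Primes) : ℕ) (K := L) (L := M) j₀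
  subst hJ₀
  have hcomp : ∀ J' : M →+* PadicAlgCl ((q : Nat.Primes) : ℕ),
      (J'.comp (algebraMap L M)).comp (algebraMap K L) = J'.comp (algebraMap K M) := by
    intro J'
    rw [RingHom.comp_assoc, ← IsScalarTower.algebraMap_eq]
  -- `L/K` is unramified at `j₀`
  have hur₀ : LfUnramified ((q : Nat.Primes) : ℕ)
      (lgField ((q : Nat.Primes) : ℕ) ((J₀.comp (algebraMap L M)).comp (algebraMap K L)))
      (lgField ((q : Nat.Primes) : ℕ) (J₀.comp (algebraMap L M))) := by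
    have h1 : LfUnramified ((q : Nat.Primes) : ℕ)
        (lgField ((q : Nat.Primes) : ℕ) (J₀.comp (algebraMap K M)))
        (lgField ((q : Nat.Primes) : ℕ) J₀) := hunr J₀ (by rw [hcomp])
    unfold LfUnramified at h1 ⊢
    rw [lfRamIdx_lgField (K := K) ((q : Nat.Primes) : ℕ) J₀] at h1
    rw [lfRamIdx_lgField (K := K) ((q : Nat.Primes) : ℕ) (J₀.comp (algebraMap L M))]
    have := lgp_liesOver (K := L) ((q : Nat.Primes) : ℕ) J₀
    have h2 := Ideal.ramificationIdx_below_dvd (R := 𝓞 K)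
      (lgPlace ((q : Nat.Primes) : ℕ) (J₀.comp (algebraMap L M))).asIdeal
      (lgPlace ((q : Nat.Primes) : ℕ) J₀).asIdeal
    rw [h1] at h2
    exact Nat.dvd_one.1 h2
  -- the cyclic cocycle of `L/K`
  have hfix : σ • Units.map (algebraMap K L : K →* L) t = Units.map (algebraMap K L : K →* L) t := by
    apply Units.ext
    exact σ.commutes (t : K)
  have hcL : IsMulCocycle₂ (cycCocycle σ (Units.map (algebraMap K L : K →* L) t)) :=
    cycCocycle_isMulCocycle₂ σ hσ _ hfix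
  rw [h3sx_h3Loc_special_eq T σ q (J₀.comp (algebraMap L M)) t α₀ hα₀ q J hJ] at hm
  change m • geInv ((q : Nat.Primes) : ℕ) J
    (lfBC K L K M (cycCocycle σ (Units.map (algebraMap K L : K →* L) t))) = 0 at hm
  rw [geInv_inflation ((q : Nat.Primes) : ℕ) J hcL,
    geInv_eq_of_lgPlace_eq ((q : Nat.Primes) : ℕ) (J.comp (algebraMap L M))
      (J₀.comp (algebraMap L M)) (by rw [hcomp, hJ]) hcL,
    geInv_cycCocycle_of_unramified ((q : Nat.Primes) : ℕ) σ hσ t (J₀.comp (algebraMap L M)) hur₀,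
    ht, one_mul] at hm
  -- the Frobenius restricts to a generator
  obtain ⟨r, hr1, -, hrinj⟩ := ge_exists_resHomLG (K := K) ((q : Nat.Primes) : ℕ)
    (J₀.comp (algebraMap L M))
  set φ := lfFrob ((q : Nat.Primes) : ℕ)
    (lgField ((q : Nat.Primes) : ℕ) ((J₀.comp (algebraMap L M)).comp (algebraMap K L)))
    (lgField ((q : Nat.Primes) : ℕ) (J₀.comp (algebraMap L M))) with hφ
  rw [← hr1 φ] at hm
  set e := cycExp σ (r φ) with he
  have hn : orderOf σ = Module.finrank K L := by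
    rw [← cyc_card_eq σ hσ, IsGalois.card_aut_eq_finrank]
  have hord : orderOf (r φ) = orderOf σ := by
    rw [orderOf_injective r hrinj, hφ, orderOf_lfFrob _ _ _ hur₀, hfull, hn]
  have hpos : 0 < orderOf σ := orderOf_pos σ
  have hcop : Nat.Coprime (orderOf σ) e := by
    have h1 : σ ^ e = r φ := cycExp_spec σ hσ (r φ)
    rw [← h1, orderOf_pow] at hord
    rcases Nat.div_eq_self.1 hord with h0 | h1
    · omega
    · exact h1
  rw [← AddCircle.coe_nsmul, nsmul_eq_mul] at hm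
  have hm' : ((((m * e : ℕ) : ℤ) : ℚ) / (orderOf σ : ℚ) : AddCircle (1 : ℚ)) = 0 := by
    rw [← hm]
    congr 1
    push_cast
    ring
  rw [lfu_addCircle_div_eq_zero_iff _ _ hpos.ne', Int.natCast_dvd_natCast] at hm'
  rw [← hn]
  exact hcop.dvd_of_dvd_mul_right hm'

end CF3Local

/-! ## bookkeeping for the reciprocity sum (places of `K` along a `GeChoice`) -/

section Kit

variable (T : Finset Nat.Primes) {K M : Type} [Field K] [NumberField K]
  [Field M] [NumberField M] [Algebra K M]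

/-- (E1) a place of `K` not above `T` has residue characteristic outside `T`. -/
theorem h3sx_ne_gePrime_of_not_glAbove (v : HeightOneSpectrum (𝓞 K)) (hv : ¬ GlAbove T K v) :
    ∀ s ∈ T, ((s : Nat.Primes) : ℕ) ≠ gePrime K v := by
  intro s hs hsv
  apply hv
  refine ⟨s, hs, ?_⟩
  rw [hsv]
  exact natCast_gePrime_mem v

/-- transport of an embedding along an equality of primes. -/
theorem h3sx_exists_cast {ℓ : ℕ} [Fact ℓ.Prime] (q : T) (hq : ((q : Nat.Primes) : ℕ) = ℓ)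
    (J : M →+* PadicAlgCl ℓ) :
    ∃ J' : M →+* PadicAlgCl ((q : Nat.Primes) : ℕ),
      lgPlace ((q : Nat.Primes) : ℕ) (J'.comp (algebraMap K M)) =
        lgPlace ℓ (J.comp (algebraMap K M)) ∧
      ∀ c : (M ≃ₐ[K] M) × (M ≃ₐ[K] M) → Mˣ,
        geInv ((q : Nat.Primes) : ℕ) J' c = geInv ℓ J c := by
  subst hq
  exact ⟨J, rfl, fun _ => rfl⟩

/-- (E2) a place of `K` above `T`: the chosen embedding is (up to the identification of the
primes) an embedding at some `q ∈ T`. -/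
theorem h3sx_exists_of_glAbove (𝔧 : GeChoice K M) (v : HeightOneSpectrum (𝓞 K))
    (hv : GlAbove T K v) :
    ∃ (q : T) (J' : M →+* PadicAlgCl ((q : Nat.Primes) : ℕ)),
      lgPlace ((q : Nat.Primes) : ℕ) (J'.comp (algebraMap K M)) = v ∧
      ∀ c : (M ≃ₐ[K] M) × (M ≃ₐ[K] M) → Mˣ,
        geInv ((q : Nat.Primes) : ℕ) J' c = geInv (gePrime K v) (𝔧.emb v) c := by
  obtain ⟨s, hs, hmem⟩ := hv
  have hsv : ((s : Nat.Primes) : ℕ) = gePrime K v :=
    glul_eq_of_mem s.2 (Fact.out : (gePrime K v).Prime) v.asIdeal v.isPrime.ne_top hmem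
      (natCast_gePrime_mem v)
  obtain ⟨J', h1, h2⟩ := h3sx_exists_cast T (K := K) (⟨s, hs⟩ : T) hsv (𝔧.emb v)
  exact ⟨⟨s, hs⟩, J', h1.trans (𝔧.place_eq v), h2⟩

end Kit

end Fermat.Agent.S55
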