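/-
S55 / Global / H3 (CORE-H3 = U1), leaf H3-CF3a: `h3_special_order` — THE ORDER of the special class
in `H²(Gal(M/K), C_T(M))` is divisible by `[L:K]`.

Split of the work (board msgs 1002/1024):
* `Global/H3/SpecialLocal.lean` (helper3, prefix `h3sx_`): the local values of the special cocycle at
  the places above `T`: (A) trivial away from `v₀`, (B) exact order `[L:K]` at `v₀`, (C) the generic
  formula `inv_J x = m • inv (h3Loc a)`, (D) the special cochain is a cocycle.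
* `Global/H3/Outside.lean` (helper4, prefix `h3c1`): local triviality outside `T`.
* THIS FILE (prefix `h3so_`): unpacking of the hypothesis (`h3so_unpack`: lift the `1`-cochain to
  truncated ideles, `a^m / d¹H ∈ glPrinc` gives a `2`-cocycle `x` of `Gal(M/K)` in `Mˣ` and ideals),
  the vanishing of `inv_v x` away from `v₀`, and the reciprocity bookkeeping (`ge_reciprocity`).
-/
import Fermat.Agent.S55.Global.H3.SpecialLocal
import Fermat.Agent.S55.Global.H3.Outside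
import Fermat.Agent.S55.Global.Recip.RecipSpec
import Fermat.Agent.S55.Global.GeInvExtra

set_option autoImplicit false
set_option linter.unusedSectionVars false
set_option linter.unusedVariables false

noncomputable section

namespace Fermat.Agent.S55

open scoped NumberField nonZeroDivisors
open NumberField IsDedekindDomain groupCohomology

section Unpack

variable (T : Finset Nat.Primes) {K M : Type} [Field K] [NumberField K] [Field M] [NumberField M]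
  [Algebra K M]

/-- a commutative group identity. -/
theorem h3so_inv_d1 {X : Type*} [CommGroup X] (a b c : X) : (a / b * c)⁻¹ = a⁻¹ / b⁻¹ * c⁻¹ := by
  rw [div_eq_mul_inv, div_eq_mul_inv, mul_inv, mul_inv]

/-- S1 + S2: unpacking `ā ^ m = d¹ h'` in the class group.  Lift `h'` to truncated ideles `H`; then
`a ^ m / d¹ H` is `glPrinc`-valued: `= diag(x) · (1, y)`, `y` supported above `T`; `x` is a
`2`-cocycle. -/
theorem h3so_unpack (hT : T.Nonempty)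
    (a : (M ≃ₐ[K] M) × (M ≃ₐ[K] M) → GlIdele T M)
    (ha1 : IsMulCocycle₂ (fun s : (M ≃ₐ[K] M) × (M ≃ₐ[K] M) => (a s).1))
    (ha2 : ∀ s, (a s).2 = 1) (m : ℕ)
    (hm : IsMulCoboundary₂ (fun s : (M ≃ₐ[K] M) × (M ≃ₐ[K] M) => glMk T M (a s) ^ m)) :
    ∃ (H₁ : (M ≃ₐ[K] M) → GlJ T M) (x : (M ≃ₐ[K] M) × (M ≃ₐ[K] M) → Mˣ)
      (D : (M ≃ₐ[K] M) → GlI M) (y : (M ≃ₐ[K] M) → (M ≃ₐ[K] M) → GlI M),
      IsMulCocycle₂ x ∧
      (∀ g h : M ≃ₐ[K] M,
        (a (g, h)).1 ^ m = (g • H₁ h / H₁ (g * h) * H₁ g) * glDiagJ T M (x (g, h))) ∧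
      (∀ g h, y g h ∈ glIdealsOn T M) ∧
      (∀ g h, glDiagI M (x (g, h)) * y g h = g • D h / D (g * h) * D g) := by
  obtain ⟨h', hh'⟩ := hm
  choose Hl hHl using fun g => glMk_surjective T (h' g)
  have hmem : ∀ g h : M ≃ₐ[K] M,
      a (g, h) ^ m / (g • Hl h / Hl (g * h) * Hl g) ∈ glPrinc T M := by
    intro g h
    rw [← glMk_eq_one_iff, map_div, map_pow, map_mul, map_div, glMk_smul, hHl, hHl, hHl]
    rw [hh' g h]
    exact div_self' _
  have hex := fun g h => (mem_glPrinc_iff T _).1 (hmem g h)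
  choose x y hy hxy using hex
  have h1 : ∀ g h : M ≃ₐ[K] M, (a (g, h)).1 ^ m =
      (g • (Hl h).1 / (Hl (g * h)).1 * (Hl g).1) * glDiagJ T M (x g h) := by
    intro g h
    have h0 : (a (g, h)).1 ^ m / (g • (Hl h).1 / (Hl (g * h)).1 * (Hl g).1) =
        glDiagJ T M (x g h) * 1 := congrArg Prod.fst (hxy g h)
    rw [mul_one] at h0
    rw [← h0, mul_div_cancel]
  have h2 : ∀ g h : M ≃ₐ[K] M, glDiagI M (x g h) * y g h =
      g • (Hl h).2⁻¹ / (Hl (g * h)).2⁻¹ * (Hl g).2⁻¹ := by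
    intro g h
    have h0 : (a (g, h)).2 ^ m / (g • (Hl h).2 / (Hl (g * h)).2 * (Hl g).2) =
        glDiagI M (x g h) * y g h := congrArg Prod.snd (hxy g h)
    rw [ha2, one_pow, one_div] at h0
    rw [← h0, h3so_inv_d1, smul_inv']
  refine ⟨fun g => (Hl g).1, fun s => x s.1 s.2, fun g => (Hl g).2⁻¹, y, ?_, h1, hy, h2⟩
  -- the cocycle property of `x`
  set c : (M ≃ₐ[K] M) × (M ≃ₐ[K] M) → GlJ T M :=
    (fun s => (a s).1 ^ m) /
      (fun s => s.1 • (Hl s.2).1 / (Hl (s.1 * s.2)).1 * (Hl s.1).1) with hc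
  have hccoc : IsMulCocycle₂ c := by
    refine lbu_coc_div (gei_coc_pow ha1 m) (cohord_coc_of_cob ?_)
    exact ⟨fun g => (Hl g).1, fun g h => rfl⟩
  have hcx : ∀ s : (M ≃ₐ[K] M) × (M ≃ₐ[K] M), glDiagJ T M (x s.1 s.2) = c s := by
    rintro ⟨g, h⟩
    show glDiagJ T M (x g h) =
      (a (g, h)).1 ^ m / (g • (Hl h).1 / (Hl (g * h)).1 * (Hl g).1)
    rw [h1 g h, mul_div_cancel_left]
  intro g h j
  apply glDiagJ_injective T hT
  have := hccoc g h j
  rw [← hcx, ← hcx, ← hcx, ← hcx] at this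
  rw [map_mul, map_mul, ← glDiagJ_smul]
  exact this

end Unpack

section CF3

variable {p : ℕ} [Fact p.Prime] (T : Finset Nat.Primes) {K L M : Type} [Field K] [NumberField K]
  [Field L] [NumberField L] [Field M] [NumberField M] [Algebra K L] [Algebra L M] [Algebra K M]
  [IsScalarTower K L M] [IsGalois K L] [IsGalois K M]

/-- the ideal component of the special cochain is trivial. -/
theorem h3so_special_snd (σ : L ≃ₐ[K] L) (α₀ : GlJ T K) (s : (M ≃ₐ[K] M) × (M ≃ₐ[K] M)) :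
    (h3Special T K L M σ α₀ s).2 = 1 := by
  unfold h3Special pullCochain₂
  rw [cycCocycle_apply]
  split_ifs
  · rw [glExt_snd, glExt_snd, map_one, map_one]
  · rw [map_one]
    rfl

/-- away from `v₀` all local invariants of the unpacked cocycle vanish. -/
theorem h3so_geInv_eq_zero (hurM : GlUnramOutside T K M)
    (σ : L ≃ₐ[K] L) (hσ : ∀ g : L ≃ₐ[K] L, g ∈ Subgroup.zpowers σ)
    (q₀ : T) (j₀ : L →+* PadicAlgCl ((q₀ : Nat.Primes) : ℕ)) (α₀ : GlJ T K)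
    (hα₁ : ∀ (q : T) (i : K →+* PadicAlgCl ((q : Nat.Primes) : ℕ)),
      lgPlace ((q : Nat.Primes) : ℕ) i ≠
        lgPlace ((q₀ : Nat.Primes) : ℕ) (j₀.comp (algebraMap K L)) → h3Pr T q i α₀ = 1)
    (m : ℕ) (H₁ : (M ≃ₐ[K] M) → GlJ T M) (x : (M ≃ₐ[K] M) × (M ≃ₐ[K] M) → Mˣ)
    (D : (M ≃ₐ[K] M) → GlI M) (y : (M ≃ₐ[K] M) → (M ≃ₐ[K] M) → GlI M)
    (hx : IsMulCocycle₂ x)
    (h1 : ∀ g h : M ≃ₐ[K] M, (h3Special T K L M σ α₀ (g, h)).1 ^ m =
      (g • H₁ h / H₁ (g * h) * H₁ g) * glDiagJ T M (x (g, h)))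
    (hy : ∀ g h, y g h ∈ glIdealsOn T M)
    (h2 : ∀ g h, glDiagI M (x (g, h)) * y g h = g • D h / D (g * h) * D g)
    (q : ℕ) [Fact q.Prime] (J : M →+* PadicAlgCl q)
    (hJ : lgPlace q (J.comp (algebraMap K M)) ≠
      lgPlace ((q₀ : Nat.Primes) : ℕ) (j₀.comp (algebraMap K L))) :
    geInv q J x = 0 := by
  by_cases hqT : ∃ s ∈ T, ((s : Nat.Primes) : ℕ) = q
  · obtain ⟨s, hs, rfl⟩ := hqT
    have hC := h3sx_geInv_eq_nsmul T (⟨s, hs⟩ : T) J
      (fun s : (M ≃ₐ[K] M) × (M ≃ₐ[K] M) => (h3Special T K L M σ α₀ s).1)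
      (h3sx_special_fst_isMulCocycle₂ T σ hσ α₀) H₁ x m h1
    have hA := h3sx_h3Loc_special_of_ne T σ q₀ j₀ α₀ hα₁ (⟨s, hs⟩ : T) J hJ
    rw [hC, hA]
    have hgal : IsGalois (lgField ((s : Nat.Primes) : ℕ) (J.comp (algebraMap K M)))
        (lgField ((s : Nat.Primes) : ℕ) J) := lg_isGalois _ J
    rw [(localInv_eq_zero_iff _ _ _ gei_coc_one).2 gei_cob_one, smul_zero]
  · have hq : ∀ s ∈ T, ((s : Nat.Primes) : ℕ) ≠ q := fun s hs h => hqT ⟨s, hs, h⟩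
    exact (geInv_eq_zero_iff q J hx).2 (h3c1_loc_outside T hurM q hq J x hx D y hy h2)

/-- CF3a: THE ORDER of the special class in `H²(Gal(M/K), C_T(M))` is divisible by `[L:K]`. -/
theorem h3_special_order (hp2 : p ≠ 2) (hζ : ∃ ζ : K, IsPrimitiveRoot ζ p) {k : ℕ}
    (hdegM : Module.finrank K M = p ^ k) (hurM : GlUnramOutside T K M)
    (σ : L ≃ₐ[K] L) (hσ : ∀ g : L ≃ₐ[K] L, g ∈ Subgroup.zpowers σ)
    (q₀ : T) (j₀ : L →+* PadicAlgCl ((q₀ : Nat.Primes) : ℕ))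
    (hfull : Module.finrank (lgField ((q₀ : Nat.Primes) : ℕ) (j₀.comp (algebraMap K L)))
      (lgField ((q₀ : Nat.Primes) : ℕ) j₀) = Module.finrank K L)
    (hunr : ∀ J : M →+* PadicAlgCl ((q₀ : Nat.Primes) : ℕ),
      lgPlace ((q₀ : Nat.Primes) : ℕ) (J.comp (algebraMap K M)) =
        lgPlace ((q₀ : Nat.Primes) : ℕ) (j₀.comp (algebraMap K L)) →
      LfUnramified ((q₀ : Nat.Primes) : ℕ)
        (lgField ((q₀ : Nat.Primes) : ℕ) (J.comp (algebraMap K M)))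
        (lgField ((q₀ : Nat.Primes) : ℕ) J))
    (t : Kˣ)
    (ht : lfOrd ((q₀ : Nat.Primes) : ℕ) (lgField ((q₀ : Nat.Primes) : ℕ) (j₀.comp (algebraMap K L)))
      (lgEmb ((q₀ : Nat.Primes) : ℕ) (j₀.comp (algebraMap K L)) (t : K)) = 1)
    (α₀ : GlJ T K)
    (hα₀ : ∀ (q : T) (i : K →+* PadicAlgCl ((q : Nat.Primes) : ℕ)),
      lgPlace ((q : Nat.Primes) : ℕ) i =
        lgPlace ((q₀ : Nat.Primes) : ℕ) (j₀.comp (algebraMap K L)) →
      h3Pr T q i α₀ = Units.map (lgEmb ((q : Nat.Primes) : ℕ) i : K →* _) t)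
    (hα₁ : ∀ (q : T) (i : K →+* PadicAlgCl ((q : Nat.Primes) : ℕ)),
      lgPlace ((q : Nat.Primes) : ℕ) i ≠
        lgPlace ((q₀ : Nat.Primes) : ℕ) (j₀.comp (algebraMap K L)) → h3Pr T q i α₀ = 1)
    (m : ℕ)
    (hm : IsMulCoboundary₂ (fun s : (M ≃ₐ[K] M) × (M ≃ₐ[K] M) =>
      glMk T M (h3Special T K L M σ α₀ s) ^ m)) :
    Module.finrank K L ∣ m := by
  classical
  have hT : T.Nonempty := ⟨(q₀ : Nat.Primes), q₀.2⟩
  -- S1, S2: unpack the hypothesis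
  obtain ⟨H₁, x, D, y, hx, h1, hy, h2⟩ := h3so_unpack T hT (h3Special T K L M σ α₀)
    (h3sx_special_fst_isMulCocycle₂ T σ hσ α₀) (h3so_special_snd T σ α₀) m hm
  -- reciprocity
  obtain ⟨ζ, hζ'⟩ := hζ
  obtain ⟨𝔧⟩ := geChoice_nonempty (K := K) (L := M)
  have hsum := (ge_reciprocity hp2 hdegM hζ' x hx 𝔧).2
  set v₀ : HeightOneSpectrum (𝓞 K) :=
    lgPlace ((q₀ : Nat.Primes) : ℕ) (j₀.comp (algebraMap K L)) with hv₀
  rw [finsum_eq_single _ v₀ (fun v hv => h3so_geInv_eq_zero T hurM σ hσ q₀ j₀ α₀ hα₁ m H₁ x D y hx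
    h1 hy h2 (gePrime K v) (𝔧.emb v) (by rw [𝔧.place_eq v]; exact hv))] at hsum
  -- an embedding of `M` above `j₀`
  obtain ⟨J, hJ⟩ := ge_exists_extend (K := L) (L := M) ((q₀ : Nat.Primes) : ℕ) j₀
  have hJK : J.comp (algebraMap K M) = j₀.comp (algebraMap K L) := by
    rw [← hJ, RingHom.comp_assoc, ← IsScalarTower.algebraMap_eq]
  have hpl : lgPlace ((q₀ : Nat.Primes) : ℕ) (J.comp (algebraMap K M)) = v₀ := by rw [hJK]
  have hch := geInv_eq_choice ((q₀ : Nat.Primes) : ℕ) 𝔧 J hx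
  rw [hpl, hsum] at hch
  have hC := h3sx_geInv_eq_nsmul T q₀ J
    (fun s : (M ≃ₐ[K] M) × (M ≃ₐ[K] M) => (h3Special T K L M σ α₀ s).1)
    (h3sx_special_fst_isMulCocycle₂ T σ hσ α₀) H₁ x m h1
  rw [hch] at hC
  exact h3sx_dvd_of_nsmul_localInv T σ hσ q₀ j₀ hfull hunr t ht α₀ hα₀ q₀ J hpl m hC.symm

end CF3

end Fermat.Agent.S55
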