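/-
S55 / Global / H3, leaf H3-CF3b (`Global/H3/SpecialRes.lean`): the restriction of the special class
to `Gal(M/F)` is trivial in `H²(Gal(M/F), C_T(M))` (`h3_special_res`, VERBATIM from `ClassSpec`).

Black boxes: the imports of `ClassSpec` (`FieldSpec`, `SemiLocalSpec`), helper6's `RealiseSpec`
(T4 `ge_realise` and the local dictionary `LocLGSpec`, `LocCycSpec`, `NormOpenSpec`, `SupportSpec`),
helper4's `RecipSylow` (`gers_*`: invariants of a restriction, sum of the local degrees) and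
helper7's `UnramLoc` (`GlUnramOutside` in local terms).  Helper names are prefixed `h3sr_`.
-/
import Fermat.Agent.S55.Global.H3.IdealDSpec
import Fermat.Agent.S55.Global.H3.IdealCSpec
import Fermat.Agent.S55.Global.H3.ClassDefs
import Fermat.Agent.S55.Global.H3.SemiLocalCohSpec
import Fermat.Agent.S55.Global.H3.FieldSpec
import Fermat.Agent.S55.Global.H3.TransSpec
import Fermat.Agent.S55.Global.Recip.RealiseSpec
import Fermat.Agent.S55.Global.Recip.RecipSylow
import Fermat.Agent.S55.Global.UnramLoc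

set_option autoImplicit false
set_option linter.unusedSectionVars false
set_option linter.unusedVariables false

noncomputable section

namespace Fermat.Agent.S55

open scoped NumberField nonZeroDivisors
open NumberField IsDedekindDomain groupCohomology

/-! ## Generalities on cyclic groups -/

section General

variable {H Y : Type} [Group H] [Fintype H] [CommMonoid Y]

/-- A product over the powers of a generator is a product over the group. -/
theorem h3sr_prod_range_orderOf (τ : H) (hτ : ∀ h : H, h ∈ Subgroup.zpowers τ) (f : H → Y) :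
    ∏ i ∈ Finset.range (orderOf τ), f (τ ^ i) = ∏ h : H, f h := by
  refine Finset.prod_bij (fun i _ => τ ^ i) (fun _ _ => Finset.mem_univ _) ?_ ?_ (fun _ _ => rfl)
  · intro i hi k hk h
    exact pow_injOn_Iio_orderOf (Finset.mem_range.mp hi) (Finset.mem_range.mp hk) h
  · intro h _
    obtain ⟨k, hk⟩ := cyc_exists_pow τ hτ h
    refine ⟨k % orderOf τ, Finset.mem_range.mpr (Nat.mod_lt _ (orderOf_pos τ)), ?_⟩
    rw [pow_mod_orderOf, hk]

end General

/-! ## Transport from `ker (Gal(M/K) → Gal(F/K))` to `Gal(M/F)` -/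

section Transport

variable (T : Finset Nat.Primes) {K M F : Type} [Field K] [NumberField K] [Field M] [NumberField M]
  [Field F] [NumberField F] [Algebra K M] [Algebra K F] [Algebra F M] [IsScalarTower K F M]
  [IsGalois K F]

theorem h3sr_transport (c : (M ≃ₐ[K] M) × (M ≃ₐ[K] M) → GlC T M)
    (h : IsMulCoboundary₂ (fun p : (M ≃ₐ[F] M) × (M ≃ₐ[F] M) =>
      c (h3ResScalars (K := K) M F p.1, h3ResScalars (K := K) M F p.2))) :
    IsMulCoboundary₂ (fun s : (AlgEquiv.restrictNormalHom F : (M ≃ₐ[K] M) →* (F ≃ₐ[K] F)).ker ×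
        (AlgEquiv.restrictNormalHom F : (M ≃ₐ[K] M) →* (F ≃ₐ[K] F)).ker =>
      c ((s.1 : M ≃ₐ[K] M), (s.2 : M ≃ₐ[K] M))) := by
  obtain ⟨e, he⟩ := h3_exists_fixEquiv (K := K) M F
  have hker := h3Fix_eq_ker (K := K) M F
  let e' : (AlgEquiv.restrictNormalHom F : (M ≃ₐ[K] M) →* (F ≃ₐ[K] F)).ker ≃* (M ≃ₐ[F] M) :=
    (MulEquiv.subgroupCongr hker.symm).trans e.symm
  have he' : ∀ n : (AlgEquiv.restrictNormalHom F : (M ≃ₐ[K] M) →* (F ≃ₐ[K] F)).ker,
      h3ResScalars (K := K) M F (e' n) = (n : M ≃ₐ[K] M) := by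
    intro n
    rw [← he]
    show ((e (e.symm (MulEquiv.subgroupCongr hker.symm n)) : h3Fix (K := K) M F) : M ≃ₐ[K] M) = _
    rw [MulEquiv.apply_symm_apply]
    rfl
  have h1 := h3_transport_cob₂ e' (fun n x => by
    rw [← h3ResScalars_smul_glC (K := K) T M F (e' n) x, he' n]
    rfl) _ h
  have h2 : (fun p : (AlgEquiv.restrictNormalHom F : (M ≃ₐ[K] M) →* (F ≃ₐ[K] F)).ker ×
        (AlgEquiv.restrictNormalHom F : (M ≃ₐ[K] M) →* (F ≃ₐ[K] F)).ker =>
      c (h3ResScalars (K := K) M F (e' p.1), h3ResScalars (K := K) M F (e' p.2))) =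
      fun s => c ((s.1 : M ≃ₐ[K] M), (s.2 : M ≃ₐ[K] M)) := by
    funext s
    rw [he', he']
  rw [← h2]
  exact h1

end Transport

/-! ## Local components of extended ideles and of cyclic cocycles -/

section Local

variable (T : Finset Nat.Primes) {K F M : Type} [Field K] [NumberField K] [Field F] [NumberField F]
  [Field M] [NumberField M] [Algebra K F] [Algebra F M]

/-- the projection of a doubly extended idele whose component below is principal. -/
theorem h3sr_h3Pr_ext_of_eq (q : T) (J : M →+* PadicAlgCl ((q : Nat.Primes) : ℕ)) (x : GlJ T K)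
    (t : Kˣ)
    (h : h3Pr T q ((J.comp (algebraMap F M)).comp (algebraMap K F)) x =
      Units.map (lgEmb ((q : Nat.Primes) : ℕ) ((J.comp (algebraMap F M)).comp (algebraMap K F)) :
        K →* _) t) :
    h3Pr T q J (glExtJ T F M (glExtJ T K F x)) =
      Units.map (lgEmb ((q : Nat.Primes) : ℕ) J : M →* _)
        (Units.map (algebraMap F M : F →* M) (Units.map (algebraMap K F : K →* F) t)) := by
  rw [h3Pr_glExtJ, h3Pr_glExtJ, h]
  apply Units.ext
  simp only [Units.coe_map, MonoidHom.coe_coe]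
  rw [lgEmb_algebraMap, lgEmb_algebraMap]

theorem h3sr_h3Pr_ext_of_eq_one (q : T) (J : M →+* PadicAlgCl ((q : Nat.Primes) : ℕ))
    (x : GlJ T K)
    (h : h3Pr T q ((J.comp (algebraMap F M)).comp (algebraMap K F)) x = 1) :
    h3Pr T q J (glExtJ T F M (glExtJ T K F x)) = 1 := by
  rw [h3Pr_glExtJ, h3Pr_glExtJ, h, map_one, map_one]

/-- The localisation of a cyclic idele cocycle whose parameter is locally principal. -/
theorem h3sr_h3Loc_cycCocycle (q : T) (J : M →+* PadicAlgCl ((q : Nat.Primes) : ℕ))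
    (τ : M ≃ₐ[F] M) (A : GlJ T M) (B : Mˣ)
    (h : h3Pr T q J A = Units.map (lgEmb ((q : Nat.Primes) : ℕ) J : M →* _) B) :
    h3Loc (K := F) T q J (cycCocycle τ A) =
      geLocLG (K := F) ((q : Nat.Primes) : ℕ) J (cycCocycle τ B) := by
  funext s
  simp only [h3Loc, geLocLG, geLoc, pullCochain₂, cycCocycle]
  split_ifs
  · exact h
  · rw [map_one, map_one]

theorem h3sr_smul_units_map (τ : M ≃ₐ[F] M) (y : Fˣ) :
    τ • Units.map (algebraMap F M : F →* M) y = Units.map (algebraMap F M : F →* M) y := by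
  apply Units.ext
  change τ (algebraMap F M (y : F)) = algebraMap F M (y : F)
  exact τ.commutes _

theorem h3sr_cyc_isMulCocycle₂ (τ : M ≃ₐ[F] M) (hτ : ∀ g : M ≃ₐ[F] M, g ∈ Subgroup.zpowers τ)
    (y : Fˣ) : IsMulCocycle₂ (cycCocycle τ (Units.map (algebraMap F M : F →* M) y)) :=
  cycCocycle_isMulCocycle₂ τ hτ _ (h3sr_smul_units_map τ y)

/-- At an unramified embedding, if the invariant of `cyc(τ, y)` vanishes then the residue degrees
above the place divide the order of `y`. -/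
theorem h3sr_inertiaDeg_dvd_divOf [IsGalois F M] (τ : M ≃ₐ[F] M)
    (hτ : ∀ g : M ≃ₐ[F] M, g ∈ Subgroup.zpowers τ) (y : Fˣ) (q : ℕ) [Fact q.Prime]
    (J : M →+* PadicAlgCl q)
    (hur : LfUnramified q (lgField q (J.comp (algebraMap F M))) (lgField q J))
    (h0 : geInv (K := F) q J (cycCocycle τ (Units.map (algebraMap F M : F →* M) y)) = 0)
    (w : HeightOneSpectrum (𝓞 M))
    (hw : w.asIdeal.LiesOver (lgPlace q (J.comp (algebraMap F M))).asIdeal) :
    ((w.asIdeal.inertiaDeg (𝓞 F) : ℕ) : ℤ) ∣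
      S14.divOf F (y : F) (lgPlace q (J.comp (algebraMap F M))) := by
  have hc := h3sr_cyc_isMulCocycle₂ τ hτ y
  have h1 := (geInv_eq_zero_iff q J hc).mp h0
  have h2 := (geLocLG_cycCocycle_isMulCoboundary₂_iff q τ hτ y J).mp h1
  have h3 := (geLocalNormAt_iff_of_unramified q J hur y).mp h2
  rw [lfOrd_lgEmb_eq_divOf] at h3
  have hfin : Module.finrank (lgField q (J.comp (algebraMap F M))) (lgField q J) =
      (lgPlace q J).asIdeal.inertiaDeg (𝓞 F) := by
    have h4 := lfRamIdx_mul_lfInertiaDeg q (lgField q (J.comp (algebraMap F M))) (lgField q J)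
    have h5 : lfRamIdx q (lgField q (J.comp (algebraMap F M))) (lgField q J) = 1 := hur
    rw [h5, one_mul, lfInertiaDeg_lgField] at h4
    exact h4.symm
  have hlies : (lgPlace q J).asIdeal.LiesOver (lgPlace q (J.comp (algebraMap F M))).asIdeal :=
    ⟨(lgPlace_under q J).symm⟩
  have hdeg : w.asIdeal.inertiaDeg (𝓞 F) = (lgPlace q J).asIdeal.inertiaDeg (𝓞 F) :=
    Ideal.inertiaDeg_eq_of_isGaloisGroup (lgPlace q (J.comp (algebraMap F M))).asIdeal
      w.asIdeal (lgPlace q J).asIdeal (M ≃ₐ[F] M)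
  rw [hdeg, ← hfin]
  exact h3

end Local

/-! ## Realisation of prescribed invariants on a finite set of places -/

section Realise

variable {F M : Type} [Field F] [NumberField F] [Field M] [NumberField M] [Algebra F M]

theorem h3sr_finrank_nsmul_geInv [IsGalois F M] (q : ℕ) [Fact q.Prime] (J : M →+* PadicAlgCl q)
    {c : (M ≃ₐ[F] M) × (M ≃ₐ[F] M) → Mˣ} (hc : IsMulCocycle₂ c) :
    Module.finrank (lgField q (J.comp (algebraMap F M))) (lgField q J) • geInv (K := F) q J c =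
      0 := by
  have := lg_isGalois q (K := F) J
  exact localInv_nsmul q _ _ (geLocLG_isMulCocycle₂ q J c hc)

open Classical in
theorem h3sr_exists_realise {p : ℕ} [Fact p.Prime] (hp2 : p ≠ 2) [IsGalois F M] {k : ℕ}
    (hdeg : Module.finrank F M = p ^ k) {ζ : F} (hζ : IsPrimitiveRoot ζ p) (τ : M ≃ₐ[F] M)
    (hτ : ∀ g : M ≃ₐ[F] M, g ∈ Subgroup.zpowers τ) (𝔧 : GeChoice F M)
    (U : Finset (HeightOneSpectrum (𝓞 F))) (b : Fˣ)
    (hsum : ∑ u ∈ U, geInv (gePrime F u) (𝔧.emb u)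
      (cycCocycle τ (Units.map (algebraMap F M : F →* M) b)) = 0) :
    ∃ y : Fˣ, ∀ u : HeightOneSpectrum (𝓞 F),
      geInv (gePrime F u) (𝔧.emb u) (cycCocycle τ (Units.map (algebraMap F M : F →* M) y)) =
        if u ∈ U then geInv (gePrime F u) (𝔧.emb u)
          (cycCocycle τ (Units.map (algebraMap F M : F →* M) b)) else 0 := by
  set r : HeightOneSpectrum (𝓞 F) → AddCircle (1 : ℚ) := fun u =>
    if u ∈ U then geInv (gePrime F u) (𝔧.emb u)
      (cycCocycle τ (Units.map (algebraMap F M : F →* M) b)) else 0 with hr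
  have hsupp : Function.support r ⊆ (U : Set (HeightOneSpectrum (𝓞 F))) := by
    intro u hu
    by_contra hnot
    apply hu
    simp only [hr]
    rw [if_neg (by simpa using hnot)]
  have hfin : (Function.support r).Finite := (Finset.finite_toSet U).subset hsupp
  have hloc : ∀ u, Module.finrank (lgField (gePrime F u) ((𝔧.emb u).comp (algebraMap F M)))
      (lgField (gePrime F u) (𝔧.emb u)) • r u = 0 := by
    intro u
    simp only [hr]
    split_ifs
    · exact h3sr_finrank_nsmul_geInv (gePrime F u) (𝔧.emb u) (h3sr_cyc_isMulCocycle₂ τ hτ b)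
    · exact smul_zero _
  have hsum' : ∑ᶠ u, r u = 0 := by
    rw [finsum_eq_sum_of_support_subset r hsupp, ← hsum]
    exact Finset.sum_congr rfl fun u hu => by simp only [hr]; rw [if_pos hu]
  exact ge_realise hp2 hdeg hζ τ hτ 𝔧 r hfin hloc hsum'

end Realise

/-! ## The invariants above `v₀` of the restricted special cocycle sum to zero -/

section Sum

variable {K L F M : Type} [Field K] [NumberField K] [Field L] [NumberField L] [Field F]
  [NumberField F] [Field M] [NumberField M] [Algebra K L] [Algebra L M] [Algebra K M]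
  [IsScalarTower K L M] [IsGalois K L] [IsGalois K M] [Algebra K F] [Algebra F M]
  [IsScalarTower K F M]

theorem h3sr_lfGalRes_lfGalRes (s : M ≃ₐ[F] M) :
    lfGalRes K L K M (lfGalRes K M F M s) = lfGalRes K L F M s := by
  apply AlgEquiv.ext
  intro x
  apply (algebraMap L M).injective
  rw [lfGalRes_commutes K L K M, lfGalRes_commutes K L F M]
  have h := lfGalRes_commutes K M F M s (algebraMap L M x)
  simpa using h

/-- restriction to `F` of the inflation to `M` is the base change along the square. -/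
theorem h3sr_lfBC_lfBC (c : (L ≃ₐ[K] L) × (L ≃ₐ[K] L) → Lˣ) :
    lfBC K M F M (lfBC K L K M c) = lfBC K L F M c := by
  funext s
  obtain ⟨s, s'⟩ := s
  rw [lfBC_apply, lfBC_apply, lfBC_apply, h3sr_lfGalRes_lfGalRes, h3sr_lfGalRes_lfGalRes]
  apply Units.ext
  simp

theorem h3sr_sum_geInv_eq_zero (hFL : Module.finrank K F = Module.finrank K L)
    (σ : L ≃ₐ[K] L) (hσ : ∀ g : L ≃ₐ[K] L, g ∈ Subgroup.zpowers σ) (τ : M ≃ₐ[F] M)
    (hτ : ∀ g : M ≃ₐ[F] M, g ∈ Subgroup.zpowers τ) (d : ℕ) (hd : lfGalRes K L F M τ = σ ^ d)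
    (t : Kˣ) (𝔧 : GeChoice F M) (v₀ : HeightOneSpectrum (𝓞 K)) :
    ∑ u ∈ (gers_fiber_finite K (K' := F) v₀).toFinset, geInv (gePrime F u) (𝔧.emb u)
      (cycCocycle τ (Units.map (algebraMap F M : F →* M)
        ((Units.map (algebraMap K F : K →* F) t) ^
          (d * Nat.card (M ≃ₐ[F] M) / Nat.card (L ≃ₐ[K] L))))) = 0 := by
  have : IsGalois F M := IsGalois.tower_top_of_isGalois K F M
  obtain ⟨𝔧K⟩ := geChoice_nonempty K M
  set e : ℕ := d * Nat.card (M ≃ₐ[F] M) / Nat.card (L ≃ₐ[K] L) with he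
  set tL : Lˣ := Units.map (algebraMap K L : K →* L) t with htL
  have hσt : σ • tL = tL := h3sr_smul_units_map σ t
  have hcL : IsMulCocycle₂ (cycCocycle σ tL) := cycCocycle_isMulCocycle₂ σ hσ _ hσt
  have hcK : IsMulCocycle₂ (lfBC K L K M (cycCocycle σ tL)) := lbu_lfBC_cocycle K L K M _ hcL
  have hcF : IsMulCocycle₂ (lfBC K L F M (cycCocycle σ tL)) := lbu_lfBC_cocycle K L F M _ hcL
  have hpull := pullCochain₂_cycCocycle (lfGalRes K L F M) (Units.map (algebraMap L M : L →* M))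
    (lbu_equivariant K L F M) σ hσ τ hτ d hd tL hσt
  have hb : Units.map (algebraMap L M : L →* M) tL ^ e =
      Units.map (algebraMap F M : F →* M) ((Units.map (algebraMap K F : K →* F) t) ^ e) := by
    apply Units.ext
    simp only [htL, Units.val_pow_eq_pow_val, Units.coe_map, MonoidHom.coe_coe, map_pow]
    rw [← IsScalarTower.algebraMap_apply K L M, ← IsScalarTower.algebraMap_apply K F M]
  rw [hb] at hpull
  set C : AddCircle (1 : ℚ) := geInv (gePrime K v₀) (𝔧K.emb v₀) (lfBC K L K M (cycCocycle σ tL))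
    with hC
  have hterm : ∀ u ∈ (gers_fiber_finite K (K' := F) v₀).toFinset,
      geInv (gePrime F u) (𝔧.emb u) (cycCocycle τ (Units.map (algebraMap F M : F →* M)
        ((Units.map (algebraMap K F : K →* F) t) ^ e))) = gersDeg K u • C := by
    intro u hu
    have huv : gersBelow K u = v₀ := by
      have := (Set.Finite.mem_toFinset _).mp hu
      exact this
    have h1 := geInv_eq_of_isMulCoboundary₂_div (gePrime F u) (𝔧.emb u) hcF
      (h3sr_cyc_isMulCocycle₂ τ hτ _) hpull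
    have h2 := gers_geInv_restriction_choice hcK 𝔧K 𝔧 u
    rw [h3sr_lfBC_lfBC] at h2
    rw [← h1]
    refine h2.trans ?_
    rw [hC]
    exact congrArg (fun v => gersDeg K u •
      geInv (gePrime K v) (𝔧K.emb v) (lfBC K L K M (cycCocycle σ tL))) huv
  rw [Finset.sum_congr rfl hterm, ← Finset.sum_smul, gers_sum_deg K v₀, hFL, hC,
    geInv_inflation (gePrime K v₀) (𝔧K.emb v₀) hcL]
  exact geInv_nsmul (gePrime K v₀) _ hcL

end Sum

/-! ## The two halves of the norm equation -/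

section Halves

variable (T : Finset Nat.Primes) {K F M : Type} [Field K] [NumberField K] [Field F] [NumberField F]
  [Field M] [NumberField M] [Algebra K F] [Algebra F M]

theorem h3sr_cycCocycle_one {G X : Type} [Group G] [CommGroup X] (τ : G) :
    cycCocycle τ (1 : X) = 1 := by
  funext s
  simp [cycCocycle]

theorem h3sr_geInv_cyc_div [IsGalois F M] (τ : M ≃ₐ[F] M)
    (hτ : ∀ g : M ≃ₐ[F] M, g ∈ Subgroup.zpowers τ) (q : ℕ) [Fact q.Prime]
    (J : M →+* PadicAlgCl q) (c y : Fˣ) :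
    geInv (K := F) q J (cycCocycle τ (Units.map (algebraMap F M : F →* M) (c / y))) =
      geInv (K := F) q J (cycCocycle τ (Units.map (algebraMap F M : F →* M) c)) -
        geInv (K := F) q J (cycCocycle τ (Units.map (algebraMap F M : F →* M) y)) := by
  have h := geInv_mul q J (h3sr_cyc_isMulCocycle₂ τ hτ (c / y)) (h3sr_cyc_isMulCocycle₂ τ hτ y)
  rw [← cycCocycle_mul, ← map_mul, div_mul_cancel] at h
  rw [h, add_sub_cancel_right]

theorem h3sr_geInv_cyc_one [IsGalois F M] (τ : M ≃ₐ[F] M) (q : ℕ) [Fact q.Prime]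
    (J : M →+* PadicAlgCl q) :
    geInv (K := F) q J (cycCocycle τ (Units.map (algebraMap F M : F →* M) 1)) = 0 := by
  rw [map_one, h3sr_cycCocycle_one]
  exact gers_geInv_one q J

/-- Local triviality of the cyclic idele cocycle at an embedding where its parameter is the
principal element `c / y` and the invariants of `cyc(τ,c)` and `cyc(τ,y)` agree. -/
theorem h3sr_loc_cob [IsGalois F M] (τ : M ≃ₐ[F] M)
    (hτ : ∀ g : M ≃ₐ[F] M, g ∈ Subgroup.zpowers τ) (q : T)
    (J : M →+* PadicAlgCl ((q : Nat.Primes) : ℕ)) (A : GlJ T M) (c y : Fˣ)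
    (hA : h3Pr T q J A = Units.map (lgEmb ((q : Nat.Primes) : ℕ) J : M →* _)
      (Units.map (algebraMap F M : F →* M) (c / y)))
    (hinv : geInv (K := F) ((q : Nat.Primes) : ℕ) J
        (cycCocycle τ (Units.map (algebraMap F M : F →* M) c)) =
      geInv (K := F) ((q : Nat.Primes) : ℕ) J
        (cycCocycle τ (Units.map (algebraMap F M : F →* M) y))) :
    IsMulCoboundary₂ (h3Loc (K := F) T q J (cycCocycle τ A)) := by
  rw [h3sr_h3Loc_cycCocycle T q J τ A _ hA]
  apply (geInv_eq_zero_iff ((q : Nat.Primes) : ℕ) J (h3sr_cyc_isMulCocycle₂ τ hτ _)).mp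
  rw [h3sr_geInv_cyc_div τ hτ, hinv, sub_self]

/-- The `J`-half: a fixed idele whose cyclic cocycle is locally trivial is a norm. -/
theorem h3sr_exists_J [IsGalois F M] (τ : M ≃ₐ[F] M)
    (hτ : ∀ g : M ≃ₐ[F] M, g ∈ Subgroup.zpowers τ) (A : GlJ T M) (hfix : τ • A = A)
    (hloc : ∀ (q : T) (J : M →+* PadicAlgCl ((q : Nat.Primes) : ℕ)),
      IsMulCoboundary₂ (h3Loc (K := F) T q J (cycCocycle τ A))) :
    ∃ X : GlJ T M, cycNorm τ X = A :=
  (cycCocycle_isMulCoboundary₂_iff τ hτ A hfix).mp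
    (h3_sl2 T _ (cycCocycle_isMulCocycle₂ τ hτ A hfix) hloc)

theorem h3sr_count_div (v : HeightOneSpectrum (𝓞 F)) (a b : GlI F) :
    FractionalIdeal.count F v ((a / b : GlI F) : FractionalIdeal (𝓞 F)⁰ F) =
      FractionalIdeal.count F v (a : FractionalIdeal (𝓞 F)⁰ F) -
        FractionalIdeal.count F v (b : FractionalIdeal (𝓞 F)⁰ F) := by
  have h : ((b⁻¹ : (FractionalIdeal (𝓞 F)⁰ F)ˣ) : FractionalIdeal (𝓞 F)⁰ F) =
      ((b : (FractionalIdeal (𝓞 F)⁰ F)ˣ) : FractionalIdeal (𝓞 F)⁰ F)⁻¹ := by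
    rw [eq_comm, inv_eq_iff_eq_inv, ← Units.val_inv_eq_inv_val]; simp
  rw [div_eq_mul_inv, Units.val_mul,
    FractionalIdeal.count_mul F v (Units.ne_zero a) (Units.ne_zero b⁻¹), h,
    FractionalIdeal.count_inv, sub_eq_add_neg]

theorem h3sr_count_glDiagI (v : HeightOneSpectrum (𝓞 F)) (y : Fˣ) :
    FractionalIdeal.count F v ((glDiagI F y : GlI F) : FractionalIdeal (𝓞 F)⁰ F) =
      S14.divOf F (y : F) v := by
  rw [S14.divOf_apply]
  unfold glDiagI
  rw [coe_toPrincipalIdeal]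

/-- The ideal half: if the invariants of `cyc(τ, y)` vanish outside `T`, the part of `(y)` prime to
`T` becomes a norm in `M`. -/
theorem h3sr_exists_ideal [IsGalois K F] [IsGalois F M] (hurFM : GlUnramOutside T F M)
    (τ : M ≃ₐ[F] M) (hτ : ∀ g : M ≃ₐ[F] M, g ∈ Subgroup.zpowers τ) (𝔧 : GeChoice F M) (y : Fˣ)
    (h0 : ∀ u : HeightOneSpectrum (𝓞 F), ¬ GlAbove T F u →
      geInv (gePrime F u) (𝔧.emb u)
        (cycCocycle τ (Units.map (algebraMap F M : F →* M) y)) = 0) :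
    ∃ (I_T : GlI F) (𝔄 : GlI M), I_T ∈ glIdealsOn T F ∧
      glExtI F M (glDiagI F y / I_T) = ∏ σ : M ≃ₐ[F] M, σ • 𝔄 := by
  obtain ⟨eT, heT1, -, -, heT4⟩ := glI_exists_split T (E := K) (M := F)
  have hI : ∀ v : HeightOneSpectrum (𝓞 F), GlAbove T F v →
      FractionalIdeal.count F v ((glDiagI F y / eT (glDiagI F y) : GlI F) :
        FractionalIdeal (𝓞 F)⁰ F) = 0 := fun v hv => heT4 _ v hv
  have hdiv : ∀ (v : HeightOneSpectrum (𝓞 F)) (w : HeightOneSpectrum (𝓞 M)),
      w.asIdeal.LiesOver v.asIdeal →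
      ((w.asIdeal.inertiaDeg (𝓞 F) : ℕ) : ℤ) ∣
        FractionalIdeal.count F v ((glDiagI F y / eT (glDiagI F y) : GlI F) :
          FractionalIdeal (𝓞 F)⁰ F) := by
    intro v w hw
    by_cases hv : GlAbove T F v
    · rw [hI v hv]
      exact dvd_zero _
    · rw [h3sr_count_div, heT1 (glDiagI F y) v hv, sub_zero, h3sr_count_glDiagI]
      have hqT : ∀ s ∈ T, ((s : Nat.Primes) : ℕ) ≠ gePrime F v := by
        intro s hs hsq
        apply hv
        refine ⟨s, hs, ?_⟩
        rw [hsq]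
        exact natCast_gePrime_mem v
      have hur := gl_lfUnramified_of_unramOutside T hurFM (gePrime F v) hqT (𝔧.emb v)
      have hpl := 𝔧.place_eq v
      have hw' : w.asIdeal.LiesOver
          (lgPlace (gePrime F v) ((𝔧.emb v).comp (algebraMap F M))).asIdeal := by
        rw [hpl]; exact hw
      have h1 := h3sr_inertiaDeg_dvd_divOf τ hτ y (gePrime F v) (𝔧.emb v) hur (h0 v hv) w hw'
      rwa [hpl] at h1
  obtain ⟨𝔄, h𝔄⟩ := glExtI_exists_norm T (E := F) (M := M) hurFM _ hI hdiv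
  exact ⟨eT (glDiagI F y), 𝔄, heT1 _, h𝔄⟩

end Halves

/-! ## H3-CF3b : the restriction of the special class -/

section CF3b

variable {p : ℕ} [Fact p.Prime] (T : Finset Nat.Primes) {K L M : Type} [Field K] [NumberField K]
  [Field L] [NumberField L] [Field M] [NumberField M] [Algebra K L] [Algebra L M] [Algebra K M]
  [IsScalarTower K L M] [IsGalois K L] [IsGalois K M]

variable {F : Type} [Field F] [NumberField F] [Algebra K F] [Algebra F M] [IsScalarTower K F M]
  [IsGalois K F]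

/-- The norm equation in `C_T(M)`: the class of the extension of `(α₀, 1)^e` is a norm from
`C_T(M)` for the cyclic group `Gal(M/F) = ⟨τ⟩`. -/
theorem h3sr_norm_equation (hp2 : p ≠ 2) (hζ : ∃ ζ : K, IsPrimitiveRoot ζ p) {k : ℕ}
    (hdegM : Module.finrank K M = p ^ k) (hurM : GlUnramOutside T K M)
    (hFL : Module.finrank K F = Module.finrank K L)
    (σ : L ≃ₐ[K] L) (hσ : ∀ g : L ≃ₐ[K] L, g ∈ Subgroup.zpowers σ)
    (τ : M ≃ₐ[F] M) (hτ : ∀ g : M ≃ₐ[F] M, g ∈ Subgroup.zpowers τ) (d : ℕ)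
    (hd : lfGalRes K L F M τ = σ ^ d)
    (q₀ : T) (j₀ : L →+* PadicAlgCl ((q₀ : Nat.Primes) : ℕ))
    (t : Kˣ) (α₀ : GlJ T K)
    (hα₀ : ∀ (q : T) (i : K →+* PadicAlgCl ((q : Nat.Primes) : ℕ)),
      lgPlace ((q : Nat.Primes) : ℕ) i =
        lgPlace ((q₀ : Nat.Primes) : ℕ) (j₀.comp (algebraMap K L)) →
      h3Pr T q i α₀ = Units.map (lgEmb ((q : Nat.Primes) : ℕ) i : K →* _) t)
    (hα₁ : ∀ (q : T) (i : K →+* PadicAlgCl ((q : Nat.Primes) : ℕ)),
      lgPlace ((q : Nat.Primes) : ℕ) i ≠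
        lgPlace ((q₀ : Nat.Primes) : ℕ) (j₀.comp (algebraMap K L)) → h3Pr T q i α₀ = 1) :
    ∃ x : GlC T M, cycNorm τ x =
      glMk T M (glExt T F M (glExt T K F (α₀, 1))) ^
        (d * Nat.card (M ≃ₐ[F] M) / Nat.card (L ≃ₐ[K] L)) := by
  classical
  have hp : p.Prime := Fact.out
  have hGalFM : IsGalois F M := IsGalois.tower_top_of_isGalois K F M
  set v₀ : HeightOneSpectrum (𝓞 K) :=
    lgPlace ((q₀ : Nat.Primes) : ℕ) (j₀.comp (algebraMap K L)) with hv₀
  set e : ℕ := d * Nat.card (M ≃ₐ[F] M) / Nat.card (L ≃ₐ[K] L) with he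
  set tF : Fˣ := Units.map (algebraMap K F : K →* F) t with htF
  -- the data for the realisation theorem
  obtain ⟨𝔧⟩ := geChoice_nonempty F M
  set U : Finset (HeightOneSpectrum (𝓞 F)) := (gers_fiber_finite K (K' := F) v₀).toFinset with hU
  have hmemU : ∀ u : HeightOneSpectrum (𝓞 F), u ∈ U ↔ gersBelow K u = v₀ := fun u => by
    rw [hU, Set.Finite.mem_toFinset]; exact Iff.rfl
  have hsum := h3sr_sum_geInv_eq_zero hFL σ hσ τ hτ d hd t 𝔧 v₀
  obtain ⟨k', -, hdegFM⟩ : ∃ k' ≤ k, Module.finrank F M = p ^ k' := by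
    apply (Nat.dvd_prime_pow hp).mp
    rw [← hdegM, ← Module.finrank_mul_finrank K F M]
    exact Dvd.intro_left _ rfl
  obtain ⟨ζ, hζ'⟩ := hζ
  have hζF : IsPrimitiveRoot (algebraMap K F ζ) p :=
    hζ'.map_of_injective (algebraMap K F).injective
  obtain ⟨y, hy⟩ := h3sr_exists_realise hp2 hdegFM hζF τ hτ 𝔧 U (tF ^ e) hsum
  -- the invariants of `cyc(τ, y)` at an arbitrary embedding
  have hyJ : ∀ (q : ℕ) [Fact q.Prime] (J : M →+* PadicAlgCl q),
      geInv (K := F) q J (cycCocycle τ (Units.map (algebraMap F M : F →* M) y)) =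
        if lgPlace q ((J.comp (algebraMap F M)).comp (algebraMap K F)) = v₀ then
          geInv (K := F) q J (cycCocycle τ (Units.map (algebraMap F M : F →* M) (tF ^ e)))
        else 0 := by
    intro q _ J
    rw [gers_geInv_eq_choice 𝔧 q J (h3sr_cyc_isMulCocycle₂ τ hτ y) _ rfl,
      gers_geInv_eq_choice 𝔧 q J (h3sr_cyc_isMulCocycle₂ τ hτ (tF ^ e)) _ rfl, hy]
    refine if_congr ?_ rfl rfl
    rw [hmemU, gersBelow_lgPlace]
  -- a place of `F` above `v₀` lies above `T`
  have habove : ∀ u : HeightOneSpectrum (𝓞 F), gersBelow K u = v₀ → GlAbove T F u := by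
    intro u hu
    refine ⟨q₀, q₀.2, ?_⟩
    have h1 : ((((q₀ : Nat.Primes) : ℕ) : ℕ) : 𝓞 K) ∈ v₀.asIdeal :=
      natCast_mem_lgIdeal ((q₀ : Nat.Primes) : ℕ) (j₀.comp (algebraMap K L))
    rw [← hu, gersBelow_asIdeal, Ideal.mem_comap, map_natCast] at h1
    exact h1
  -- the `J`-half
  set A : GlJ T M := glExtJ T F M (glExtJ T K F α₀) ^ e /
    glDiagJ T M (Units.map (algebraMap F M : F →* M) y) with hA
  have hfixJ : ∀ x : GlJ T F, τ • glExtJ T F M x = glExtJ T F M x := by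
    intro x
    have h1 := glExt_smul_eq T F M τ (x, 1)
    exact congrArg Prod.fst h1
  have hfixA : τ • A = A := by
    rw [hA, smul_div', smul_pow', hfixJ, glDiagJ_smul, h3sr_smul_units_map]
  have hlocA : ∀ (q : T) (J : M →+* PadicAlgCl ((q : Nat.Primes) : ℕ)),
      IsMulCoboundary₂ (h3Loc (K := F) T q J (cycCocycle τ A)) := by
    intro q J
    by_cases hpl : lgPlace ((q : Nat.Primes) : ℕ) ((J.comp (algebraMap F M)).comp (algebraMap K F)) = v₀
    · refine h3sr_loc_cob T τ hτ q J A (tF ^ e) y ?_ ?_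
      · rw [hA, map_div, map_pow, h3sr_h3Pr_ext_of_eq T q J α₀ t (hα₀ q _ hpl), h3Pr_glDiagJ,
          ← map_pow, ← map_pow, ← map_div, ← map_div]
      · rw [hyJ ((q : Nat.Primes) : ℕ) J, if_pos hpl]
    · refine h3sr_loc_cob T τ hτ q J A 1 y ?_ ?_
      · rw [hA, map_div, map_pow, h3sr_h3Pr_ext_of_eq_one T q J α₀ (hα₁ q _ hpl), h3Pr_glDiagJ,
          one_pow, map_div, map_div, map_one, map_one]
      · rw [hyJ ((q : Nat.Primes) : ℕ) J, if_neg hpl, h3sr_geInv_cyc_one]
  obtain ⟨X, hX⟩ := h3sr_exists_J T τ hτ A hfixA hlocA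
  -- the ideal half
  have hurFM : GlUnramOutside T F M := gl_unramOutside_top T K F M hurM
  have h0 : ∀ u : HeightOneSpectrum (𝓞 F), ¬ GlAbove T F u →
      geInv (gePrime F u) (𝔧.emb u)
        (cycCocycle τ (Units.map (algebraMap F M : F →* M) y)) = 0 := by
    intro u hu
    rw [hy, if_neg]
    intro huU
    exact hu (habove u ((hmemU u).mp huU))
  obtain ⟨I_T, 𝔄, hI_T, h𝔄⟩ := h3sr_exists_ideal (K := K) T hurFM τ hτ 𝔧 y h0
  -- assembly
  refine ⟨glMk T M (X, 𝔄⁻¹), ?_⟩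
  have hnorm : cycNorm τ (glMk T M (X, 𝔄⁻¹)) =
      glMk T M (cycNorm τ X, (glExtI F M (glDiagI F y / I_T))⁻¹) := by
    have h1 : cycNorm τ (glMk T M (X, 𝔄⁻¹)) =
        glMk T M (∏ i ∈ Finset.range (orderOf τ), τ ^ i • ((X, 𝔄⁻¹) : GlIdele T M)) := by
      rw [cycNorm, map_prod]
      exact Finset.prod_congr rfl fun i _ => (glMk_smul T (τ ^ i) _).symm
    rw [h1]
    congr 1
    refine Prod.ext ?_ ?_
    · rw [Prod.fst_prod]
      rfl
    · rw [Prod.snd_prod, h𝔄, ← h3sr_prod_range_orderOf τ hτ (fun h => h • 𝔄),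
        ← Finset.prod_inv_distrib]
      exact Finset.prod_congr rfl fun i _ => smul_inv' (τ ^ i) 𝔄
  rw [hnorm, hX, ← map_pow, ← map_pow]
  symm
  rw [← div_eq_one, ← map_div (glMk T M), glMk_eq_one_iff]
  have hdivEq : glExt T F M (glExt T K F (α₀, 1) ^ e) /
      ((A, (glExtI F M (glDiagI F y / I_T))⁻¹) : GlIdele T M) =
      glDiag T M (Units.map (algebraMap F M : F →* M) y) * (1, (glExtI F M I_T)⁻¹) := by
    refine Prod.ext ?_ ?_
    · show glExtJ T F M ((glExtJ T K F α₀) ^ e) / A =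
        glDiagJ T M (Units.map (algebraMap F M : F →* M) y) * 1
      rw [hA, map_pow, mul_one, div_div_cancel]
    · show glExtI F M ((glExtI K F 1) ^ e) / (glExtI F M (glDiagI F y / I_T))⁻¹ =
        glDiagI M (Units.map (algebraMap F M : F →* M) y) * (glExtI F M I_T)⁻¹
      rw [map_one, one_pow, map_one, one_div, inv_inv, map_div, glExtI_glDiagI, div_eq_mul_inv]
  rw [hdivEq]
  refine Subgroup.mul_mem _ (Subgroup.mem_sup_left ⟨_, rfl⟩) (Subgroup.mem_sup_right ?_)
  rw [Subgroup.mem_prod]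
  exact ⟨Subgroup.mem_bot.mpr rfl,
    inv_mem ((glExtI_mem_glIdealsOn_iff T F M I_T).mpr hI_T)⟩

/-- CF3b: THE RESTRICTION of the special class to `Gal(M/F)` is trivial in `H²(Gal(M/F), C_T(M))`
when `[F:K] = [L:K]` and `M = F·L`. -/
theorem h3_special_res (hp2 : p ≠ 2) (hζ : ∃ ζ : K, IsPrimitiveRoot ζ p) {k : ℕ}
    (hdegM : Module.finrank K M = p ^ k) (hurM : GlUnramOutside T K M)
    (hFL : Module.finrank K F = Module.finrank K L)
    (hgen : ∀ s : M ≃ₐ[K] M, AlgEquiv.restrictNormalHom F s = 1 →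
      AlgEquiv.restrictNormalHom L s = 1 → s = 1)
    (σ : L ≃ₐ[K] L) (hσ : ∀ g : L ≃ₐ[K] L, g ∈ Subgroup.zpowers σ)
    (q₀ : T) (j₀ : L →+* PadicAlgCl ((q₀ : Nat.Primes) : ℕ))
    (hunr : ∀ J : M →+* PadicAlgCl ((q₀ : Nat.Primes) : ℕ),
      lgPlace ((q₀ : Nat.Primes) : ℕ) (J.comp (algebraMap K M)) =
        lgPlace ((q₀ : Nat.Primes) : ℕ) (j₀.comp (algebraMap K L)) →
      LfUnramified ((q₀ : Nat.Primes) : ℕ)
        (lgField ((q₀ : Nat.Primes) : ℕ) (J.comp (algebraMap K M)))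
        (lgField ((q₀ : Nat.Primes) : ℕ) J))
    (t : Kˣ) (α₀ : GlJ T K)
    (hα₀ : ∀ (q : T) (i : K →+* PadicAlgCl ((q : Nat.Primes) : ℕ)),
      lgPlace ((q : Nat.Primes) : ℕ) i =
        lgPlace ((q₀ : Nat.Primes) : ℕ) (j₀.comp (algebraMap K L)) →
      h3Pr T q i α₀ = Units.map (lgEmb ((q : Nat.Primes) : ℕ) i : K →* _) t)
    (hα₁ : ∀ (q : T) (i : K →+* PadicAlgCl ((q : Nat.Primes) : ℕ)),
      lgPlace ((q : Nat.Primes) : ℕ) i ≠
        lgPlace ((q₀ : Nat.Primes) : ℕ) (j₀.comp (algebraMap K L)) → h3Pr T q i α₀ = 1) :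
    IsMulCoboundary₂ (fun s : (AlgEquiv.restrictNormalHom F : (M ≃ₐ[K] M) →* (F ≃ₐ[K] F)).ker ×
        (AlgEquiv.restrictNormalHom F : (M ≃ₐ[K] M) →* (F ≃ₐ[K] F)).ker =>
      glMk T M (h3Special T K L M σ α₀ ((s.1 : M ≃ₐ[K] M), (s.2 : M ≃ₐ[K] M)))) := by
  classical
  have hGalFM : IsGalois F M := IsGalois.tower_top_of_isGalois K F M
  refine h3sr_transport T (fun s => glMk T M (h3Special T K L M σ α₀ s)) ?_
  set ρ : (M ≃ₐ[F] M) →* (L ≃ₐ[K] L) := lfGalRes K L F M with hρ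
  set j : GlIdele T L →* GlC T M := (glMk T M).comp (glExt T L M) with hj
  set α : GlIdele T L := glExt T K L (α₀, 1) with hα
  have hpull : (fun s : (M ≃ₐ[F] M) × (M ≃ₐ[F] M) =>
      glMk T M (h3Special T K L M σ α₀
        (h3ResScalars (K := K) M F s.1, h3ResScalars (K := K) M F s.2))) =
      pullCochain₂ ρ j (cycCocycle σ α) := by
    funext s
    rfl
  rw [hpull]
  -- `ρ` is injective
  have hρinj : Function.Injective ρ := by
    rw [injective_iff_map_eq_one]
    intro g hg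
    apply h3ResScalars_injective (K := K) M F
    rw [map_one]
    refine hgen _ ?_ hg
    have hmem : h3ResScalars (K := K) M F g ∈ h3Fix (K := K) M F := by
      rw [← h3ResScalars_range (K := K) M F]
      exact ⟨g, rfl⟩
    rw [h3Fix_eq_ker (K := K) M F] at hmem
    exact hmem
  -- generators
  have : IsCyclic (L ≃ₐ[K] L) := ⟨σ, hσ⟩
  have : IsCyclic (M ≃ₐ[F] M) := isCyclic_of_injective ρ hρinj
  obtain ⟨τ, hτ⟩ := IsCyclic.exists_generator (α := M ≃ₐ[F] M)
  obtain ⟨d, hd⟩ := cyc_exists_pow σ hσ (ρ τ)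
  have hσα : σ • α = α := glExt_smul_eq T K L σ (α₀, 1)
  have hjeq : ∀ (h : M ≃ₐ[F] M) (x : GlIdele T L), j (ρ h • x) = h • j x := by
    intro h x
    show glMk T M (glExt T L M (AlgEquiv.restrictNormalHom L (lfGalIncl K F M h) • x)) =
      h • glMk T M (glExt T L M x)
    rw [glExt_smul (K := K) T L M (lfGalIncl K F M h) x, glMk_smul]
    exact h3ResScalars_smul_glC (K := K) T M F h _
  have h1 := pullCochain₂_cycCocycle (G := L ≃ₐ[K] L) (X := GlIdele T L) (H := M ≃ₐ[F] M)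
    (Y := GlC T M) ρ j hjeq σ hσ τ hτ d hd.symm α hσα
  set e : ℕ := d * Nat.card (M ≃ₐ[F] M) / Nat.card (L ≃ₐ[K] L) with he
  have hjα : j α = glMk T M (glExt T F M (glExt T K F (α₀, 1))) := by
    show glMk T M (glExt T L M (glExt T K L (α₀, 1))) = _
    rw [glExt_glExt, glExt_glExt]
  have hfix : τ • (j α ^ e) = j α ^ e := by
    rw [smul_pow', hjα, ← glMk_smul, glExt_smul_eq T F M τ _]
  have h2 : IsMulCoboundary₂ (cycCocycle τ (j α ^ e)) := by
    refine (cycCocycle_isMulCoboundary₂_iff τ hτ (j α ^ e) hfix).mpr ?_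
    rw [hjα]
    exact h3sr_norm_equation T hp2 hζ hdegM hurM hFL σ hσ τ hτ d hd.symm q₀ j₀ t α₀ hα₀ hα₁
  have h3 := cohord_cob_mul h1 h2
  have h4 : pullCochain₂ ρ j (cycCocycle σ α) / cycCocycle τ (j α ^ e) * cycCocycle τ (j α ^ e) =
      pullCochain₂ ρ j (cycCocycle σ α) := by
    funext s
    exact div_mul_cancel (G := GlC T M) _ _
  rwa [h4] at h3

end CF3b

end Fermat.Agent.S55
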