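/-
S55 / Global / H3 (CORE-H3 = U1, owner helper12): leaf H3-CF3b.  SHIM: `h3_special_res` is proved
verbatim in `Global/H3/SpecialRes.lean` (helper23).
-/
import Fermat.Agent.S55.Global.H3.IdealDSpec
import Fermat.Agent.S55.Global.H3.IdealCSpec
import Fermat.Agent.S55.Global.H3.ClassDefs
import Fermat.Agent.S55.Global.H3.SemiLocalCohSpec
import Fermat.Agent.S55.Global.H3.FieldSpec
import Fermat.Agent.S55.Global.H3.TransSpec
import Fermat.Agent.S55.Global.H3.SpecialRes
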