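import Fermat.Agent.S55.Global.H3.Abstract
import Fermat.Agent.S55.Global.H3.IdealASpec
import Fermat.Agent.S55.Global.H3.IdealBSpec
import Fermat.Agent.S55.Global.H3.IdealCSpec
import Fermat.Agent.S55.Global.H3.IdealDSpec
import Fermat.Agent.S55.Global.H3.ClassDefs
import Fermat.Agent.S55.Global.H3.SemiLocalSpec
import Fermat.Agent.S55.Global.H3.SemiLocalCohSpec
import Fermat.Agent.S55.Global.H3.FieldSpec
import Fermat.Agent.S55.Global.H3.TransSpec
import Fermat.Agent.S55.Global.H3.DescSpec
import Fermat.Agent.S55.Global.H3.ClassH1Spec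
import Fermat.Agent.S55.Global.H3.ClassNormSpec
import Fermat.Agent.S55.Global.H3.ClassIndexSpec
import Fermat.Agent.S55.Global.H3.SpecialOrderSpec
import Fermat.Agent.S55.Global.H3.SpecialResSpec
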