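/-
S55 / Global / H3, shared helper file `Global/H3/Outside.lean` (split off from `ClassH1.lean`, used
by H3-CF1 and H3-CF3a): LOCAL TRIVIALITY OUTSIDE `T`.

Main statement `h3c1_loc_outside`: `M/E` Galois, unramified outside `T`; `x` a `2`-cocycle of
`Gal(M/E)` in `Mˣ` such that `(x(g,h)) · y(g,h) = g • I h / I (g h) * I g` for a `1`-cochain `I` of
fractional ideals and ideals `y(g,h)` supported above `T`.  Then `geLocLG q j x` is a coboundary at
every embedding `j` with `q ∉ T`.

Ingredients (all axioms-std): `h3c1_local_cob` (local: unramified, valuation of the cocycle is an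
integral coboundary ⇒ coboundary), `h3c1_count_fracAut` / `h3c1_count_smul` (the decomposition group
preserves multiplicities at its place), `h3c1_lfOrd_eq_count` (`ord_j y = count_w (y)`),
`h3c1Count` (multiplicity as a hom), `h3c1_d1_div`.
Black boxes: `ge_exists_resHomLG`, `geLocLG_isMulCocycle₂` (Recip/LocLGSpec).
-/
import Fermat.Agent.S55.Global.H3.Defs
import Fermat.Agent.S55.Global.Recip.LocLGSpec
import Fermat.Agent.S55.Global.UnramLoc
import Fermat.Agent.S55.LocalInv
import Fermat.Agent.S55.CohomOrder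
import Fermat.Agent.S14.Approx

set_option autoImplicit false
set_option linter.unusedSectionVars false
set_option linter.unusedVariables false

noncomputable section

namespace Fermat.Agent.S55

open scoped NumberField nonZeroDivisors
open NumberField IsDedekindDomain groupCohomology

section LocalLemma

variable (q : ℕ) [Fact q.Prime]
  (K : Type) [Field K] [Algebra ℚ_[q] K] [FiniteDimensional ℚ_[q] K]
  (L : Type) [Field L] [Algebra ℚ_[q] L] [FiniteDimensional ℚ_[q] L]
  [Algebra K L] [IsScalarTower ℚ_[q] K L]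

/-- A `2`-cocycle of an unramified extension whose valuation is the coboundary of an integer-valued
`1`-cochain is a coboundary. -/
theorem h3c1_local_cob (h : LfUnramified q K L)
    {c : (L ≃ₐ[K] L) × (L ≃ₐ[K] L) → Lˣ} (hc : IsMulCocycle₂ c) (a : (L ≃ₐ[K] L) → ℤ)
    (ha : ∀ σ τ : L ≃ₐ[K] L, lfOrd q L ((c (σ, τ) : Lˣ) : L) = a τ - a (σ * τ) + a σ) :
    IsMulCoboundary₂ c := by
  have : IsGalois K L := LfUnramified.isGalois q K L h
  obtain ⟨π, hπ⟩ := exists_isLfUniformizer q K
  have hπ0 : π ≠ 0 := IsLfUniformizer.ne_zero q K hπ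
  have hP0 : algebraMap K L π ≠ 0 := by
    rw [Ne, map_eq_zero]
    exact hπ0
  set ϖ : Lˣ := Units.mk0 (algebraMap K L π) hP0 with hPdef
  have hPord : lfOrd q L ((ϖ : Lˣ) : L) = 1 := by
    rw [hPdef, Units.val_mk0, lfOrd_algebraMap, h, hπ]
    simp
  have hPfix : ∀ σ : L ≃ₐ[K] L, σ • ϖ = ϖ := by
    intro σ
    apply Units.ext
    show σ (algebraMap K L π) = algebraMap K L π
    exact σ.commutes π
  set ξ : (L ≃ₐ[K] L) → Lˣ := fun σ => ϖ ^ (a σ) with hξ
  have hd : ∀ σ τ : L ≃ₐ[K] L, σ • ξ τ / ξ (σ * τ) * ξ σ = ϖ ^ (a τ - a (σ * τ) + a σ) := by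
    intro σ τ
    simp only [hξ]
    rw [smul_zpow', hPfix, zpow_add, zpow_sub]
    rw [div_eq_mul_inv]
  have hcob : IsMulCoboundary₂ (fun s : (L ≃ₐ[K] L) × (L ≃ₐ[K] L) =>
      s.1 • ξ s.2 / ξ (s.1 * s.2) * ξ s.1) := ⟨ξ, fun σ τ => rfl⟩
  set c' : (L ≃ₐ[K] L) × (L ≃ₐ[K] L) → Lˣ :=
    c / (fun s : (L ≃ₐ[K] L) × (L ≃ₐ[K] L) => s.1 • ξ s.2 / ξ (s.1 * s.2) * ξ s.1) with hc'
  have hc'coc : IsMulCocycle₂ c' := cohord_coc_div hc (cohord_coc_of_cob hcob)
  have hunits : ∀ s, c' s ∈ lfUnits q L := by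
    rintro ⟨σ, τ⟩
    rw [mem_lfUnits_iff, hc', Pi.div_apply, hd σ τ, Units.val_div_eq_div_val,
      div_eq_mul_inv, lfOrd_mul q L (Units.ne_zero _) (inv_ne_zero (Units.ne_zero _)), lfOrd_inv,
      ha σ τ, Units.val_zpow_eq_zpow_val, lfOrd_zpow, hPord]
    ring
  have hinv : localInv q K L c' = 0 := localInv_eq_zero_of_units q K L h hc'coc hunits
  have hcob' : IsMulCoboundary₂ c' := (localInv_eq_zero_iff q K L hc'coc).1 hinv
  have : c = c' * (fun s : (L ≃ₐ[K] L) × (L ≃ₐ[K] L) => s.1 • ξ s.2 / ξ (s.1 * s.2) * ξ s.1) := by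
    rw [hc', div_mul_cancel]
  rw [this]
  exact cohord_cob_mul hcob' hcob

end LocalLemma

section Count

variable {K L : Type} [Field K] [NumberField K] [Field L] [NumberField L] [Algebra K L]

open Fermat.Agent.S14 in
theorem h3c1_mem_map_intAut (σ : L ≃ₐ[K] L) (v : HeightOneSpectrum (𝓞 L))
    (hσ : ∀ x : 𝓞 L, intAut σ x ∈ v.asIdeal ↔ x ∈ v.asIdeal) :
    v.asIdeal.map (intAut σ) = v.asIdeal := by
  ext y
  rw [Ideal.mem_map_of_equiv]
  constructor
  · rintro ⟨x, hx, rfl⟩
    exact (hσ x).2 hx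
  · intro hy
    refine ⟨(intAut σ).symm y, ?_, RingEquiv.apply_symm_apply _ _⟩
    rw [← hσ, RingEquiv.apply_symm_apply]
    exact hy

open Fermat.Agent.S14 in
/-- An automorphism stabilising the place `v` preserves the multiplicity at `v`. -/
theorem h3c1_count_fracAut (σ : L ≃ₐ[K] L) (v : HeightOneSpectrum (𝓞 L))
    (hσ : ∀ x : 𝓞 L, intAut σ x ∈ v.asIdeal ↔ x ∈ v.asIdeal) (I : GlI L) :
    FractionalIdeal.count L v ((fracAut σ I : GlI L) : FractionalIdeal (𝓞 L)⁰ L) =
      FractionalIdeal.count L v (I : FractionalIdeal (𝓞 L)⁰ L) := by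
  classical
  have hv := h3c1_mem_map_intAut σ v hσ
  have key : ∀ D : S14.Div L, FractionalIdeal.count L v
      ((fracAut σ (Additive.toMul (divUnit L D)) : GlI L) : FractionalIdeal (𝓞 L)⁰ L) = D v := by
    intro D
    induction D using Finsupp.induction_linear with
    | zero =>
      rw [map_zero, toMul_zero, map_one, Units.val_one, FractionalIdeal.count_one]
      rfl
    | add D E hD hE =>
      rw [map_add, toMul_add, map_mul, Units.val_mul,
        FractionalIdeal.count_mul L v (Units.ne_zero _) (Units.ne_zero _), hD, hE]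
      rfl
    | single w n =>
      rw [divUnit_single, toMul_zsmul, toMul_ofMul, map_zpow, Units.val_zpow_eq_zpow_val,
        FractionalIdeal.count_zpow, coe_fracAut, FractionalIdeal.coe_mk0, fracAut_coeIdeal_aux]
      have hprime : (w.asIdeal.map (intAut σ)).IsPrime :=
        Ideal.map_isPrime_of_equiv (intAut σ)
      have hne : w.asIdeal.map (intAut σ) ≠ ⊥ := by
        intro h0
        apply w.ne_bot
        rw [Ideal.map_eq_bot_iff_of_injective (intAut σ).injective] at h0
        exact h0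
      set w' : HeightOneSpectrum (𝓞 L) := ⟨w.asIdeal.map (intAut σ), hprime, hne⟩ with hw'
      have h1 : ((placeIdeal L w : (Ideal (𝓞 L))⁰) : Ideal (𝓞 L)).map (intAut σ) =
          w'.asIdeal := rfl
      rw [h1, FractionalIdeal.count_maximal]
      by_cases hwv : w = v
      · subst hwv
        have : w' = w := HeightOneSpectrum.ext hv
        rw [if_pos this, Finsupp.single_eq_same, mul_one]
      · have : w' ≠ v := by
          intro h2
          apply hwv
          apply HeightOneSpectrum.ext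
          have h3 : w.asIdeal.map (intAut σ) = v.asIdeal.map (intAut σ) := by
            rw [hv, ← h2]
          have h4 := congrArg (fun J : Ideal (𝓞 L) => J.comap (intAut σ)) h3
          simp only [Ideal.comap_map_of_bijective (intAut σ) (intAut σ).bijective] at h4
          exact h4
        rw [if_neg this, mul_zero, Finsupp.single_eq_of_ne (Ne.symm hwv)]
  have hI : I = Additive.toMul (divUnit L (divOfIdeal L (I : FractionalIdeal (𝓞 L)⁰ L))) :=
    Units.ext (divIdeal_divOfIdeal L (Units.ne_zero I)).symm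
  conv_lhs => rw [hI]
  rw [key, divOfIdeal_apply]

end Count

section Dict

variable {K F : Type} [Field K] [NumberField K] [Field F] [NumberField F] [Algebra K F]

/-- `ord_j y = count_w (y)` for `w = lgPlace q j`. -/
theorem h3c1_lfOrd_eq_count (q : ℕ) [Fact q.Prime] (j : F →+* PadicAlgCl q) (y : Fˣ) :
    lfOrd q (lgField q j) (lgEmb q j (y : F)) =
      FractionalIdeal.count F (lgPlace q j)
        ((glDiagI F y : GlI F) : FractionalIdeal (𝓞 F)⁰ F) := by
  have h1 := lg_valuation_eq q j (y : F) y.ne_zero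
  have h2 := S14.approx_valuation_eq (y : F) y.ne_zero (lgPlace q j)
  rw [h1] at h2
  have h3 := WithZero.exp_injective h2
  have h4 : lfOrd q (lgField q j) (lgEmb q j (y : F)) = S14.divOf F (y : F) (lgPlace q j) :=
    neg_injective h3
  rw [h4, S14.divOf_apply]
  congr 1
  exact (coe_toPrincipalIdeal (R := 𝓞 F) (K := F) y).symm

/-- The restriction of a local automorphism stabilises the place. -/
theorem h3c1_intAut_mem_iff (q : ℕ) [Fact q.Prime] (j : F →+* PadicAlgCl q)
    (σ : lgField q j ≃ₐ[lgField q (j.comp (algebraMap K F))] lgField q j) (g : F ≃ₐ[K] F)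
    (hg : ∀ x : F, lgEmb q j (g x) = σ (lgEmb q j x)) (x : 𝓞 F) :
    S14.intAut g x ∈ (lgPlace q j).asIdeal ↔ x ∈ (lgPlace q j).asIdeal := by
  by_cases hx : x = 0
  · subst hx
    rw [map_zero]
  have hgx : S14.intAut g x ≠ 0 := by
    intro h
    apply hx
    exact (S14.intAut g).injective (by rw [h, map_zero])
  have h1 := lg_mem_pow_iff q j x hx 1
  have h2 := lg_mem_pow_iff q j (S14.intAut g x) hgx 1
  rw [pow_one] at h1 h2
  rw [h1, h2]
  have h3 : ((S14.intAut g x : 𝓞 F) : F) = g (x : F) := S14.algebraMap_intAut g x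
  rw [h3, hg, lfOrd_algEquiv]

/-- Multiplicities at `lgPlace q j` are invariant under the decomposition group. -/
theorem h3c1_count_smul (q : ℕ) [Fact q.Prime] (j : F →+* PadicAlgCl q)
    (σ : lgField q j ≃ₐ[lgField q (j.comp (algebraMap K F))] lgField q j) (g : F ≃ₐ[K] F)
    (hg : ∀ x : F, lgEmb q j (g x) = σ (lgEmb q j x)) (I : GlI F) :
    FractionalIdeal.count F (lgPlace q j) ((g • I : GlI F) : FractionalIdeal (𝓞 F)⁰ F) =
      FractionalIdeal.count F (lgPlace q j) (I : FractionalIdeal (𝓞 F)⁰ F) :=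
  h3c1_count_fracAut g (lgPlace q j) (h3c1_intAut_mem_iff q j σ g hg) I

end Dict

section Algebra

theorem h3c1_div_div_mul_div {X : Type*} [CommGroup X] (a b c d e f : X) :
    (a / b) / (c / d) * (e / f) = (a / c * e) / (b / d * f) := by
  simp only [div_eq_mul_inv, mul_inv, inv_inv, mul_comm, mul_left_comm, mul_assoc]

/-- `d¹ (x / z) = d¹ x / d¹ z`. -/
theorem h3c1_d1_div {G X : Type*} [Group G] [CommGroup X] [MulDistribMulAction G X]
    (x z : G → X) (g h : G) :
    g • (x h / z h) / (x (g * h) / z (g * h)) * (x g / z g) =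
      (g • x h / x (g * h) * x g) / (g • z h / z (g * h) * z g) := by
  rw [smul_div', h3c1_div_div_mul_div]

end Algebra

section CountHom

variable {F : Type} [Field F] [NumberField F]

/-- the multiplicity at `w` as a homomorphism. -/
def h3c1Count (w : HeightOneSpectrum (𝓞 F)) : GlI F →* Multiplicative ℤ where
  toFun I := Multiplicative.ofAdd
    (FractionalIdeal.count F w ((I : GlI F) : FractionalIdeal (𝓞 F)⁰ F))
  map_one' := by
    rw [Units.val_one, FractionalIdeal.count_one]
    rfl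
  map_mul' I J := by
    rw [Units.val_mul, FractionalIdeal.count_mul F w (Units.ne_zero I) (Units.ne_zero J)]
    rfl

theorem h3c1Count_apply (w : HeightOneSpectrum (𝓞 F)) (I : GlI F) :
    Multiplicative.toAdd (h3c1Count w I) =
      FractionalIdeal.count F w ((I : GlI F) : FractionalIdeal (𝓞 F)⁰ F) := rfl

end CountHom

section Outside

variable (T : Finset Nat.Primes) {E M : Type} [Field E] [NumberField E]
  [Field M] [NumberField M] [Algebra E M] [IsGalois E M]

/-- local triviality at the embeddings outside `T`. -/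
theorem h3c1_loc_outside (hur : GlUnramOutside T E M) (q : ℕ) [Fact q.Prime]
    (hq : ∀ s ∈ T, ((s : Nat.Primes) : ℕ) ≠ q) (j : M →+* PadicAlgCl q)
    (x : (M ≃ₐ[E] M) × (M ≃ₐ[E] M) → Mˣ) (hx : IsMulCocycle₂ x)
    (I : (M ≃ₐ[E] M) → GlI M) (y : (M ≃ₐ[E] M) → (M ≃ₐ[E] M) → GlI M)
    (hy : ∀ g h, y g h ∈ glIdealsOn T M)
    (hxy : ∀ g h, glDiagI M (x (g, h)) * y g h = g • I h / I (g * h) * I g) :
    IsMulCoboundary₂ (geLocLG q j x) := by
  obtain ⟨r, hr1, hr2, -⟩ := ge_exists_resHomLG q j (K := E)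
  have hunr := gl_lfUnramified_of_unramOutside T hur q hq j
  have hw : ¬ GlAbove T M (lgPlace q j) := gl_not_glAbove_lgPlace T q hq j
  refine h3c1_local_cob q _ _ hunr (geLocLG_isMulCocycle₂ q j x hx)
    (fun σ => FractionalIdeal.count M (lgPlace q j)
      ((I (r σ) : GlI M) : FractionalIdeal (𝓞 M)⁰ M)) ?_
  intro σ τ
  have h1 : geLocLG q j x (σ, τ) =
      Units.map (lgEmb q j : M →* lgField q j) (x (r σ, r τ)) := by
    rw [hr1 σ, hr1 τ]
    rfl
  rw [h1]
  have h2 : ((Units.map (lgEmb q j : M →* lgField q j) (x (r σ, r τ)) : (lgField q j)ˣ) :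
      lgField q j) = lgEmb q j ((x (r σ, r τ) : Mˣ) : M) := rfl
  rw [h2, h3c1_lfOrd_eq_count]
  have h3 := congrArg (fun J => Multiplicative.toAdd (h3c1Count (lgPlace q j) J))
    (hxy (r σ) (r τ))
  simp only [map_mul, map_div, toAdd_mul, toAdd_div, h3c1Count_apply] at h3
  rw [hy (r σ) (r τ) (lgPlace q j) hw, add_zero, h3c1_count_smul q j σ (r σ) (hr2 σ)] at h3
  rw [h3, map_mul]

end Outside

end Fermat.Agent.S55
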