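/-
S55 / Global / H3, leaf H3-CF1 (`Global/H3/ClassH1.lean`, row 321): `h3_cf1` of `ClassH1Spec.lean`
VERBATIM:
`H¹(Gal(M/E), C_T(M)) = 1` for `M/E` Galois of `p`-power degree, unramified outside `T ∋ p`, `μ_p ⊆ E`.

Route (as in the spec): lift `u` to `ũ : G → J_T(M) × I(M)`; `d¹ ũ = diag(x) · (1, y)` with `x` a
`2`-cocycle in `Mˣ` and `y` supported above `T`; `x` is locally a coboundary at every embedding:
above `T` by `h3Loc_isMulCoboundary₂` of the `J`-component, outside `T` because `M/E` is unramified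
and `ord_w x = d¹ (count_w ∘ ũ_I)` on the decomposition group (`h3c1_local_cob`: modify by powers
of a uniformizer of the base, `localInv_eq_zero_of_units`); `ge_hasse_principle` gives `x = d¹ ξ`;
after dividing `ũ` by `diag ∘ ξ` the `J`-component is a `1`-cocycle (`h3_sl1`) and the ideal
component is a `1`-cocycle modulo `I_T(M)` (`glI_exists_split` + `glI_h90`).

Black boxes: `mem_glPrinc_iff`, `glDiagJ_injective`, `glDiagJ_smul`, `glDiag_smul` (IdealASpec),
`glI_exists_split`, `glI_h90` (IdealCSpec), `h3Loc_isMulCoboundary₂` (SemiLocal), `h3_sl1`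
(SemiLocalCohSpec),
`ge_hasse_principle` (Recip/HassePrincipleSpec), `ge_exists_resHomLG`, `geLocLG_isMulCocycle₂`
(Recip/LocLGSpec).  Real: helper7 `Global/UnramLoc`, helper22 `LocalInv`, LG `Place`, S14 `Approx`.
Helper names are prefixed `h3c1`; the helpers (local triviality outside `T`) live in
`Global/H3/Outside.lean`.
-/
import Fermat.Agent.S55.Global.H3.IdealCSpec
import Fermat.Agent.S55.Global.H3.ClassDefs
import Fermat.Agent.S55.Global.H3.SemiLocalCohSpec
import Fermat.Agent.S55.Global.H3.FieldSpec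
import Fermat.Agent.S55.Global.Recip.HassePrincipleSpec
import Fermat.Agent.S55.Global.H3.Outside

set_option autoImplicit false
set_option linter.unusedSectionVars false
set_option linter.unusedVariables false

noncomputable section

namespace Fermat.Agent.S55

open scoped NumberField nonZeroDivisors
open NumberField IsDedekindDomain groupCohomology

section CF1

variable {p : ℕ} [Fact p.Prime] (T : Finset Nat.Primes) {E M : Type} [Field E] [NumberField E]
  [Field M] [NumberField M] [Algebra E M] [IsGalois E M]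

theorem h3_cf1 (hp2 : p ≠ 2) (hpT : ∃ q ∈ T, ((q : Nat.Primes) : ℕ) = p) {m : ℕ}
    (hdeg : Module.finrank E M = p ^ m) (hζ : ∃ ζ : E, IsPrimitiveRoot ζ p)
    (hur : GlUnramOutside T E M) (u : (M ≃ₐ[E] M) → GlC T M) (hu : IsMulCocycle₁ u) :
    IsMulCoboundary₁ u := by
  classical
  have hT : T.Nonempty := by
    obtain ⟨q, hq, -⟩ := hpT
    exact ⟨q, hq⟩
  obtain ⟨ζ, hζ⟩ := hζ
  -- Step 1: lift `u` to the truncated ideles
  choose ũ hũ using fun g => glMk_surjective T (u g)
  -- Step 2: the coboundary of the lift is `glPrinc`-valued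
  have hb : ∀ g h, g • ũ h / ũ (g * h) * ũ g ∈ glPrinc T M := by
    intro g h
    rw [← glMk_eq_one_iff, map_mul, map_div, glMk_smul, hũ, hũ, hũ, hu g h]
    rw [div_mul_eq_mul_div, div_eq_one]
  -- Step 3: decompose
  have hdec : ∀ g h, ∃ (a : Mˣ) (Y : GlI M), Y ∈ glIdealsOn T M ∧
      g • ũ h / ũ (g * h) * ũ g = glDiag T M a * (1, Y) :=
    fun g h => (mem_glPrinc_iff T _).1 (hb g h)
  choose x y hy hxy using hdec
  set α : (M ≃ₐ[E] M) → GlJ T M := fun g => (ũ g).1 with hα
  set I : (M ≃ₐ[E] M) → GlI M := fun g => (ũ g).2 with hI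
  have hx1 : ∀ g h, glDiagJ T M (x g h) = g • α h / α (g * h) * α g := by
    intro g h
    have := congrArg Prod.fst (hxy g h)
    simp only [Prod.fst_mul, Prod.fst_div, Prod.smul_fst, mul_one] at this
    exact this.symm
  have hx2 : ∀ g h, glDiagI M (x g h) * y g h = g • I h / I (g * h) * I g := by
    intro g h
    have := congrArg Prod.snd (hxy g h)
    simp only [Prod.snd_mul, Prod.snd_div, Prod.smul_snd] at this
    exact this.symm
  -- Step 4: `x` is a `2`-cocycle
  set x' : (M ≃ₐ[E] M) × (M ≃ₐ[E] M) → Mˣ := fun s => x s.1 s.2 with hx'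
  have hαcob : IsMulCoboundary₂ (fun s : (M ≃ₐ[E] M) × (M ≃ₐ[E] M) =>
      glDiagJ T M (x' s)) := ⟨α, fun g h => (hx1 g h).symm⟩
  have hαcoc := cohord_coc_of_cob hαcob
  have hxcoc : IsMulCocycle₂ x' := by
    intro g h k
    apply glDiagJ_injective T hT
    have := hαcoc g h k
    simp only at this
    rw [map_mul, map_mul, ← glDiagJ_smul (K := E)]
    exact this
  -- Step 5: `x` is locally a coboundary everywhere
  have hloc : ∀ (q : ℕ) [Fact q.Prime] (j : M →+* PadicAlgCl q),
      IsMulCoboundary₂ (geLocLG q j x') := by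
    intro q hqfact j
    by_cases hq : ∃ s ∈ T, ((s : Nat.Primes) : ℕ) = q
    · obtain ⟨s, hs, rfl⟩ := hq
      have hinst : hqfact = glFactPrime s := Subsingleton.elim _ _
      subst hinst
      have h1 := h3Loc_glDiagJ (K := E) T (⟨s, hs⟩ : T) j x'
      have h2 := h3Loc_isMulCoboundary₂ (K := E) T (⟨s, hs⟩ : T) j _ hαcob
      rw [h1] at h2
      exact h2
    · push Not at hq
      exact h3c1_loc_outside T hur q hq j x' hxcoc I y hy hx2
  -- Step 6: Hasse principle
  obtain ⟨ξ, hξ⟩ := ge_hasse_principle hp2 hdeg hζ x' hxcoc hloc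
  -- Step 7: modify the lift by the diagonal image of `ξ`
  set v : (M ≃ₐ[E] M) → GlIdele T M := fun g => ũ g / glDiag T M (ξ g) with hv
  have hvu : ∀ g, glMk T M (v g) = u g := by
    intro g
    rw [hv]
    simp only
    rw [map_div, glMk_glDiag, div_one, hũ]
  have hvd : ∀ g h, g • v h / v (g * h) * v g = (1, y g h) := by
    intro g h
    rw [hv]
    simp only
    have h0 := h3c1_d1_div ũ (fun g => glDiag T M (ξ g)) g h
    rw [h0, glDiag_smul (K := E), ← map_div, ← map_mul, hξ g h, hxy g h]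
    rw [mul_div_cancel_left]
  set α' : (M ≃ₐ[E] M) → GlJ T M := fun g => (v g).1 with hα'
  set I' : (M ≃ₐ[E] M) → GlI M := fun g => (v g).2 with hI'
  have hα'coc : IsMulCocycle₁ α' := by
    intro g h
    have := congrArg Prod.fst (hvd g h)
    simp only [Prod.fst_mul, Prod.fst_div, Prod.smul_fst] at this
    have h1 : g • α' h / α' (g * h) * α' g = 1 := this
    rw [div_mul_eq_mul_div, div_eq_one] at h1
    exact h1.symm
  obtain ⟨β, hβ⟩ := h3_sl1 (K := E) T α' hα'coc
  have hI'd : ∀ g h, g • I' h / I' (g * h) * I' g = y g h := by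
    intro g h
    have := congrArg Prod.snd (hvd g h)
    simp only [Prod.snd_mul, Prod.snd_div, Prod.smul_snd] at this
    exact this
  -- Step 8: split off the `T`-part of the ideal component
  obtain ⟨e, he1, he2, he3, -⟩ := glI_exists_split T (E := E) (M := M)
  set I'' : (M ≃ₐ[E] M) → GlI M := fun g => I' g / e (I' g) with hI''
  have hI''coc : ∀ g h, I'' (g * h) = g • I'' h * I'' g := by
    intro g h
    have h1 : g • I'' h / I'' (g * h) * I'' g = 1 := by
      rw [hI'']
      simp only
      have h0 := h3c1_d1_div I' (fun g => e (I' g)) g h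
      rw [h0, ← he3, ← map_div, ← map_mul, hI'd g h, he2 _ (hy g h), div_self']
    rw [div_mul_eq_mul_div, div_eq_one] at h1
    exact h1.symm
  obtain ⟨A, hA⟩ := glI_h90 (E := E) (M := M) (⊤ : Subgroup (M ≃ₐ[E] M))
    (fun h => I'' (h : M ≃ₐ[E] M)) (fun h₁ h₂ => hI''coc h₁ h₂)
  -- Step 9: conclusion
  refine ⟨glMk T M (β, A), fun g => ?_⟩
  rw [← hvu g, ← glMk_smul, ← map_div (glMk T M), ← div_eq_one, ← map_div (glMk T M),
    glMk_eq_one_iff]
  have hA' : g • A / A = I'' g := hA ⟨g, Subgroup.mem_top g⟩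
  have h1 : g • ((β, A) : GlIdele T M) / (β, A) / v g = (1, (e (I' g))⁻¹) := by
    apply Prod.ext
    · show g • β / β / α' g = 1
      rw [hβ g, div_self']
    · show g • A / A / I' g = (e (I' g))⁻¹
      rw [hA', hI'']
      simp only
      rw [div_div_cancel_left]
  rw [h1]
  exact Subgroup.mem_sup_right
    (Subgroup.mem_prod.2 ⟨Subgroup.mem_bot.2 rfl, inv_mem (he1 _)⟩)

end CF1

end Fermat.Agent.S55
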