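/-
S55 / Global / H3: the retraction `h3Retr : J_T(F) × I(F) → Fˣ` of the diagonal on `glPrinc`
(no sorry of its own; uses `IdealASpec`, `IdealBSpec`).
-/
import Fermat.Agent.S55.Global.H3.ClassDefs

set_option autoImplicit false

noncomputable section

namespace Fermat.Agent.S55

open scoped NumberField nonZeroDivisors
open NumberField IsDedekindDomain

section Retr

variable (T : Finset Nat.Primes) {K F : Type} [Field K] [NumberField K] [Field F] [NumberField F]
  [Algebra K F]

theorem h3Retr_of_fst_eq (hT : T.Nonempty) (x : GlIdele T F) (a : Fˣ)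
    (h : glDiagJ T F a = x.1) : h3Retr T F x = a := by
  classical
  have hex : ∃ a : Fˣ, glDiagJ T F a = x.1 := ⟨a, h⟩
  unfold h3Retr
  rw [dif_pos hex]
  apply glDiagJ_injective T hT
  rw [hex.choose_spec, h]

theorem h3Retr_glDiag_mul (hT : T.Nonempty) (a : Fˣ) (I : GlI F) :
    h3Retr T F (glDiag T F a * (1, I)) = a := by
  apply h3Retr_of_fst_eq T hT
  show glDiagJ T F a = glDiagJ T F a * 1
  rw [mul_one]

theorem h3Retr_glDiag (hT : T.Nonempty) (a : Fˣ) : h3Retr T F (glDiag T F a) = a := by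
  have := h3Retr_glDiag_mul T hT a 1
  rwa [show ((1 : GlJ T F), (1 : GlI F)) = 1 from rfl, mul_one] at this

/-- on `glPrinc` the first component is diagonal. -/
theorem h3Retr_spec (hT : T.Nonempty) (x : GlIdele T F) (hx : x ∈ glPrinc T F) :
    glDiagJ T F (h3Retr T F x) = x.1 := by
  obtain ⟨a, I, -, rfl⟩ := (mem_glPrinc_iff T x).1 hx
  rw [h3Retr_glDiag_mul T hT]
  show glDiagJ T F a = glDiagJ T F a * 1
  rw [mul_one]

theorem h3Retr_mul (hT : T.Nonempty) (x y : GlIdele T F) (hx : x ∈ glPrinc T F)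
    (hy : y ∈ glPrinc T F) : h3Retr T F (x * y) = h3Retr T F x * h3Retr T F y := by
  apply h3Retr_of_fst_eq T hT
  rw [map_mul, h3Retr_spec T hT x hx, h3Retr_spec T hT y hy]
  rfl

theorem h3Retr_smul (hT : T.Nonempty) (σ : F ≃ₐ[K] F) (x : GlIdele T F)
    (hx : x ∈ glPrinc T F) : h3Retr T F (σ • x) = σ • h3Retr T F x := by
  apply h3Retr_of_fst_eq T hT
  rw [← glDiagJ_smul, h3Retr_spec T hT x hx]
  rfl

end Retr

section RetrExt

variable (T : Finset Nat.Primes) (F M : Type) [Field F] [NumberField F] [Field M] [NumberField M]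
  [Algebra F M]

theorem h3Retr_glExt (hT : T.Nonempty) (x : GlIdele T F) (hx : x ∈ glPrinc T F) :
    h3Retr T M (glExt T F M x) = Units.map (algebraMap F M : F →* M) (h3Retr T F x) := by
  apply h3Retr_of_fst_eq T hT
  rw [← glExtJ_glDiagJ, h3Retr_spec T hT x hx]
  rfl

end RetrExt

end Fermat.Agent.S55
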