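/-
S55 / Global / H3: ASSEMBLY of CORE-H3 = U1 (`gl_h3_vanish`) from `h3_abstract` and the leaves.
-/
import Fermat.Agent.S55.Global.H3.AllSpec
import Fermat.Agent.S55.Global.H3.Retr
import Fermat.Agent.S55.Global.Recip.FullDegreeSpec
import Fermat.Agent.S55.Alg.H3Index
import Fermat.Agent.S55.Global.Recip.SupportSpec
import Fermat.Agent.S55.Global.UnramLoc
import Fermat.Agent.S55.LG.Spec

set_option autoImplicit false

noncomputable section

namespace Fermat.Agent.S55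

open scoped NumberField nonZeroDivisors
open NumberField IsDedekindDomain groupCohomology

/-! ## Part 1 : `H¹ = 1` and the index bound for subgroups -/

section Part1

variable {p : ℕ} [Fact p.Prime] (T : Finset Nat.Primes) {K F : Type} [Field K] [NumberField K]
  [Field F] [NumberField F] [Algebra K F] [IsGalois K F]

/-- `H¹(H, C_T(F)) = 1` for every subgroup `H` of the `p`-group `Gal(F/K)`. -/
theorem h3_cf1_subgroup (hp2 : p ≠ 2) (hpT : ∃ q ∈ T, ((q : Nat.Primes) : ℕ) = p) {k : ℕ}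
    (hdeg : Module.finrank K F = p ^ k) (hζ : ∃ ζ : K, IsPrimitiveRoot ζ p)
    (hur : GlUnramOutside T K F) (H : Subgroup (F ≃ₐ[K] F)) (u : H → GlC T F)
    (hu : IsMulCocycle₁ u) : IsMulCoboundary₁ u := by
  -- the fixed field
  set E := IntermediateField.fixedField H with hE
  have hcardH : Nat.card H ∣ p ^ k := by
    rw [← hdeg, ← IsGalois.card_aut_eq_finrank K F]
    exact Subgroup.card_subgroup_dvd_card H
  obtain ⟨m, -, hm⟩ := (Nat.dvd_prime_pow (Fact.out : p.Prime)).1 hcardH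
  have hdeg' : Module.finrank E F = p ^ m := by
    rw [hE, IntermediateField.finrank_fixedField_eq_card, hm]
  obtain ⟨ζ, hζ'⟩ := hζ
  have hζE : ∃ ζ' : E, IsPrimitiveRoot ζ' p :=
    ⟨algebraMap K E ζ, hζ'.map_of_injective (algebraMap K E).injective⟩
  have hurE : GlUnramOutside T E F := gl_unramOutside_top T K E F hur
  have key := h3_cf1 T hp2 hpT hdeg' hζE hurE
  obtain ⟨e₁, he₁⟩ := h3_exists_fixEquiv (K := K) F E
  have hfix : h3Fix (K := K) F E = H := h3Fix_fixedField H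
  let e : H ≃* (F ≃ₐ[E] F) := (MulEquiv.subgroupCongr hfix.symm).trans e₁.symm
  refine h3_transport_h90 e ?_ key u hu
  intro h x
  have h1 : (h : F ≃ₐ[K] F) = h3ResScalars (K := K) F E (e h) := by
    rw [← he₁ (e h)]
    simp [e]
  rw [Subgroup.smul_def, h1, h3ResScalars_smul_glC]

/-- The index bound `[Z²(G, C_T(F)) : B²(G, C_T(F))] ≤ |G|` for a `p`-group `G = Gal(F/K)`. -/
theorem h3_relIndex_le (hp2 : p ≠ 2) (hpT : ∃ q ∈ T, ((q : Nat.Primes) : ℕ) = p) {k : ℕ}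
    (hdeg : Module.finrank K F = p ^ k) (hζ : ∃ ζ : K, IsPrimitiveRoot ζ p)
    (hur : GlUnramOutside T K F) :
    (cohordB2 (F ≃ₐ[K] F) (GlC T F)).relIndex (cohordZ2 (F ≃ₐ[K] F) (GlC T F)) ≠ 0 ∧
      (cohordB2 (F ≃ₐ[K] F) (GlC T F)).relIndex (cohordZ2 (F ≃ₐ[K] F) (GlC T F)) ≤
        Nat.card (F ≃ₐ[K] F) := by
  have hT : T.Nonempty := by
    obtain ⟨q, hq, -⟩ := hpT
    exact ⟨q, hq⟩
  apply cohord_relIndex_le_card (F ≃ₐ[K] F) (GlC T F)
  · intro H u hu
    exact h3_cf1_subgroup T hp2 hpT hdeg hζ hur H u hu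
  · intro H H' hle hn ℓ hℓ hrel h₀ hh₀ hh₀' y hy
    have h1 : ℓ ∣ p ^ k := by
      rw [← hrel, ← hdeg, ← IsGalois.card_aut_eq_finrank K F]
      exact (Subgroup.relIndex_dvd_card H' H).trans (Subgroup.card_subgroup_dvd_card H)
    have h2 : ℓ = p :=
      (Nat.prime_dvd_prime_iff_eq hℓ (Fact.out : p.Prime)).1 (hℓ.dvd_of_dvd_pow h1)
    subst h2
    exact h3_idx T hT hur H H' hle hn hrel h₀ hh₀ hh₀' y hy

end Part1


/-! ## Part 2 : supports -/

section Support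

variable (F : Type) [Field F] [NumberField F]

omit [NumberField F] in
theorem glAbove_mono {T T' : Finset Nat.Primes} (h : T ⊆ T') (v : HeightOneSpectrum (𝓞 F))
    (hv : GlAbove T F v) : GlAbove T' F v := by
  obtain ⟨q, hq, hqv⟩ := hv
  exact ⟨q, h hq, hqv⟩

theorem glIdealsOn_mono {T T' : Finset Nat.Primes} (h : T ⊆ T') :
    glIdealsOn T F ≤ glIdealsOn T' F :=
  fun _ hI v hv => hI v (fun hv' => hv (glAbove_mono F h v hv'))

/-- every invertible fractional ideal is supported above a finite set of rational primes. -/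
theorem h3_exists_support_one (I : GlI F) : ∃ T₀ : Finset Nat.Primes, I ∈ glIdealsOn T₀ F := by
  classical
  have hfin := FractionalIdeal.finite_factors (K := F) (I : FractionalIdeal (𝓞 F)⁰ F)
  rw [Filter.eventually_cofinite] at hfin
  refine ⟨hfin.toFinset.image
    (fun v => (⟨gePrime F v, (gePrime_fact F v).out⟩ : Nat.Primes)), ?_⟩
  intro v hv
  by_contra hne
  apply hv
  refine ⟨⟨gePrime F v, (gePrime_fact F v).out⟩, ?_, natCast_gePrime_mem v⟩
  exact Finset.mem_image.2 ⟨v, hfin.mem_toFinset.2 hne, rfl⟩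

theorem h3_exists_support {ι : Type} [Finite ι] (x : ι → GlI F) :
    ∃ T₀ : Finset Nat.Primes, ∀ i, x i ∈ glIdealsOn T₀ F := by
  classical
  cases nonempty_fintype ι
  choose t ht using fun i => h3_exists_support_one F (x i)
  refine ⟨Finset.univ.biUnion t, fun i => ?_⟩
  exact glIdealsOn_mono F (Finset.subset_biUnion_of_mem t (Finset.mem_univ i)) (ht i)

end Support


/-! ## Part 3 : the upstairs hypotheses `(h1)` and descent on `ker π` -/

section Part3

variable {p : ℕ} [Fact p.Prime] (T : Finset Nat.Primes) {K F M : Type} [Field K] [NumberField K]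
  [Field F] [NumberField F] [Field M] [NumberField M] [Algebra K F] [Algebra F M] [Algebra K M]
  [IsScalarTower K F M] [IsGalois K F] [IsGalois K M]

/-- the isomorphism `ker (Gal(M/K) → Gal(F/K)) ≃ Gal(M/F)`, compatible with all actions. -/
theorem h3_exists_kerEquiv :
    ∃ e : (AlgEquiv.restrictNormalHom F : (M ≃ₐ[K] M) →* (F ≃ₐ[K] F)).ker ≃* (M ≃ₐ[F] M),
      ∀ h : (AlgEquiv.restrictNormalHom F : (M ≃ₐ[K] M) →* (F ≃ₐ[K] F)).ker,
        (h : M ≃ₐ[K] M) = h3ResScalars (K := K) M F (e h) := by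
  obtain ⟨e₁, he₁⟩ := h3_exists_fixEquiv (K := K) M F
  have hfix : h3Fix (K := K) M F =
      (AlgEquiv.restrictNormalHom F : (M ≃ₐ[K] M) →* (F ≃ₐ[K] F)).ker := h3Fix_eq_ker M F
  refine ⟨(MulEquiv.subgroupCongr hfix.symm).trans e₁.symm, fun h => ?_⟩
  rw [← he₁]
  simp

/-- `(h1)`: `H¹(ker π, C_T(M)) = 1`. -/
theorem h3_h90_ker (hp2 : p ≠ 2) (hpT : ∃ q ∈ T, ((q : Nat.Primes) : ℕ) = p) {k : ℕ}
    (hdeg : Module.finrank K M = p ^ k) (hζ : ∃ ζ : K, IsPrimitiveRoot ζ p)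
    (hur : GlUnramOutside T K M)
    (u : (AlgEquiv.restrictNormalHom F : (M ≃ₐ[K] M) →* (F ≃ₐ[K] F)).ker → GlC T M)
    (hu : IsMulCocycle₁ u) : IsMulCoboundary₁ u := by
  haveI : IsGalois F M := IsGalois.tower_top_of_isGalois K F M
  have hdvd : Module.finrank F M ∣ p ^ k := by
    rw [← hdeg, ← Module.finrank_mul_finrank K F M]
    exact dvd_mul_left _ _
  obtain ⟨m, -, hm⟩ := (Nat.dvd_prime_pow (Fact.out : p.Prime)).1 hdvd
  obtain ⟨ζ, hζ'⟩ := hζ
  have hζF : ∃ ζ' : F, IsPrimitiveRoot ζ' p :=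
    ⟨algebraMap K F ζ, hζ'.map_of_injective (algebraMap K F).injective⟩
  have hurF : GlUnramOutside T F M := gl_unramOutside_top T K F M hur
  have key := h3_cf1 T hp2 hpT hm hζF hurF
  obtain ⟨e, he⟩ := h3_exists_kerEquiv (K := K) (F := F) (M := M)
  refine h3_transport_h90 e ?_ key u hu
  intro h x
  rw [Subgroup.smul_def, he h, h3ResScalars_smul_glC]

/-- descent on `ker π`: the `ker π`-invariants of `C_T(M)` come from `C_T(F)`. -/
theorem h3_fix_ker (hT : T.Nonempty) (hur : GlUnramOutside T K M) (x : GlC T M)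
    (hx : ∀ n ∈ (AlgEquiv.restrictNormalHom F : (M ≃ₐ[K] M) →* (F ≃ₐ[K] F)).ker, n • x = x) :
    ∃ y : GlC T F, glExtC T F M y = x := by
  haveI : IsGalois F M := IsGalois.tower_top_of_isGalois K F M
  have hurF : GlUnramOutside T F M := gl_unramOutside_top T K F M hur
  refine glExtC_exists_of_invariant T F M hT hurF x (fun σ => ?_)
  have h1 : h3ResScalars (K := K) M F σ ∈
      (AlgEquiv.restrictNormalHom F : (M ≃ₐ[K] M) →* (F ≃ₐ[K] F)).ker := by
    rw [← h3Fix_eq_ker M F, ← h3ResScalars_range M F]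
    exact ⟨σ, rfl⟩
  rw [← h3ResScalars_smul_glC (K := K) T M F σ x]
  exact hx _ h1

end Part3


/-! ## Part 4 : the `p`-group case -/

section Part4

variable {p : ℕ} [Fact p.Prime]

/-- Step A in the form needed: a `2`-cochain `b` with values in `J_T(F) × I(F)` whose coboundary is
`(f ⊗ 1, 1)`. -/
theorem h3_exists_stepA (T : Finset Nat.Primes) {K F : Type} [Field K] [NumberField K] [Field F]
    [NumberField F] [Algebra K F] [IsGalois K F]
    (f : (F ≃ₐ[K] F) × (F ≃ₐ[K] F) × (F ≃ₐ[K] F) → Fˣ) (hf : IsMulCocycle₃ f) :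
    ∃ b : (F ≃ₐ[K] F) × (F ≃ₐ[K] F) → GlIdele T F,
      ∀ g h k : F ≃ₐ[K] F, h3D2 b (g, h, k) = (glDiagJ T F (f (g, h, k)), 1) := by
  have h1 : IsMulCocycle₃ (pullCochain₃ (MonoidHom.id (F ≃ₐ[K] F)) (glDiagJ T F) f) :=
    pullCochain₃_isMulCocycle₃ (MonoidHom.id _) (glDiagJ T F)
      (fun h x => (glDiagJ_smul T h x).symm) f hf
  obtain ⟨c, hc⟩ := h3_sl3 T _ h1
  refine ⟨fun s => (c s, 1), fun g h k => ?_⟩
  have h2 := hc g h k
  rw [h3D2_apply]
  apply Prod.ext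
  · exact h2
  · show g • (1 : GlI F) / 1 * 1 / 1 = 1
    rw [smul_one]
    simp

theorem h3_pgroup (hp2 : p ≠ 2) (S : Finset Nat.Primes)
    (hpS : ∃ q ∈ S, ((q : Nat.Primes) : ℕ) = p)
    (K F : Type) [Field K] [NumberField K] [Field F] [NumberField F] [Algebra K F] [IsGalois K F]
    (hζ : ∃ ζ : K, IsPrimitiveRoot ζ p) (hur : GlUnramOutside S K F) {k : ℕ}
    (hdeg : Module.finrank K F = p ^ k)
    (f : (F ≃ₐ[K] F) × (F ≃ₐ[K] F) × (F ≃ₐ[K] F) → Fˣ) (hf : IsMulCocycle₃ f) :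
    ∃ (F' : Type) (_ : Field F') (_ : NumberField F') (_ : Algebra K F') (_ : Algebra F F')
      (_ : IsScalarTower K F F') (_ : IsGalois K F'),
      GlUnramOutside S K F' ∧ IsMulCoboundary₃ (glInfl₃ K F F' f) := by
  classical
  -- the cyclic layer `L` of degree `p ^ k`
  obtain ⟨L, _, _, _, _, σ, hurL, hdegL, hσ⟩ := h3_exists_cyclic hp2 S hpS K hζ k
  haveI : IsCyclic (L ≃ₐ[K] L) := ⟨σ, hσ⟩
  -- a place `v₀` of full local degree, outside `S`
  obtain ⟨v₀, hv₀S, hv₀⟩ := ge_exists_full_local_degree (K := K) (L := L) hdegL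
    (S.image (fun q : Nat.Primes => (q : ℕ)))
  obtain ⟨i₀, hi₀⟩ := exists_lgEmb (gePrime K v₀) v₀ (natCast_gePrime_mem v₀)
  obtain ⟨j₀, hj₀⟩ := ge_exists_extend (L := L) (gePrime K v₀) i₀
  -- the auxiliary set `T`
  obtain ⟨T₀, hT₀⟩ := h3_exists_support F (fun s : (F ≃ₐ[K] F) × (F ≃ₐ[K] F) × (F ≃ₐ[K] F) =>
    glDiagI F (f s))
  set q₀' : Nat.Primes := ⟨gePrime K v₀, (gePrime_fact K v₀).out⟩ with hq₀'
  set T : Finset Nat.Primes := S ∪ T₀ ∪ {q₀'} with hT
  have hST : S ⊆ T := fun x hx => Finset.mem_union_left _ (Finset.mem_union_left _ hx)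
  have hT₀T : T₀ ⊆ T := fun x hx => Finset.mem_union_left _ (Finset.mem_union_right _ hx)
  have hq₀T : q₀' ∈ T := Finset.mem_union_right _ (Finset.mem_singleton_self _)
  have hpT : ∃ q ∈ T, ((q : Nat.Primes) : ℕ) = p := by
    obtain ⟨q, hq, hqp⟩ := hpS
    exact ⟨q, hST hq, hqp⟩
  have hTne : T.Nonempty := ⟨q₀', hq₀T⟩
  -- the compositum
  obtain ⟨M, _, _, _, _, _, _, _, _, hurM, hgen⟩ := h3_exists_compositum S K F L hur hurL
  -- `M/K` has `p`-power degree
  have hcardM : ∃ m, Module.finrank K M = p ^ m := by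
    let φ : (M ≃ₐ[K] M) →* (F ≃ₐ[K] F) × (L ≃ₐ[K] L) :=
      (AlgEquiv.restrictNormalHom F).prod (AlgEquiv.restrictNormalHom L)
    have hφ : Function.Injective φ := by
      rw [injective_iff_map_eq_one]
      intro s hs
      have h1 := Prod.ext_iff.1 hs
      exact hgen s h1.1 h1.2
    have hdvd : Nat.card (M ≃ₐ[K] M) ∣ Nat.card ((F ≃ₐ[K] F) × (L ≃ₐ[K] L)) :=
      Subgroup.card_dvd_of_injective φ hφ
    rw [Nat.card_prod, IsGalois.card_aut_eq_finrank, IsGalois.card_aut_eq_finrank,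
      IsGalois.card_aut_eq_finrank, hdeg, hdegL, ← pow_add] at hdvd
    obtain ⟨m, -, hm⟩ := (Nat.dvd_prime_pow (Fact.out : p.Prime)).1 hdvd
    exact ⟨m, hm⟩
  obtain ⟨m, hdegM⟩ := hcardM
  have hurMT : GlUnramOutside T K M := gl_unramOutside_mono hST K M hurM
  have hurFT : GlUnramOutside T K F := gl_unramOutside_mono hST K F hur
  -- the place `v₀` in terms of `j₀`
  have hv : lgPlace (gePrime K v₀) (j₀.comp (algebraMap K L)) = v₀ := by rw [hj₀, hi₀]
  obtain ⟨-, hfull⟩ := hv₀ (gePrime K v₀) j₀ hv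
  have hqS : ∀ s ∈ S, ((s : Nat.Primes) : ℕ) ≠ gePrime K v₀ := by
    intro s hs h
    exact hv₀S (Finset.mem_image.2 ⟨s, hs, h⟩)
  have hunr : ∀ J : M →+* PadicAlgCl (gePrime K v₀),
      lgPlace (gePrime K v₀) (J.comp (algebraMap K M)) =
        lgPlace (gePrime K v₀) (j₀.comp (algebraMap K L)) →
      LfUnramified (gePrime K v₀) (lgField (gePrime K v₀) (J.comp (algebraMap K M)))
        (lgField (gePrime K v₀) J) :=
    fun J _ => gl_lfUnramified_of_unramOutside S hurM (gePrime K v₀) hqS J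
  -- the uniformizer and the idele
  obtain ⟨π₀, hπ₀⟩ := lg_exists_uniformizer (gePrime K v₀) (j₀.comp (algebraMap K L))
  have hπ₀ne : (π₀ : K) ≠ 0 := by
    intro h0
    have h1 : lfOrd (gePrime K v₀) (lgField (gePrime K v₀) (j₀.comp (algebraMap K L)))
        (lgEmb (gePrime K v₀) (j₀.comp (algebraMap K L)) (π₀ : K)) = 1 := hπ₀
    rw [h0, map_zero, lfOrd_zero] at h1
    exact zero_ne_one h1
  set t : Kˣ := Units.mk0 (π₀ : K) hπ₀ne with ht
  obtain ⟨α₀, hα₀, hα₁⟩ := h3_exists_idele_at T v₀ t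
  let q₀ : T := ⟨q₀', hq₀T⟩
  have hα₀' : ∀ (q : T) (i : K →+* PadicAlgCl ((q : Nat.Primes) : ℕ)),
      lgPlace ((q : Nat.Primes) : ℕ) i =
        lgPlace ((q₀ : Nat.Primes) : ℕ) (j₀.comp (algebraMap K L)) →
      h3Pr T q i α₀ = Units.map (lgEmb ((q : Nat.Primes) : ℕ) i : K →* _) t :=
    fun q i h => hα₀ q i (h.trans hv)
  have hα₁' : ∀ (q : T) (i : K →+* PadicAlgCl ((q : Nat.Primes) : ℕ)),
      lgPlace ((q : Nat.Primes) : ℕ) i ≠
        lgPlace ((q₀ : Nat.Primes) : ℕ) (j₀.comp (algebraMap K L)) → h3Pr T q i α₀ = 1 :=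
    fun q i h => hα₁ q i (fun h' => h (h'.trans hv.symm))
  -- the data of `h3_abstract`
  have hπsurj : Function.Surjective
      (AlgEquiv.restrictNormalHom F : (M ≃ₐ[K] M) →* (F ≃ₐ[K] F)) :=
    AlgEquiv.restrictNormalHom_surjective M
  obtain ⟨b, hb⟩ := h3_exists_stepA T f hf
  obtain ⟨hidx0, hidx⟩ := h3_relIndex_le T hp2 hpT hdeg hζ hurFT
  have ha : IsMulCocycle₂ (h3Special T K L M σ α₀) := by
    have h1 : IsMulCocycle₂ (cycCocycle σ (glExt T K L (α₀, 1))) :=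
      cycCocycle_isMulCocycle₂ σ hσ _ (glExt_smul_eq T K L σ _)
    exact pullCochain₂_isMulCocycle₂
      (AlgEquiv.restrictNormalHom L : (M ≃ₐ[K] M) →* (L ≃ₐ[K] L)) (glExt T L M)
      (fun γ x => glExt_smul T L M γ x) _ h1
  have hares := h3_special_res (F := F) T hp2 hζ hdegM hurMT (hdeg.trans hdegL.symm) hgen σ hσ q₀ j₀
    hunr t α₀ hα₀' hα₁'
  have haord : ∀ m' : ℕ, IsMulCoboundary₂ (fun s : (M ≃ₐ[K] M) × (M ≃ₐ[K] M) =>
      glMk T M (h3Special T K L M σ α₀ s) ^ m') → Nat.card (F ≃ₐ[K] F) ∣ m' := by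
    intro m' hm'
    rw [IsGalois.card_aut_eq_finrank, hdeg, ← hdegL]
    exact h3_special_order T hp2 hζ hdegM hurMT σ hσ q₀ j₀ hfull hunr t hπ₀ α₀ hα₀' hα₁' m' hm'
  have hbq : ∀ g h k : F ≃ₐ[K] F, glMk T F (h3D2 b (g, h, k)) = 1 := by
    intro g h k
    rw [hb, glMk_eq_one_iff, mem_glPrinc_iff]
    refine ⟨f (g, h, k), (glDiagI F (f (g, h, k)))⁻¹,
      inv_mem (glIdealsOn_mono F hT₀T (hT₀ (g, h, k))), ?_⟩
    apply Prod.ext
    · show glDiagJ T F (f (g, h, k)) = glDiagJ T F (f (g, h, k)) * 1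
      rw [mul_one]
    · show (1 : GlI F) = glDiagI F (f (g, h, k)) * (glDiagI F (f (g, h, k)))⁻¹
      rw [mul_inv_cancel]
  have hbr : ∀ g h k : F ≃ₐ[K] F, h3Retr T F (h3D2 b (g, h, k)) = f (g, h, k) := by
    intro g h k
    rw [hb]
    exact h3Retr_of_fst_eq T hTne _ _ rfl
  refine ⟨M, inferInstance, inferInstance, inferInstance, inferInstance, inferInstance,
    inferInstance, hurM, ?_⟩
  exact h3_abstract (AlgEquiv.restrictNormalHom F : (M ≃ₐ[K] M) →* (F ≃ₐ[K] F)) hπsurj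
    (glMk T F) (glMk T M) (Units.map (algebraMap F M : F →* M)) (glExt T F M) (glExtC T F M)
    (fun g x => glMk_smul T g x) (fun γ x => glMk_smul T γ x) (glMk_surjective T)
    (fun γ x => glExt_smul T F M γ x) (fun γ x => glExtC_smul T F M γ x)
    (fun x => glExtC_glMk T F M x) (glExtC_injective T F M hTne)
    (fun x hx => h3_fix_ker T hTne hurMT x hx)
    (fun u hu => h3_h90_ker T hp2 hpT hdegM hζ hurMT u hu) hidx0 hidx
    (h3Special T K L M σ α₀) ha hares haord (h3Retr T F) (h3Retr T M)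
    (fun x y hx hy => h3Retr_mul T hTne x y ((glMk_eq_one_iff T x).1 hx)
      ((glMk_eq_one_iff T y).1 hy))
    (fun γ x hx => h3Retr_smul T hTne γ x ((glMk_eq_one_iff T x).1 hx))
    (fun x hx => h3Retr_glExt T F M hTne x ((glMk_eq_one_iff T x).1 hx)) f b hbq hbr

end Part4

end Fermat.Agent.S55
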