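/-
S55 / Global / H3: the SYLOW REDUCTION of `gl_h3_vanish` (U1) to the case of `p`-power degree.

`P` a Sylow `p`-subgroup of `G = Gal(F/K)`, `K' = F^P`.  The restriction of `f` to `Gal(F/K')` is
killed in an `S`-field `F'/K'` (hypothesis `hP`); `M/K` := a Galois `S`-field containing `F'`
(`h3_exists_closure`).  In `Gal(M/K)` the inflation `g` of `f` restricts to a coboundary on the
subgroup `h3Fix M K'` of index `[K' : K] = [G : P]` prime to `p`, so `g ^ [G:P]` is a coboundary
(`isMulCoboundary₃_pow_index_of_restrict`); `g ^ (p ^ k)` is a coboundary as well; Bezout.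
Helper names are prefixed `h3sy`.
-/
import Fermat.Agent.S55.Alg.H3Index
import Fermat.Agent.S55.Global.Infl
import Fermat.Agent.S55.Global.H3.Field
import Fermat.Agent.S55.Global.H3.Trans

set_option autoImplicit false
set_option linter.unusedSectionVars false
set_option linter.unusedVariables false

noncomputable section

namespace Fermat.Agent.S55

open scoped NumberField nonZeroDivisors
open NumberField IsDedekindDomain groupCohomology

/-! ## abstract cochain lemmas -/

section Abstract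

variable {G : Type} [Group G] {X : Type} [CommGroup X] [MulDistribMulAction G X]

/-- `d²` as a homomorphism of groups of cochains. -/
def h3syD2 : (G × G → X) →* (G × G × G → X) where
  toFun := glD2
  map_one' := by
    have h := glD2_pow (1 : G × G → X) 0
    rwa [pow_zero, pow_zero] at h
  map_mul' := glD2_mul

theorem h3sy_isMulCoboundary₃_iff (f : G × G × G → X) :
    IsMulCoboundary₃ f ↔ f ∈ (h3syD2 (G := G) (X := X)).range := by
  rw [isMulCoboundary₃_iff_glD2]
  rfl

/-- Bezout for coboundaries. -/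
theorem h3sy_isMulCoboundary₃_of_coprime (f : G × G × G → X) {m n : ℕ} (hmn : m.Coprime n)
    (hm : IsMulCoboundary₃ (f ^ m)) (hn : IsMulCoboundary₃ (f ^ n)) : IsMulCoboundary₃ f := by
  rw [h3sy_isMulCoboundary₃_iff] at hm hn ⊢
  obtain ⟨a, b, hab⟩ := Nat.isCoprime_iff_coprime.mpr hmn
  have h1 : f = (f ^ m) ^ a * (f ^ n) ^ b := by
    rw [← zpow_natCast f m, ← zpow_natCast f n, ← zpow_mul, ← zpow_mul, ← zpow_add,
      mul_comm (m : ℤ) a, mul_comm (n : ℤ) b, hab, zpow_one]
  rw [h1]
  exact Subgroup.mul_mem _ (Subgroup.zpow_mem _ hm a) (Subgroup.zpow_mem _ hn b)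

/-- transport of `3`-coboundaries along an equivariant isomorphism of groups. -/
theorem h3sy_transport_cob₃ {H H' : Type} [Group H] [Group H'] [MulDistribMulAction H X]
    [MulDistribMulAction H' X] (e : H ≃* H') (he : ∀ (h : H) (x : X), e h • x = h • x)
    (f : H' × H' × H' → X)
    (hf : IsMulCoboundary₃ (fun p : H × H × H => f (e p.1, e p.2.1, e p.2.2))) :
    IsMulCoboundary₃ f := by
  obtain ⟨c, hc⟩ := hf
  refine ⟨fun p => c (e.symm p.1, e.symm p.2), fun g h j => ?_⟩
  have h1 := hc (e.symm g) (e.symm h) (e.symm j)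
  simp only [MulEquiv.apply_symm_apply] at h1
  rw [← h1, ← he (e.symm g), MulEquiv.apply_symm_apply]
  show g • c (e.symm h, e.symm j) / c (e.symm (g * h), e.symm j) *
      c (e.symm g, e.symm (h * j)) / c (e.symm g, e.symm h) = _
  rw [map_mul, map_mul]

end Abstract

/-! ## inflation of coboundaries -/

section Infl

variable (K F F' : Type) [Field K] [Field F] [Field F'] [Algebra K F] [Algebra F F']
  [Algebra K F'] [IsScalarTower K F F'] [Normal K F]

theorem h3sy_glInfl₃_isMulCoboundary₃ (f : (F ≃ₐ[K] F) × (F ≃ₐ[K] F) × (F ≃ₐ[K] F) → Fˣ)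
    (hf : IsMulCoboundary₃ f) : IsMulCoboundary₃ (glInfl₃ K F F' f) := by
  rw [isMulCoboundary₃_iff_glD2] at hf ⊢
  obtain ⟨c, rfl⟩ := hf
  exact ⟨glInfl₂ K F F' c, (glInfl₃_glD2 K F F' c).symm⟩

end Infl

/-! ## descent along a subextension of degree prime to `p` -/

section Descent

variable (K K' F M : Type) [Field K] [NumberField K] [Field K'] [NumberField K'] [Field F]
  [NumberField F] [Field M] [NumberField M] [Algebra K K'] [Algebra K F] [Algebra K' F]
  [Algebra K M] [Algebra K' M] [Algebra F M] [IsScalarTower K K' F] [IsScalarTower K F M]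
  [IsScalarTower K' F M] [IsScalarTower K K' M] [IsGalois K F] [IsGalois K M]

/-- restriction of a `3`-cochain of `Gal(F/K)` to `Gal(F/K')`. -/
def h3syRes (f : (F ≃ₐ[K] F) × (F ≃ₐ[K] F) × (F ≃ₐ[K] F) → Fˣ) :
    (F ≃ₐ[K'] F) × (F ≃ₐ[K'] F) × (F ≃ₐ[K'] F) → Fˣ :=
  pullCochain₃ (h3ResScalars (K := K) F K') (MonoidHom.id Fˣ) f

theorem h3syRes_isMulCocycle₃ (f : (F ≃ₐ[K] F) × (F ≃ₐ[K] F) × (F ≃ₐ[K] F) → Fˣ)
    (hf : IsMulCocycle₃ f) : IsMulCocycle₃ (h3syRes K K' F f) :=
  pullCochain₃_isMulCocycle₃ (h3ResScalars (K := K) F K') (MonoidHom.id Fˣ)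
    (fun h x => h3ResScalars_smul_units F K' h x) f hf

theorem h3syRes_isMulCoboundary₃ (f : (F ≃ₐ[K] F) × (F ≃ₐ[K] F) × (F ≃ₐ[K] F) → Fˣ)
    (hf : IsMulCoboundary₃ f) : IsMulCoboundary₃ (h3syRes K K' F f) :=
  pullCochain₃_isMulCoboundary₃ (h3ResScalars (K := K) F K') (MonoidHom.id Fˣ)
    (fun h x => h3ResScalars_smul_units F K' h x) f hf

theorem h3syRes_pow (f : (F ≃ₐ[K] F) × (F ≃ₐ[K] F) × (F ≃ₐ[K] F) → Fˣ) (n : ℕ) :
    h3syRes K K' F (f ^ n) = h3syRes K K' F f ^ n := rfl

/-- restriction to `F` commutes with restriction of scalars. -/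
theorem h3sy_restrictNormalHom_resScalars [Normal K' F] (σ : M ≃ₐ[K'] M) :
    AlgEquiv.restrictNormalHom F (h3ResScalars (K := K) M K' σ) =
      h3ResScalars (K := K) F K' (AlgEquiv.restrictNormalHom F σ) := by
  ext x
  apply (algebraMap F M).injective
  have h1 : algebraMap F M (AlgEquiv.restrictNormalHom F (h3ResScalars (K := K) M K' σ) x) =
      (h3ResScalars (K := K) M K' σ) (algebraMap F M x) :=
    AlgEquiv.restrictNormal_commutes (h3ResScalars (K := K) M K' σ) F x
  have h2 : algebraMap F M (AlgEquiv.restrictNormalHom F σ x) = σ (algebraMap F M x) :=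
    AlgEquiv.restrictNormal_commutes σ F x
  rw [h1, h3ResScalars_apply, h3ResScalars_apply, h2]

/-- the index of `Gal(M/K')` in `Gal(M/K)`. -/
theorem h3sy_index_h3Fix : (h3Fix (K := K) M K').index = Module.finrank K K' := by
  have hG' : IsGalois K' M := IsGalois.tower_top_of_isGalois K K' M
  obtain ⟨e, -⟩ := h3_exists_fixEquiv (K := K) M K'
  have h1 := Subgroup.index_mul_card (h3Fix (K := K) M K')
  rw [← Nat.card_congr e.toEquiv, IsGalois.card_aut_eq_finrank K' M,
    IsGalois.card_aut_eq_finrank K M, ← Module.finrank_mul_finrank K K' M] at h1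
  exact Nat.eq_of_mul_eq_mul_right Module.finrank_pos h1

/-- DESCENT: if the inflation to `M` of the restriction of `f` to `Gal(F/K')` is a coboundary,
`[K' : K]` is prime to `p` and `f ^ (p ^ k)` is a coboundary, then the inflation of `f` to `M` is a
coboundary. -/
theorem h3sy_descent {p : ℕ} (hp : p.Prime) (hcop : ¬ p ∣ Module.finrank K K')
    (f : (F ≃ₐ[K] F) × (F ≃ₐ[K] F) × (F ≃ₐ[K] F) → Fˣ) (hf : IsMulCocycle₃ f)
    (k : ℕ) (hfk : IsMulCoboundary₃ (f ^ p ^ k)) [Normal K' F]
    (hres : IsMulCoboundary₃ (glInfl₃ K' F M (h3syRes K K' F f))) :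
    IsMulCoboundary₃ (glInfl₃ K F M f) := by
  have hg : IsMulCocycle₃ (glInfl₃ K F M f) := glInfl₃_isMulCocycle₃ K F M f hf
  obtain ⟨e, he⟩ := h3_exists_fixEquiv (K := K) M K'
  -- the restriction to `h3Fix M K'` is a coboundary
  have hresN : IsMulCoboundary₃ (fun q : (h3Fix (K := K) M K') × (h3Fix (K := K) M K') ×
      (h3Fix (K := K) M K') => glInfl₃ K F M f ((q.1 : M ≃ₐ[K] M), (q.2.1 : M ≃ₐ[K] M),
        (q.2.2 : M ≃ₐ[K] M))) := by
    refine h3sy_transport_cob₃ e ?_ _ ?_
    · intro h x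
      show ((e h : h3Fix (K := K) M K') : M ≃ₐ[K] M) • x = h • x
      rw [he]
      exact h3ResScalars_smul_units M K' h x
    · have heq : (fun q : (M ≃ₐ[K'] M) × (M ≃ₐ[K'] M) × (M ≃ₐ[K'] M) =>
          glInfl₃ K F M f (((e q.1 : h3Fix (K := K) M K') : M ≃ₐ[K] M),
            ((e q.2.1 : h3Fix (K := K) M K') : M ≃ₐ[K] M),
            ((e q.2.2 : h3Fix (K := K) M K') : M ≃ₐ[K] M))) =
          glInfl₃ K' F M (h3syRes K K' F f) := by
        funext ⟨σ, τ, ρ⟩
        show glInfl₃ K F M f (((e σ : h3Fix (K := K) M K') : M ≃ₐ[K] M),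
            ((e τ : h3Fix (K := K) M K') : M ≃ₐ[K] M),
            ((e ρ : h3Fix (K := K) M K') : M ≃ₐ[K] M)) = _
        rw [he, he, he, glInfl₃_apply, glInfl₃_apply, h3sy_restrictNormalHom_resScalars,
          h3sy_restrictNormalHom_resScalars, h3sy_restrictNormalHom_resScalars]
        rfl
      rw [heq]
      exact hres
  have h1 : IsMulCoboundary₃ (glInfl₃ K F M f ^ (h3Fix (K := K) M K').index) :=
    isMulCoboundary₃_pow_index_of_restrict (h3Fix (K := K) M K') _ hg hresN
  have h2 : IsMulCoboundary₃ (glInfl₃ K F M f ^ p ^ k) := by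
    rw [← glInfl₃_pow]
    exact h3sy_glInfl₃_isMulCoboundary₃ K F M _ hfk
  rw [h3sy_index_h3Fix] at h1
  exact h3sy_isMulCoboundary₃_of_coprime _
    (Nat.Coprime.pow_right k ((Nat.Prime.coprime_iff_not_dvd hp).mpr hcop).symm) h1 h2

end Descent

/-! ## the Sylow reduction -/

section Main

/-- Reduction along a subextension `K'/K` of `F/K` of degree prime to `p`: the statement for `F/K'`
implies the statement for `F/K`. -/
theorem h3sy_reduction_of_subfield {p : ℕ} [Fact p.Prime] (S : Finset Nat.Primes)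
    (K K' F : Type) [Field K] [NumberField K] [Field K'] [NumberField K'] [Field F] [NumberField F]
    [Algebra K K'] [Algebra K F] [Algebra K' F] [IsScalarTower K K' F] [IsGalois K F]
    [IsGalois K' F] (hcop : ¬ p ∣ Module.finrank K K') (hur : GlUnramOutside S K F)
    (f : (F ≃ₐ[K] F) × (F ≃ₐ[K] F) × (F ≃ₐ[K] F) → Fˣ) (hf : IsMulCocycle₃ f)
    (k : ℕ) (hfk : IsMulCoboundary₃ (f ^ p ^ k))
    (h : ∃ (F' : Type) (_ : Field F') (_ : NumberField F') (_ : Algebra K' F') (_ : Algebra F F')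
      (_ : IsScalarTower K' F F') (_ : IsGalois K' F'),
      GlUnramOutside S K' F' ∧ IsMulCoboundary₃ (glInfl₃ K' F F' (h3syRes K K' F f))) :
    ∃ (F' : Type) (_ : Field F') (_ : NumberField F') (_ : Algebra K F') (_ : Algebra F F')
      (_ : IsScalarTower K F F') (_ : IsGalois K F'),
      GlUnramOutside S K F' ∧ IsMulCoboundary₃ (glInfl₃ K F F' f) := by
  have hp : p.Prime := Fact.out
  have hurK' : GlUnramOutside S K K' := gl_unramOutside_bot S K K' F hur
  obtain ⟨F', iF'f, iF'n, iK'F', iFF', tK'FF', gK'F', hurF', hcobF'⟩ := h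
  -- `F'` as an extension of `K`, and a Galois closure `M`
  let iKF' : Algebra K F' := ((algebraMap K' F').comp (algebraMap K K')).toAlgebra
  have tKK'F' : IsScalarTower K K' F' := IsScalarTower.of_algebraMap_eq (fun x => rfl)
  have hurKF' : GlUnramOutside S K F' := gl_unramOutside_trans S K K' F' hurK' hurF'
  obtain ⟨M, iMf, iMn, iKM, iK'M, iF'M, tKK'M, tKF'M, tK'F'M, gKM, hurM⟩ :=
    h3_exists_closure S K K' F' hurKF'
  let iFM : Algebra F M := ((algebraMap F' M).comp (algebraMap F F')).toAlgebra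
  have tFF'M : IsScalarTower F F' M := IsScalarTower.of_algebraMap_eq (fun x => rfl)
  have tK'FM : IsScalarTower K' F M := by
    refine IsScalarTower.of_algebraMap_eq (fun x => ?_)
    show _ = algebraMap F' M (algebraMap F F' (algebraMap K' F x))
    rw [← IsScalarTower.algebraMap_apply K' F F', ← IsScalarTower.algebraMap_apply K' F' M]
  have tKFM : IsScalarTower K F M := by
    refine IsScalarTower.of_algebraMap_eq (fun x => ?_)
    rw [IsScalarTower.algebraMap_apply K K' M, IsScalarTower.algebraMap_apply K K' F,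
      ← IsScalarTower.algebraMap_apply K' F M]
  refine ⟨M, iMf, iMn, iKM, iFM, tKFM, gKM, hurM, ?_⟩
  have hnK'F : Normal K' F := IsGalois.to_normal
  have hnK'F' : Normal K' F' := gK'F'.to_normal
  refine h3sy_descent K K' F M hp hcop f hf k hfk ?_
  rw [← glInfl₃_trans K' F F' M]
  exact h3sy_glInfl₃_isMulCoboundary₃ K' F' M _ hcobF'

/-- SYLOW REDUCTION of `gl_h3_vanish`: it suffices to treat `S`-fields `F/K` of `p`-power degree. -/
theorem h3_sylow_reduction {p : ℕ} [Fact p.Prime] (S : Finset Nat.Primes)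
    (hP : ∀ (K F : Type) [Field K] [NumberField K] [Field F] [NumberField F] [Algebra K F]
      [IsGalois K F], (∃ ζ : K, IsPrimitiveRoot ζ p) → GlUnramOutside S K F →
      (∃ m : ℕ, Module.finrank K F = p ^ m) →
      ∀ f : (F ≃ₐ[K] F) × (F ≃ₐ[K] F) × (F ≃ₐ[K] F) → Fˣ, IsMulCocycle₃ f →
      ∀ k : ℕ, IsMulCoboundary₃ (f ^ p ^ k) →
      ∃ (F' : Type) (_ : Field F') (_ : NumberField F') (_ : Algebra K F') (_ : Algebra F F')
        (_ : IsScalarTower K F F') (_ : IsGalois K F'),
        GlUnramOutside S K F' ∧ IsMulCoboundary₃ (glInfl₃ K F F' f))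
    (K F : Type) [Field K] [NumberField K] [Field F] [NumberField F] [Algebra K F] [IsGalois K F]
    (hζ : ∃ ζ : K, IsPrimitiveRoot ζ p) (hur : GlUnramOutside S K F)
    (f : (F ≃ₐ[K] F) × (F ≃ₐ[K] F) × (F ≃ₐ[K] F) → Fˣ) (hf : IsMulCocycle₃ f)
    (k : ℕ) (hfk : IsMulCoboundary₃ (f ^ p ^ k)) :
    ∃ (F' : Type) (_ : Field F') (_ : NumberField F') (_ : Algebra K F') (_ : Algebra F F')
      (_ : IsScalarTower K F F') (_ : IsGalois K F'),
      GlUnramOutside S K F' ∧ IsMulCoboundary₃ (glInfl₃ K F F' f) := by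
  -- a Sylow subgroup and its fixed field
  obtain ⟨P⟩ : Nonempty (Sylow p (F ≃ₐ[K] F)) := inferInstance
  have hGal' : IsGalois (IntermediateField.fixedField (P : Subgroup (F ≃ₐ[K] F))) F :=
    IsGalois.tower_top_of_isGalois K _ F
  have hdeg' : Module.finrank (IntermediateField.fixedField (P : Subgroup (F ≃ₐ[K] F))) F =
      p ^ (Nat.card (F ≃ₐ[K] F)).factorization p := by
    rw [IntermediateField.finrank_fixedField_eq_card, Sylow.card_eq_multiplicity]
  have hcop : ¬ p ∣ Module.finrank K (IntermediateField.fixedField (P : Subgroup (F ≃ₐ[K] F))) := by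
    rw [IntermediateField.finrank_eq_fixingSubgroup_index, IntermediateField.fixingSubgroup_fixedField]
    exact Sylow.not_dvd_index P
  have hζ' : ∃ ζ : IntermediateField.fixedField (P : Subgroup (F ≃ₐ[K] F)), IsPrimitiveRoot ζ p := by
    obtain ⟨ζ, hζ⟩ := hζ
    exact ⟨algebraMap K _ ζ, hζ.map_of_injective (algebraMap K _).injective⟩
  have hur' : GlUnramOutside S (IntermediateField.fixedField (P : Subgroup (F ≃ₐ[K] F))) F :=
    gl_unramOutside_top S K _ F hur
  refine h3sy_reduction_of_subfield S K (IntermediateField.fixedField (P : Subgroup (F ≃ₐ[K] F))) F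
    hcop hur f hf k hfk ?_
  exact hP (IntermediateField.fixedField (P : Subgroup (F ≃ₐ[K] F))) F hζ' hur' ⟨_, hdeg'⟩
    (h3syRes K (IntermediateField.fixedField (P : Subgroup (F ≃ₐ[K] F))) F f)
    (h3syRes_isMulCocycle₃ K _ F f hf) k
    (by rw [← h3syRes_pow]; exact h3syRes_isMulCoboundary₃ K _ F _ hfk)

end Main

end Fermat.Agent.S55
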