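/-
S55 / Global / H3, leaf H3-SYL: `gl_h3_vanish` (U1, helper14's `H3Spec` statement verbatim) from the
`p`-group case `h3_pgroup` (`H3/Main.lean`) by the Sylow reduction `h3_sylow_reduction`
(`H3/Sylow.lean`).
-/
import Fermat.Agent.S55.Global.H3.Main
import Fermat.Agent.S55.Global.H3.Sylow

set_option autoImplicit false

noncomputable section

namespace Fermat.Agent.S55

open scoped NumberField
open NumberField

theorem gl_h3_vanish {p : ℕ} [Fact p.Prime] (hp2 : p ≠ 2) (S : Finset Nat.Primes)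
    (hpS : ∃ q ∈ S, ((q : Nat.Primes) : ℕ) = p)
    (K F : Type) [Field K] [NumberField K] [Field F] [NumberField F] [Algebra K F] [IsGalois K F]
    (hζ : ∃ ζ : K, IsPrimitiveRoot ζ p) (hur : GlUnramOutside S K F)
    (f : (F ≃ₐ[K] F) × (F ≃ₐ[K] F) × (F ≃ₐ[K] F) → Fˣ) (hf : IsMulCocycle₃ f)
    (k : ℕ) (hfk : IsMulCoboundary₃ (f ^ p ^ k)) :
    ∃ (F' : Type) (_ : Field F') (_ : NumberField F') (_ : Algebra K F') (_ : Algebra F F')
      (_ : IsScalarTower K F F') (_ : IsGalois K F'),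
      GlUnramOutside S K F' ∧ IsMulCoboundary₃ (glInfl₃ K F F' f) :=
  h3_sylow_reduction S
    (fun K F _ _ _ _ _ _ hζ hur hm f hf _ _ =>
      h3_pgroup hp2 S hpS K F hζ hur hm.choose_spec f hf)
    K F hζ hur f hf k hfk

end Fermat.Agent.S55
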